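import Fermat.Agent.NEB.OLD.Defs
import Fermat.Agent.S36.NU.H82_Deg2
import Fermat.Agent.S36.H44_NormSq
import Fermat.Agent.RED.ES.H95_ES2
import Fermat.Agent.RED.ES.H95_NormAlpha
import Fermat.Agent.RED.HR.H51_FinrankAlong

/-!
# NEB, package OLDNEW, leaf OLD-DEG (helper6): `[F₀(Mq²) : β' F₀(Mq)] = q` for a prime `q ∤ M`

Tower law in the commutative square `β' ∘ α = α' ∘ β`
```
F_{Mq} --β'--> F_{Mq²}
  ^               ^
  α               α'
 F_M  ---β--->  F_{Mq}
```
with `[F_{Mq} : α F_M] = q + 1 = [F_{Mq} : β F_M]` (`RED.H95.finrankAlong_alpha`,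
`finrankAlong_beta`, `q ∤ M`) and `[F_{Mq²} : α' F_{Mq}] = q` (`S36.NU.H82.relfinrank_FM_FN_of_dvd`,
`q ∣ M q`).
-/

set_option autoImplicit false
set_option linter.style.haveILetI false

noncomputable section

namespace Fermat.Agent.NEB.OLD.H6

open AlgebraicCurve ModularCurve Fermat.Agent.S36.H44

local notation "Kb" => AlgebraicClosure ℚ

/-- `finrankHom` of the underlying ring homomorphism is `finrankAlong`. -/
theorem rlfHomAlong {K F F' : Type*} [Field K] [Field F] [Field F'] [Algebra K F]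
    [Algebra K F'] (φ : F →ₐ[K] F') : finrankHom φ.toRingHom = finrankAlong K φ := rfl

/-- `[F_{Nq} : α F_N] = q` for a prime `q ∣ N`, in the vocabulary of the prelude. -/
theorem finrankAlong_alpha_of_dvd (N q : ℕ) [NeZero N] [NeZero q] (hq : q.Prime)
    (hqN : q ∣ N) : finrankAlong Kb (heckeAlphaBar Kb N q) = q := by
  haveI : NeZero (N * q) := ⟨Nat.mul_ne_zero (NeZero.ne N) (NeZero.ne q)⟩
  have h1 := Fermat.Agent.RED.H51.finrankAlong_eq_relfinrank_map
    (laurentBaseChange Kb (modularFunctionFieldFull N))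
    (laurentBaseChange Kb (modularFunctionFieldFull (N * q)))
    (AlgHom.id Kb (LaurentSeries Kb)) (heckeAlphaBar Kb N q)
    (fun x => coe_heckeAlphaBar N q x)
  rw [h1, IntermediateField.map_id]
  exact Fermat.Agent.S36.NU.H82.relfinrank_FM_FN_of_dvd q N hq hqN

/-- **OLD-DEG**. -/
theorem stmt_DegBeta : Stmt_DegBeta := by
  intro M q _ _ _ hq hqM
  have hsq : (heckeBetaBar Kb (M * q) q).toRingHom.comp (heckeAlphaBar Kb M q).toRingHom
      = (heckeAlphaBar Kb (M * q) q).toRingHom.comp (heckeBetaBar Kb M q).toRingHom := by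
    ext x
    simp only [RingHom.comp_apply, AlgHom.toRingHom_eq_coe, RingHom.coe_coe, coe_heckeBetaBar,
      coe_heckeAlphaBar]
  have h1 := finrank_comp_h44 (heckeAlphaBar Kb M q).toRingHom
    (heckeBetaBar Kb (M * q) q).toRingHom
  have h2 := finrank_comp_h44 (heckeBetaBar Kb M q).toRingHom
    (heckeAlphaBar Kb (M * q) q).toRingHom
  have ha : finrankHom (heckeAlphaBar Kb M q).toRingHom = q + 1 :=
    (rlfHomAlong _).trans (Fermat.Agent.RED.H95.finrankAlong_alpha hq hqM)
  have hb : finrankHom (heckeBetaBar Kb M q).toRingHom = q + 1 :=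
    (rlfHomAlong _).trans (Fermat.Agent.RED.H95.finrankAlong_beta hq hqM)
  have ha' : finrankHom (heckeAlphaBar Kb (M * q) q).toRingHom = q :=
    (rlfHomAlong _).trans
      (finrankAlong_alpha_of_dvd (M * q) q hq (dvd_mul_left q M))
  rw [hsq, h2, ha, hb, ha'] at h1
  have h3 : finrankHom (heckeBetaBar Kb (M * q) q).toRingHom = q :=
    (Nat.eq_of_mul_eq_mul_left (Nat.succ_pos q) h1).symm
  exact (rlfHomAlong _).symm.trans h3

end Fermat.Agent.NEB.OLD.H6
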