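/-
NEB, package OLDNEW (owner helper14), leaf OLD-ABS (helper38): the algebra of old and new classes
at one prime.  Mathlib only.  Plan: helper14's note (OLDNEW), NEB/OLD/Defs.lean.

Idea.  `(ad, bd) ∘ U = (q bd, T bd - ad)`, so `ad ((U - c)^m y)` is `g_m(T)` applied to the data of
`y`, for explicit polynomials `g_m ∈ 𝒪[X]`; modulo `I = (X - (a + a'), q - a a')` these are units,
and an element of `𝒪[X]` which is a unit modulo `I` acts bijectively on `A` (`T - (a + a')` and
`q - a a'` being locally nilpotent).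
-/
import Mathlib

set_option autoImplicit false

namespace Fermat.Agent.NEB.OLD.H38

open Polynomial

/-! ### Locally nilpotent endomorphisms -/

section LocNil

variable {𝒪 : Type*} [CommRing 𝒪] {A : Type*} [AddCommGroup A] [Module 𝒪 A]

/-- If `X₁, X₂` commute, `X₁ ^ n` and `X₂ ^ k` kill `w`, then `(X₁ + X₂) ^ (n + k)` kills `w`. -/
lemma add_pow_apply_eq_zero {X₁ X₂ : Module.End 𝒪 A} (hc : Commute X₁ X₂) {w : A} {n k : ℕ}
    (h₁ : (X₁ ^ n) w = 0) (h₂ : (X₂ ^ k) w = 0) : ((X₁ + X₂) ^ (n + k)) w = 0 := by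
  rw [hc.add_pow, LinearMap.sum_apply]
  refine Finset.sum_eq_zero fun i hi => ?_
  rw [← nsmul_eq_mul', LinearMap.smul_apply]
  have hi' : i ≤ n + k := Nat.lt_succ_iff.1 (Finset.mem_range.1 hi)
  suffices h : (X₁ ^ i * X₂ ^ (n + k - i)) w = 0 by rw [h, smul_zero]
  by_cases hin : n ≤ i
  · -- `X₁ ^ i` kills `w`
    have e : X₁ ^ i * X₂ ^ (n + k - i) = X₂ ^ (n + k - i) * X₁ ^ (i - n) * X₁ ^ n := by
      rw [mul_assoc, ← pow_add, Nat.sub_add_cancel hin]
      exact ((hc.pow_pow i (n + k - i))).eq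
    rw [e, Module.End.mul_apply, h₁, map_zero]
  · -- `X₂ ^ (n + k - i)` kills `w`
    have hk : k ≤ n + k - i := by omega
    have e : X₁ ^ i * X₂ ^ (n + k - i) = X₁ ^ i * X₂ ^ (n + k - i - k) * X₂ ^ k := by
      rw [mul_assoc, ← pow_add, Nat.sub_add_cancel hk]
    rw [e, Module.End.mul_apply, h₂, map_zero]

/-- `1 + N` is bijective when `N` is locally nilpotent. -/
lemma bijective_one_add {N : Module.End 𝒪 A} (hN : ∀ x : A, ∃ n : ℕ, (N ^ n) x = 0) :
    Function.Bijective ((1 + N : Module.End 𝒪 A) : A → A) := by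
  constructor
  · rw [injective_iff_map_eq_zero]
    intro x hx
    have h1 : N x = -x := by
      have : x + N x = 0 := by simpa using hx
      exact eq_neg_of_add_eq_zero_right this
    have h2 : ∀ n : ℕ, (N ^ n) x = (-1 : 𝒪) ^ n • x := by
      intro n
      induction n with
      | zero => simp
      | succ n ih =>
        rw [pow_succ, Module.End.mul_apply, h1, map_neg, ih, pow_succ, mul_smul]
        simp
    obtain ⟨n, hn⟩ := hN x
    rw [h2 n] at hn
    have := congrArg (fun t => (-1 : 𝒪) ^ n • t) hn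
    simp only [smul_zero, ← mul_smul, ← mul_pow] at this
    simpa using this
  · intro y
    obtain ⟨n, hn⟩ := hN y
    refine ⟨(∑ i ∈ Finset.range n, (-N) ^ i) y, ?_⟩
    have h1 : (1 + N) * ∑ i ∈ Finset.range n, (-N) ^ i = 1 - (-N) ^ n := by
      have := mul_neg_geom_sum (-N) n
      rwa [sub_neg_eq_add] at this
    rw [← Module.End.mul_apply, h1, LinearMap.sub_apply, Module.End.one_apply, neg_pow,
      Module.End.mul_apply, hn, map_zero, sub_zero]

/-- If `f g = 1 + N` with `N` locally nilpotent and `f, g` commute, then `f` is bijective. -/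
lemma bijective_of_mul_eq {f g N : Module.End 𝒪 A} (hfg : f * g = 1 + N) (hc : Commute f g)
    (hN : ∀ x : A, ∃ n : ℕ, (N ^ n) x = 0) : Function.Bijective (f : A → A) := by
  have hb := bijective_one_add hN
  constructor
  · intro x y hxy
    apply hb.1
    rw [← hfg, hc.eq, Module.End.mul_apply, Module.End.mul_apply, hxy]
  · intro y
    obtain ⟨x, hx⟩ := hb.2 y
    exact ⟨g x, by rw [← Module.End.mul_apply, hfg, hx]⟩

end LocNil

/-! ### The key lemma: units modulo `I = (X - s, e)` act bijectively -/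

section Key

variable {𝒪 : Type*} [CommRing 𝒪] {A : Type*} [AddCommGroup A] [Module 𝒪 A]

/-- The ideal `(X - s, e)` of `𝒪[X]`. -/
noncomputable def idealI (s e : 𝒪) : Ideal 𝒪[X] := Ideal.span {X - C s, C e}

lemma X_sub_mem (s e : 𝒪) : X - C s ∈ idealI s e :=
  Ideal.subset_span (by simp)

lemma C_mem (s e : 𝒪) : C e ∈ idealI s e :=
  Ideal.subset_span (by simp)

variable (T : Module.End 𝒪 A) {s e : 𝒪}

lemma aeval_commute (p p' : 𝒪[X]) : Commute (aeval T p) (aeval T p') := by
  show aeval T p * aeval T p' = aeval T p' * aeval T p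
  rw [← map_mul, ← map_mul, mul_comm]

/-- Elements of `I` act locally nilpotently. -/
lemma locNil_of_mem (hT : ∀ x : A, ∃ n : ℕ, ((T - s • (1 : Module.End 𝒪 A)) ^ n) x = 0)
    (he : ∀ x : A, ∃ n : ℕ, e ^ n • x = 0) {p : 𝒪[X]} (hp : p ∈ idealI s e) (x : A) :
    ∃ n : ℕ, ((aeval T p) ^ n) x = 0 := by
  obtain ⟨r₁, r₂, rfl⟩ := Ideal.mem_span_pair.1 hp
  obtain ⟨n₁, hn₁⟩ := hT x
  obtain ⟨n₂, hn₂⟩ := he x
  refine ⟨n₁ + n₂, ?_⟩
  rw [map_add]
  refine add_pow_apply_eq_zero (aeval_commute T _ _) ?_ ?_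
  · rw [← map_pow, mul_pow, map_mul, Module.End.mul_apply]
    have : aeval T ((X - C s) ^ n₁) = (T - s • (1 : Module.End 𝒪 A)) ^ n₁ := by
      rw [map_pow, map_sub, aeval_X, aeval_C, Algebra.algebraMap_eq_smul_one]
    rw [this, hn₁, map_zero]
  · rw [← map_pow, mul_pow, map_mul, Module.End.mul_apply]
    have : aeval T ((C e) ^ n₂) x = e ^ n₂ • x := by
      rw [← C_pow, aeval_C, Algebra.algebraMap_eq_smul_one, LinearMap.smul_apply,
        Module.End.one_apply]
    rw [this, hn₂, map_zero]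

/-- **Key lemma**: a polynomial which is a unit modulo `I` acts bijectively. -/
lemma bijective_aeval_of_isUnit
    (hT : ∀ x : A, ∃ n : ℕ, ((T - s • (1 : Module.End 𝒪 A)) ^ n) x = 0)
    (he : ∀ x : A, ∃ n : ℕ, e ^ n • x = 0) {p : 𝒪[X]}
    (hp : IsUnit (Ideal.Quotient.mk (idealI s e) p)) : Function.Bijective (aeval T p : A → A) := by
  obtain ⟨b, hb⟩ := isUnit_iff_exists_inv.1 hp
  obtain ⟨p', rfl⟩ := Ideal.Quotient.mk_surjective b
  have hmem : p * p' - 1 ∈ idealI s e := by
    rw [← Ideal.Quotient.eq_zero_iff_mem, map_sub, map_mul, hb, map_one, sub_self]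
  refine bijective_of_mul_eq (g := aeval T p') (N := aeval T (p * p' - 1)) ?_
    (aeval_commute T p p') (locNil_of_mem T hT he hmem)
  have e1 : p * p' = 1 + (p * p' - 1) := by ring
  rw [← map_mul, e1, map_add, map_one, ← e1]

end Key

/-! ### The recursion for `(ad, bd) ∘ (U - c)` -/

section Seq

variable {𝒪 : Type*} [CommRing 𝒪]

/-- One step of the recursion for `(ad, bd) ∘ (U - c)`. -/
noncomputable def step (c qq : 𝒪) (p : 𝒪[X] × 𝒪[X]) : 𝒪[X] × 𝒪[X] :=
  (C qq * p.2 - C c * p.1, (X - C c) * p.2 - p.1)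

/-- The iterated recursion. -/
noncomputable def iter (c qq : 𝒪) : ℕ → 𝒪[X] × 𝒪[X] → 𝒪[X] × 𝒪[X]
  | 0, p => p
  | m + 1, p => step c qq (iter c qq m p)

lemma mk_X (a a' qq : 𝒪) :
    Ideal.Quotient.mk (idealI (a + a') (qq - a * a')) X =
      Ideal.Quotient.mk _ (C a) + Ideal.Quotient.mk _ (C a') := by
  rw [← map_add, ← C_add]
  exact Ideal.Quotient.eq.2 (X_sub_mem _ _)

lemma mk_C_q (a a' qq : 𝒪) :
    Ideal.Quotient.mk (idealI (a + a') (qq - a * a')) (C qq) =
      Ideal.Quotient.mk _ (C a) * Ideal.Quotient.mk _ (C a') := by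
  rw [← map_mul, ← C_mul]
  refine Ideal.Quotient.eq.2 ?_
  rw [← C_sub]
  exact C_mem _ _

/-- Modulo `I = (X - (a + a'), qq - a a')`:
`iter a' qq (m + 1) (g, h) ≡ (a - a')^m (a h - g) · (a', 1)`. -/
lemma iter_congr (a a' qq : 𝒪) (g h : 𝒪[X]) (m : ℕ) :
    Ideal.Quotient.mk (idealI (a + a') (qq - a * a')) (iter a' qq (m + 1) (g, h)).1 =
      Ideal.Quotient.mk _ (C a' * C (a - a') ^ m * (C a * h - g)) ∧
    Ideal.Quotient.mk (idealI (a + a') (qq - a * a')) (iter a' qq (m + 1) (g, h)).2 =
      Ideal.Quotient.mk _ (C (a - a') ^ m * (C a * h - g)) := by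
  have hX := mk_X a a' qq
  have hq := mk_C_q a a' qq
  induction m with
  | zero =>
    simp only [iter, step, map_sub, map_mul, hX, hq, pow_zero, mul_one, one_mul]
    constructor <;> ring
  | succ m ih =>
    obtain ⟨ih1, ih2⟩ := ih
    have e : iter a' qq (m + 1 + 1) (g, h) = step a' qq (iter a' qq (m + 1) (g, h)) := rfl
    rw [e]
    simp only [step, map_sub, map_mul, map_pow, hX, hq] at ih1 ih2 ⊢
    rw [ih1, ih2]
    constructor <;> ring

end Seq

/-! ### Tracking `ad` and `bd` along powers of `U - c` -/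

section Track

variable {𝒪 : Type*} [CommRing 𝒪] {A B : Type*} [AddCommGroup A] [Module 𝒪 A]
  [AddCommGroup B] [Module 𝒪 B]
  (ad bd : B →ₗ[𝒪] A) (T : Module.End 𝒪 A) (U : Module.End 𝒪 B) (qq : 𝒪)

include ad bd T U qq in
lemma track_step (hadU : ∀ y, ad (U y) = qq • bd y) (hbdU : ∀ y, bd (U y) = T (bd y) - ad y)
    (c : 𝒪) {y : B} {z : A} {p : 𝒪[X] × 𝒪[X]}
    (h1 : ad y = aeval T p.1 z) (h2 : bd y = aeval T p.2 z) :
    ad ((U - c • (1 : Module.End 𝒪 B)) y) = aeval T (step c qq p).1 z ∧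
      bd ((U - c • (1 : Module.End 𝒪 B)) y) = aeval T (step c qq p).2 z := by
  constructor
  · rw [LinearMap.sub_apply, LinearMap.smul_apply, Module.End.one_apply, map_sub, map_smul, hadU,
      h1, h2]
    simp only [step, map_sub, map_mul, aeval_C, LinearMap.sub_apply, Module.End.mul_apply,
      Algebra.algebraMap_eq_smul_one, LinearMap.smul_apply, Module.End.one_apply]
  · rw [LinearMap.sub_apply, LinearMap.smul_apply, Module.End.one_apply, map_sub, map_smul, hbdU,
      h1, h2]
    simp only [step, map_sub, map_mul, aeval_C, aeval_X, LinearMap.sub_apply,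
      Module.End.mul_apply, Algebra.algebraMap_eq_smul_one, LinearMap.smul_apply,
      Module.End.one_apply]
    abel

include ad bd T U qq in
lemma track_iter (hadU : ∀ y, ad (U y) = qq • bd y) (hbdU : ∀ y, bd (U y) = T (bd y) - ad y)
    (c : 𝒪) {y : B} {z : A} {p : 𝒪[X] × 𝒪[X]}
    (h1 : ad y = aeval T p.1 z) (h2 : bd y = aeval T p.2 z) (m : ℕ) :
    ad (((U - c • (1 : Module.End 𝒪 B)) ^ m) y) = aeval T (iter c qq m p).1 z ∧
      bd (((U - c • (1 : Module.End 𝒪 B)) ^ m) y) = aeval T (iter c qq m p).2 z := by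
  induction m with
  | zero => exact ⟨by simpa [iter] using h1, by simpa [iter] using h2⟩
  | succ m ih =>
    rw [pow_succ', Module.End.mul_apply]
    exact track_step ad bd T U qq hadU hbdU c ih.1 ih.2

end Track

/-! ### The theorem -/

section Main

variable {𝒪 : Type*} [CommRing 𝒪] {A B : Type*} [AddCommGroup A] [Module 𝒪 A]
  [AddCommGroup B] [Module 𝒪 B]

/-- `IsUnit` of the class of a constant which is a unit. -/
lemma isUnit_mk_C (s e : 𝒪) {u : 𝒪} (hu : IsUnit u) :
    IsUnit (Ideal.Quotient.mk (idealI s e) (C u)) :=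
  (hu.map C).map _

/-- **OLDNEW-ABS** (helper14's leaf OLD-ABS), universe polymorphic form. -/
theorem oldNewAbs
    (as bs : A →ₗ[𝒪] B) (ad bd : B →ₗ[𝒪] A) (T : Module.End 𝒪 A) (U W : Module.End 𝒪 B)
    (q : ℕ) (a a' : 𝒪)
    (h1 : ∀ x, ad (as x) = (q + 1) • x) (h2 : ∀ x, bd (bs x) = (q + 1) • x)
    (h3 : ∀ x, ad (bs x) = T x) (h4 : ∀ x, bd (as x) = T x)
    (h5 : ∀ y, U y = as (bd y) - W y)
    (h6 : ∀ x, W (as x) = bs x) (h7 : ∀ x, W (bs x) = as x) (h8 : ∀ y, W (W y) = y)
    (h9 : ∀ y, ad (W y) = bd y) (h10 : ∀ y, bd (W y) = ad y)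
    (ud : IsUnit (a - a')) (ua : IsUnit (a * a - 1)) (ua' : IsUnit (a' * a' - 1))
    (uq : IsUnit (q : 𝒪))
    (nT : ∀ x : A, ∃ n : ℕ, ((T - (a + a') • (1 : Module.End 𝒪 A)) ^ n) x = 0)
    (nA : ∀ x : A, ∃ n : ℕ, ((q : 𝒪) - a * a') ^ n • x = 0) :
    (∀ x : A, ∃ v : B, (∃ n : ℕ, ((U - a • (1 : Module.End 𝒪 B)) ^ n) v = 0) ∧ ad v = x) ∧
    (∀ v : B, (∃ n : ℕ, ((U - a • (1 : Module.End 𝒪 B)) ^ n) v = 0) → ad v = 0 → v = 0) ∧
    (∀ v : B, (∃ n : ℕ, ((U - a • (1 : Module.End 𝒪 B)) ^ n) v = 0) →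
      ∃ x y : A, v = as x + bs y) := by
  -- notation
  set qq : 𝒪 := (q : 𝒪) with hqq
  set s : 𝒪 := a + a' with hs
  set e : 𝒪 := qq - a * a' with he
  have hsmul : ∀ x : A, (q + 1) • x = (qq + 1) • x := by
    intro x
    rw [hqq, ← Nat.cast_smul_eq_nsmul 𝒪 (q + 1) x]
    push_cast
    rfl
  have hX : Ideal.Quotient.mk (idealI s e) X =
      Ideal.Quotient.mk (idealI s e) (C a) + Ideal.Quotient.mk (idealI s e) (C a') :=
    mk_X a a' qq
  have hq : Ideal.Quotient.mk (idealI s e) (C qq) =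
      Ideal.Quotient.mk (idealI s e) (C a) * Ideal.Quotient.mk (idealI s e) (C a') :=
    mk_C_q a a' qq
  -- consequences of the relations
  have hadU : ∀ y, ad (U y) = qq • bd y := by
    intro y
    rw [h5, map_sub, h1, h9, hsmul, add_smul, one_smul, add_sub_cancel_right]
  have hbdU : ∀ y, bd (U y) = T (bd y) - ad y := by
    intro y
    rw [h5, map_sub, h4, h10]
  have hUas : ∀ x, U (as x) = as (T x) - bs x := by
    intro x
    rw [h5, h4, h6]
  have hUbs : ∀ x, U (bs x) = qq • as x := by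
    intro x
    rw [h5, h2, h7, hsmul, map_smul, add_smul, one_smul, add_sub_cancel_right]
  -- the key lemma, specialised
  have key : ∀ p : 𝒪[X], IsUnit (Ideal.Quotient.mk (idealI s e) p) →
      Function.Bijective (aeval T p : A → A) :=
    fun p hp => bijective_aeval_of_isUnit T nT nA hp
  have uCa : IsUnit (Ideal.Quotient.mk (idealI s e) (C a)) := by
    have h : IsUnit (Ideal.Quotient.mk (idealI s e) (C a) *
        Ideal.Quotient.mk (idealI s e) (C a')) := by
      rw [← hq]
      exact isUnit_mk_C s e uq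
    exact isUnit_of_mul_isUnit_left h
  have uCa' : IsUnit (Ideal.Quotient.mk (idealI s e) (C a')) := by
    have h : IsUnit (Ideal.Quotient.mk (idealI s e) (C a) *
        Ideal.Quotient.mk (idealI s e) (C a')) := by
      rw [← hq]
      exact isUnit_mk_C s e uq
    exact isUnit_of_mul_isUnit_right h
  -- `new ∩ gk (U - a) = 0`
  have hnew : ∀ (n : ℕ) (v : B), ad v = 0 → bd v = 0 →
      ((U - a • (1 : Module.End 𝒪 B)) ^ n) v = 0 → v = 0 := by
    have hU : ∀ v : B, ad v = 0 → bd v = 0 → U v = -W v := by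
      intro v hv1 hv2
      rw [h5, hv2, map_zero, zero_sub]
    intro n
    induction n with
    | zero => intro v _ _ hv; simpa using hv
    | succ n ih =>
      intro v hv1 hv2 hv
      have hWv1 : ad (W v) = 0 := by rw [h9, hv2]
      have hWv2 : bd (W v) = 0 := by rw [h10, hv1]
      have hUv : U v = -W v := hU v hv1 hv2
      have hUUv : U (U v) = v := by
        rw [hUv, map_neg, hU (W v) hWv1 hWv2, h8, neg_neg]
      set v' : B := (U - a • (1 : Module.End 𝒪 B)) v with hv'
      have hv'1 : ad v' = 0 := by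
        rw [hv', LinearMap.sub_apply, LinearMap.smul_apply, Module.End.one_apply, map_sub,
          map_smul, hv1, hUv, map_neg, hWv1]
        simp
      have hv'2 : bd v' = 0 := by
        rw [hv', LinearMap.sub_apply, LinearMap.smul_apply, Module.End.one_apply, map_sub,
          map_smul, hv2, hUv, map_neg, hWv2]
        simp
      have hv'0 : v' = 0 := by
        apply ih v' hv'1 hv'2
        rw [hv', ← Module.End.mul_apply, ← pow_succ]
        exact hv
      -- `(U + a) v' = (1 - a²) v`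
      have h3' : (U + a • (1 : Module.End 𝒪 B)) v' = (1 - a * a) • v := by
        rw [hv', LinearMap.add_apply, LinearMap.smul_apply, Module.End.one_apply,
          LinearMap.sub_apply, LinearMap.smul_apply, Module.End.one_apply, map_sub, map_smul,
          hUUv, sub_smul, one_smul, mul_smul, smul_sub]
        abel
      rw [hv'0, map_zero] at h3'
      have hu : IsUnit (1 - a * a) := by
        have : 1 - a * a = -(a * a - 1) := by ring
        rw [this]
        exact ua.neg
      obtain ⟨u, hu⟩ := hu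
      have := congrArg (fun t => (↑u⁻¹ : 𝒪) • t) h3'
      simp only [smul_zero, ← hu, ← mul_smul, Units.inv_mul, one_smul] at this
      exact this.symm
  -- `Δ = (q + 1)² - T²` is bijective
  have hΔ : Function.Bijective (aeval T ((C qq + 1) ^ 2 - X ^ 2) : A → A) := by
    apply key
    have e1 : Ideal.Quotient.mk (idealI s e) ((C qq + 1) ^ 2 - X ^ 2) =
        Ideal.Quotient.mk (idealI s e) (C (a * a - 1)) *
          Ideal.Quotient.mk (idealI s e) (C (a' * a' - 1)) := by
      simp only [map_sub, map_pow, map_add, map_one, hX, hq, map_mul]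
      ring
    rw [e1]
    exact (isUnit_mk_C s e ua).mul (isUnit_mk_C s e ua')
  have hΔapp : ∀ x : A, aeval T ((C qq + 1) ^ 2 - X ^ 2) x =
      (qq + 1) • (qq + 1) • x - T (T x) := by
    intro x
    have e0 : aeval T ((C qq + 1) ^ 2 - X ^ 2) =
        ((qq + 1) • (1 : Module.End 𝒪 A)) * ((qq + 1) • (1 : Module.End 𝒪 A)) - T * T := by
      rw [map_sub, map_pow, map_pow, map_add, map_one, aeval_C, aeval_X,
        Algebra.algebraMap_eq_smul_one, sq, sq, add_smul, one_smul]
    rw [e0, LinearMap.sub_apply, Module.End.mul_apply, Module.End.mul_apply,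
      LinearMap.smul_apply, LinearMap.smul_apply, Module.End.one_apply, Module.End.one_apply]
  -- the matrix `[[q+1, T],[T, q+1]]` is bijective on `A²`
  have hMinj : ∀ x y : A, (qq + 1) • x + T y = 0 → T x + (qq + 1) • y = 0 → x = 0 ∧ y = 0 := by
    intro x y e1 e2
    constructor
    · apply hΔ.1
      rw [map_zero, hΔapp]
      have : (qq + 1) • (qq + 1) • x - T (T x) =
          (qq + 1) • ((qq + 1) • x + T y) - T (T x + (qq + 1) • y) := by
        rw [smul_add, map_add, map_smul]; abel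
      rw [this, e1, e2, smul_zero, map_zero, sub_zero]
    · apply hΔ.1
      rw [map_zero, hΔapp]
      have : (qq + 1) • (qq + 1) • y - T (T y) =
          (qq + 1) • (T x + (qq + 1) • y) - T ((qq + 1) • x + T y) := by
        rw [smul_add, map_add, map_smul]; abel
      rw [this, e1, e2, smul_zero, map_zero, sub_zero]
  have hMsurj : ∀ c c' : A, ∃ x y : A, (qq + 1) • x + T y = c ∧ T x + (qq + 1) • y = c' := by
    intro c c'
    obtain ⟨x₀, hx₀⟩ := hΔ.2 c
    obtain ⟨y₀, hy₀⟩ := hΔ.2 c'
    rw [hΔapp] at hx₀ hy₀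
    refine ⟨(qq + 1) • x₀ - T y₀, (qq + 1) • y₀ - T x₀, ?_, ?_⟩
    · rw [← hx₀, smul_sub, map_sub, map_smul]; abel
    · rw [← hy₀, smul_sub, map_sub, map_smul]; abel
  have hadold : ∀ x y : A, ad (as x + bs y) = (qq + 1) • x + T y := by
    intro x y
    rw [map_add, h1, h3, hsmul]
  have hbdold : ∀ x y : A, bd (as x + bs y) = T x + (qq + 1) • y := by
    intro x y
    rw [map_add, h4, h2, hsmul]
  -- stability of `old` and `new` under `U - a`
  have hold : ∀ (n : ℕ) (x y : A), ∃ x' y' : A,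
      ((U - a • (1 : Module.End 𝒪 B)) ^ n) (as x + bs y) = as x' + bs y' := by
    intro n
    induction n with
    | zero => intro x y; exact ⟨x, y, by simp⟩
    | succ n ih =>
      intro x y
      obtain ⟨x', y', h⟩ := ih x y
      refine ⟨T x' + qq • y' - a • x', -x' - a • y', ?_⟩
      rw [pow_succ', Module.End.mul_apply, h, LinearMap.sub_apply, LinearMap.smul_apply,
        Module.End.one_apply, map_add, hUas, hUbs]
      simp only [map_add, map_sub, map_smul, map_neg, smul_add]
      abel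
  have hnewst : ∀ (n : ℕ) (v : B), ad v = 0 → bd v = 0 →
      ad (((U - a • (1 : Module.End 𝒪 B)) ^ n) v) = 0 ∧
        bd (((U - a • (1 : Module.End 𝒪 B)) ^ n) v) = 0 := by
    intro n
    induction n with
    | zero => intro v hv1 hv2; exact ⟨by simpa using hv1, by simpa using hv2⟩
    | succ n ih =>
      intro v hv1 hv2
      obtain ⟨i1, i2⟩ := ih v hv1 hv2
      rw [pow_succ', Module.End.mul_apply, LinearMap.sub_apply, LinearMap.smul_apply,
        Module.End.one_apply, map_sub, map_sub, map_smul, map_smul, hadU, hbdU, i1, i2]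
      simp
  -- (3)
  have part3 : ∀ v : B, (∃ n : ℕ, ((U - a • (1 : Module.End 𝒪 B)) ^ n) v = 0) →
      ∃ x y : A, v = as x + bs y := by
    rintro v ⟨n, hn⟩
    obtain ⟨x, y, hx, hy⟩ := hMsurj (ad v) (bd v)
    refine ⟨x, y, ?_⟩
    set vn : B := v - (as x + bs y) with hvn
    have hvn1 : ad vn = 0 := by rw [hvn, map_sub, hadold, hx, sub_self]
    have hvn2 : bd vn = 0 := by rw [hvn, map_sub, hbdold, hy, sub_self]
    obtain ⟨x', y', h'⟩ := hold n x y
    have hsum : ((U - a • (1 : Module.End 𝒪 B)) ^ n) vn = -(as x' + bs y') := by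
      rw [hvn, map_sub, hn, h', zero_sub]
    obtain ⟨k1, k2⟩ := hnewst n vn hvn1 hvn2
    rw [hsum, map_neg, neg_eq_zero] at k1 k2
    rw [hadold] at k1
    rw [hbdold] at k2
    obtain ⟨rfl, rfl⟩ := hMinj x' y' k1 k2
    have hvn0 : vn = 0 := by
      apply hnew n vn hvn1 hvn2
      rw [hsum]; simp
    exact sub_eq_zero.1 hvn0
  -- (2)
  have part2 : ∀ v : B, (∃ n : ℕ, ((U - a • (1 : Module.End 𝒪 B)) ^ n) v = 0) → ad v = 0 →
      v = 0 := by
    rintro v ⟨n, hn⟩ hv
    rcases n with _ | m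
    · simpa using hn
    have hbd : bd v = 0 := by
      have ht := (track_iter ad bd T U qq hadU hbdU a (y := v) (z := bd v) (p := (0, 1))
        (by simpa using hv) (by simp) (m + 1)).1
      rw [hn, map_zero] at ht
      -- the polynomial is a unit modulo `I`
      have hI : idealI (a' + a) (qq - a' * a) = idealI s e := by
        rw [hs, he, add_comm a' a, mul_comm a' a]
      have hc := (iter_congr a' a qq 0 1 m).1
      rw [hI] at hc
      have hunit : IsUnit (Ideal.Quotient.mk (idealI s e) (iter a qq (m + 1) (0, 1)).1) := by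
        rw [hc]
        have e2 : C a * C (a' - a) ^ m * (C a' * 1 - 0) = C a * C (a' - a) ^ m * C a' := by
          ring
        rw [e2, map_mul, map_mul, map_pow]
        have hd' : IsUnit (a' - a) := by
          have : a' - a = -(a - a') := by ring
          rw [this]; exact ud.neg
        exact (uCa.mul ((isUnit_mk_C s e hd').pow m)).mul uCa'
      apply (key _ hunit).1
      rw [map_zero, ← ht]
    exact hnew (m + 1) v hv hbd hn
  refine ⟨?_, part2, part3⟩
  -- (1)
  intro x
  obtain ⟨n₁, hn₁⟩ := nT x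
  obtain ⟨n₂, hn₂⟩ := nA x
  set m : ℕ := n₁ + n₂ with hm
  set G : 𝒪[X] := (iter a' qq (m + 1) (C qq + 1, X)).1 with hG
  have hGunit : IsUnit (Ideal.Quotient.mk (idealI s e) G) := by
    rw [hG, (iter_congr a a' qq (C qq + 1) X m).1]
    have e1 : Ideal.Quotient.mk (idealI s e) (C a' * C (a - a') ^ m * (C a * X - (C qq + 1))) =
        Ideal.Quotient.mk (idealI s e) (C a') * Ideal.Quotient.mk (idealI s e) (C (a - a')) ^ m *
          Ideal.Quotient.mk (idealI s e) (C (a * a - 1)) := by
      simp only [map_sub, map_pow, map_add, map_one, hX, hq, map_mul]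
      ring
    rw [e1]
    exact (uCa'.mul ((isUnit_mk_C s e ud).pow m)).mul (isUnit_mk_C s e ua)
  have hGb := key G hGunit
  obtain ⟨z, hz⟩ := hGb.2 x
  -- nilpotency orders of `z`
  have hz₁ : ((T - s • (1 : Module.End 𝒪 A)) ^ n₁) z = 0 := by
    apply hGb.1
    rw [map_zero]
    have hc : Commute (aeval T G) ((T - s • (1 : Module.End 𝒪 A)) ^ n₁) := by
      have : (T - s • (1 : Module.End 𝒪 A)) ^ n₁ = aeval T ((X - C s) ^ n₁) := by
        rw [map_pow, map_sub, aeval_X, aeval_C, Algebra.algebraMap_eq_smul_one]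
      rw [this]
      exact aeval_commute T _ _
    rw [← Module.End.mul_apply, hc.eq, Module.End.mul_apply, hz, hn₁]
  have hz₂ : e ^ n₂ • z = 0 := by
    apply hGb.1
    rw [map_zero, map_smul, hz, hn₂]
  refine ⟨((U - a' • (1 : Module.End 𝒪 B)) ^ (m + 1)) (as z), ⟨m + 1, ?_⟩, ?_⟩
  · -- `(U - a)^(m+1) (U - a')^(m+1) (as z) = 0`
    set χ : Module.End 𝒪 B := U * U - s • U + qq • (1 : Module.End 𝒪 B) with hχ
    have hprod : (U - a • (1 : Module.End 𝒪 B)) * (U - a' • (1 : Module.End 𝒪 B)) =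
        χ + (-e) • (1 : Module.End 𝒪 B) := by
      ext y
      simp only [hχ, hs, he, Module.End.mul_apply, LinearMap.add_apply, LinearMap.sub_apply,
        LinearMap.smul_apply, Module.End.one_apply, map_sub, map_smul]
      module
    have haev : ∀ c : 𝒪, aeval U (X - C c) = U - c • (1 : Module.End 𝒪 B) := by
      intro c
      rw [map_sub, aeval_X, aeval_C, Algebra.algebraMap_eq_smul_one]
    have hcomm : Commute (U - a • (1 : Module.End 𝒪 B)) (U - a' • (1 : Module.End 𝒪 B)) := by
      rw [← haev a, ← haev a']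
      exact aeval_commute U _ _
    rw [← Module.End.mul_apply, ← hcomm.mul_pow, hprod]
    -- `χ^n (as z') = U^n (as ((T - s)^n z'))`
    have hχas : ∀ z' : A, χ (as z') = U (as ((T - s • (1 : Module.End 𝒪 A)) z')) := by
      intro z'
      rw [hχ]
      simp only [LinearMap.add_apply, LinearMap.sub_apply, LinearMap.smul_apply,
        Module.End.mul_apply, Module.End.one_apply, map_sub, map_smul]
      rw [hUas z', map_sub, hUbs]
      abel
    have hχU : Commute χ U := by
      rw [hχ]
      apply Commute.add_left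
      · apply Commute.sub_left
        · exact (Commute.refl U).mul_left (Commute.refl U)
        · show s • U * U = U * (s • U)
          simp
      · show qq • (1 : Module.End 𝒪 B) * U = U * (qq • (1 : Module.End 𝒪 B))
        simp
    have hχpow : ∀ (n : ℕ) (z' : A),
        (χ ^ n) (as z') = (U ^ n) (as (((T - s • (1 : Module.End 𝒪 A)) ^ n) z')) := by
      intro n
      induction n with
      | zero => intro z'; simp
      | succ n ih =>
        intro z'
        rw [pow_succ, Module.End.mul_apply, hχas, ← Module.End.mul_apply,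
          ((hχU.pow_left n)).eq, Module.End.mul_apply, ih, ← Module.End.mul_apply, ← pow_succ',
          ← Module.End.mul_apply, ← pow_succ]
    have k1 : (χ ^ n₁) (as z) = 0 := by
      rw [hχpow, hz₁, map_zero, map_zero]
    have k2 : (((-e) • (1 : Module.End 𝒪 B)) ^ n₂) (as z) = 0 := by
      rw [_root_.smul_pow, one_pow, LinearMap.smul_apply, Module.End.one_apply, neg_pow,
        mul_smul, ← map_smul, hz₂, map_zero, smul_zero]
    have hcc : Commute χ ((-e) • (1 : Module.End 𝒪 B)) := by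
      show χ * ((-e) • (1 : Module.End 𝒪 B)) = (-e) • (1 : Module.End 𝒪 B) * χ
      simp
    have k3 : ((χ + (-e) • (1 : Module.End 𝒪 B)) ^ m) (as z) = 0 :=
      add_pow_apply_eq_zero hcc k1 k2
    rw [pow_succ', Module.End.mul_apply, k3, map_zero]
  · -- `ad v = G(T) z = x`
    have ht := (track_iter ad bd T U qq hadU hbdU a' (y := as z) (z := z) (p := (C qq + 1, X))
      (by
        rw [h1, hsmul]
        simp [Algebra.algebraMap_eq_smul_one, add_smul])
      (by rw [h4]; simp) (m + 1)).1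
    rw [ht, ← hG, hz]

end Main

end Fermat.Agent.NEB.OLD.H38
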