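import Mathlib
import Fermat.Agent.S59.Lim.H2_Theta
import Fermat.Agent.NEB.OLD.H38_OldAbsCore

/-!
# NEB (helper14): the `θ`-part is cut out by generators

`mem_thetaPart_iff_gens` : if the ring `𝕋` is generated by a set `G` and `x ∈ 𝒪 ⊗_ℤ A` is killed
by a power of every `e ∈ 𝔪_𝒪`, then

`x ∈ thetaPart η θ ↔ ∀ g ∈ G, ∃ a, residue a = θ g ∧ x ∈ gk ((η g)_𝒪 - a)`.

Method: `nilIdeal ρ x = {r | ∃ n, ρ(r)^n x = 0}` is an ideal of the commutative ring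
`𝒪 ⊗_ℤ 𝕋` (`ρ = opHom 𝒪 η`).
-/

set_option autoImplicit false
set_option linter.unusedSectionVars false
set_option linter.style.haveILetI false

noncomputable section

open IsLocalRing TensorProduct Module

namespace Fermat.Agent.NEB.OLD

open Fermat.Agent.S59.Lim Fermat.Agent.S59.Lim.H2

section NilIdeal

variable {𝒪 : Type*} [CommRing 𝒪] {W : Type*} [AddCommGroup W] [Module 𝒪 W]
  {R : Type*} [CommRing R]

/-- The elements of a commutative ring of operators which are nilpotent on `x`. -/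
def nilIdeal (ρ : R →+* Module.End 𝒪 W) (x : W) : Ideal R where
  carrier := {r | ∃ n : ℕ, ((ρ r) ^ n) x = 0}
  zero_mem' := ⟨1, by rw [map_zero, pow_one, LinearMap.zero_apply]⟩
  add_mem' := by
    rintro r s ⟨n, hn⟩ ⟨k, hk⟩
    refine ⟨n + k, ?_⟩
    rw [map_add]
    exact Fermat.Agent.NEB.OLD.H38.add_pow_apply_eq_zero ((Commute.all r s).map ρ) hn hk
  smul_mem' := by
    rintro c r ⟨n, hn⟩
    refine ⟨n, ?_⟩
    rw [smul_eq_mul, map_mul, ((Commute.all c r).map ρ).mul_pow, Module.End.mul_apply, hn,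
      map_zero]

theorem mem_nilIdeal {ρ : R →+* Module.End 𝒪 W} {x : W} {r : R} :
    r ∈ nilIdeal ρ x ↔ ∃ n : ℕ, ((ρ r) ^ n) x = 0 := Iff.rfl

end NilIdeal

section Abstract

variable {𝒪 : Type*} [CommRing 𝒪] [IsLocalRing 𝒪] {𝕋 : Type*} [CommRing 𝕋]
  {R : Type*} [CommRing R]

/-- The abstract form: in a commutative ring `R` with `ι₁ : 𝒪 → R`, `ι₂ : 𝕋 → R` and an ideal
`I ⊇ ι₁ 𝔪`: if `ι₂ g - ι₁ a_g ∈ I` for generators `g` (some lift `a_g` of `θ g`), then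
`ι₂ t - ι₁ a ∈ I` for all `t` and all lifts `a` of `θ t`. -/
theorem mem_ideal_of_gens (ι₁ : 𝒪 →+* R) (ι₂ : 𝕋 →+* R) (I : Ideal R)
    (θ : 𝕋 →+* ResidueField 𝒪) (G : Set 𝕋)
    (hm : ∀ e ∈ maximalIdeal 𝒪, ι₁ e ∈ I)
    (hG : ∀ g ∈ G, ∃ a : 𝒪, residue 𝒪 a = θ g ∧ ι₂ g - ι₁ a ∈ I)
    (t : 𝕋) (ht : t ∈ Subring.closure G) (a : 𝒪) (ha : residue 𝒪 a = θ t) :
    ι₂ t - ι₁ a ∈ I := by
  have hres : ∀ u v : 𝒪, residue 𝒪 u = residue 𝒪 v → ι₁ u - ι₁ v ∈ I := by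
    intro u v huv
    rw [← map_sub]
    refine hm _ ?_
    rw [← residue_eq_zero_iff, map_sub, huv, sub_self]
  induction ht using Subring.closure_induction generalizing a with
  | mem g hg =>
    obtain ⟨a₀, ha₀, h₀⟩ := hG g hg
    have e : ι₂ g - ι₁ a = (ι₂ g - ι₁ a₀) + (ι₁ a₀ - ι₁ a) := by ring
    rw [e]
    exact I.add_mem h₀ (hres a₀ a (ha₀.trans ha.symm))
  | zero =>
    have e : ι₂ 0 - ι₁ a = ι₁ 0 - ι₁ a := by rw [map_zero, map_zero]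
    rw [e]
    exact hres 0 a (by rw [ha, map_zero, map_zero])
  | one =>
    have e : ι₂ 1 - ι₁ a = ι₁ 1 - ι₁ a := by rw [map_one, map_one]
    rw [e]
    exact hres 1 a (by rw [ha, map_one, map_one])
  | add t t' _ _ iht iht' =>
    obtain ⟨b, hb⟩ := residue_surjective (θ t)
    obtain ⟨b', hb'⟩ := residue_surjective (θ t')
    have e : ι₂ (t + t') - ι₁ a
        = (ι₂ t - ι₁ b) + (ι₂ t' - ι₁ b') + (ι₁ (b + b') - ι₁ a) := by
      rw [map_add, map_add]; ring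
    rw [e]
    exact I.add_mem (I.add_mem (iht b hb) (iht' b' hb'))
      (hres (b + b') a (by rw [map_add, hb, hb', ha, map_add]))
  | neg t _ iht =>
    have e : ι₂ (-t) - ι₁ a = -(ι₂ t - ι₁ (-a)) := by
      rw [map_neg, map_neg]; ring
    rw [e]
    exact I.neg_mem (iht (-a) (by rw [map_neg, ha, map_neg, neg_neg]))
  | mul t t' _ _ iht iht' =>
    obtain ⟨b, hb⟩ := residue_surjective (θ t)
    obtain ⟨b', hb'⟩ := residue_surjective (θ t')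
    have e : ι₂ (t * t') - ι₁ a
        = ι₂ t * (ι₂ t' - ι₁ b') + ι₁ b' * (ι₂ t - ι₁ b) + (ι₁ (b * b') - ι₁ a) := by
      rw [map_mul, map_mul]; ring
    rw [e]
    exact I.add_mem (I.add_mem (I.mul_mem_left _ (iht' b' hb')) (I.mul_mem_left _ (iht b hb)))
      (hres (b * b') a (by rw [map_mul, hb, hb', ha, map_mul]))

end Abstract

section Gen

variable {𝒪 : Type} [CommRing 𝒪] [IsLocalRing 𝒪] {𝕋 : Type} [CommRing 𝕋]
  {A : Type} [AddCommGroup A]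

/-- **The `θ`-part is cut out by generators.** -/
theorem mem_thetaPart_iff_gens (η : 𝕋 →+* Module.End ℤ A) (θ : 𝕋 →+* ResidueField 𝒪)
    (G : Set 𝕋) (hG : Subring.closure G = ⊤) (x : 𝒪 ⊗[ℤ] A)
    (htors : ∀ e ∈ maximalIdeal 𝒪, ∃ n : ℕ, e ^ n • x = 0) :
    x ∈ thetaPart η θ ↔ ∀ g ∈ G, ∃ a : 𝒪, residue 𝒪 a = θ g ∧
      ∃ n : ℕ, (((η g).baseChange 𝒪 - a • (1 : Module.End 𝒪 (𝒪 ⊗[ℤ] A))) ^ n) x = 0 := by
  constructor
  · intro hx g _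
    obtain ⟨a, ha⟩ := residue_surjective (θ g)
    exact ⟨a, ha, mem_thetaPart.mp hx g a ha⟩
  · intro hx
    rw [mem_thetaPart]
    intro t a ha
    let ρ : opRing 𝒪 𝕋 →+* Module.End 𝒪 (𝒪 ⊗[ℤ] A) := (opHom 𝒪 η).toRingHom
    let ι₁ : 𝒪 →+* opRing 𝒪 𝕋 := Algebra.TensorProduct.includeLeftRingHom
    let ι₂ : 𝕋 →+* opRing 𝒪 𝕋 :=
      (Algebra.TensorProduct.includeRight : 𝕋 →ₐ[ℤ] 𝒪 ⊗[ℤ] 𝕋).toRingHom
    have hρ : ∀ (t : 𝕋) (a : 𝒪), ρ (ι₂ t - ι₁ a)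
        = (η t).baseChange 𝒪 - a • (1 : Module.End 𝒪 (𝒪 ⊗[ℤ] A)) := fun t a => opHom_gen η t a
    have hm : ∀ e ∈ maximalIdeal 𝒪, ι₁ e ∈ nilIdeal ρ x := by
      intro e he
      obtain ⟨n, hn⟩ := htors e he
      refine ⟨n, ?_⟩
      rw [← map_pow]
      have : (ι₁ e) ^ n = ι₁ (e ^ n) := (map_pow ι₁ e n).symm
      rw [this]
      exact (opHom_pi η (e ^ n) x).trans hn
    have hG' : ∀ g ∈ G, ∃ a : 𝒪, residue 𝒪 a = θ g ∧ ι₂ g - ι₁ a ∈ nilIdeal ρ x := by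
      intro g hg
      obtain ⟨a, ha, n, hn⟩ := hx g hg
      exact ⟨a, ha, n, by rw [hρ]; exact hn⟩
    have key := mem_ideal_of_gens ι₁ ι₂ (nilIdeal ρ x) θ G hm hG' t
      (by rw [hG]; exact Subring.mem_top t) a ha
    obtain ⟨n, hn⟩ := key
    exact ⟨n, by rw [hρ] at hn; exact hn⟩

end Gen

end Fermat.Agent.NEB.OLD
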