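import Mathlib
import Fermat.Agent.NEB.H14_JHRules

/-!
# NEB, package OLDNEW (helper14): `J₀(Mq)_{(𝔪, U_q - a)} ≅ J₀(M)_𝔪` — interface and leaves

Levels `M` and `Mq` (`q ∤ M` prime), `α, β : F₀(M) → F₀(Mq)`, `α', β' : F₀(Mq) → F₀(Mq²)`,
`w = w_q` the Atkin–Lehner involution of `F₀(Mq)` (`BAD/H88_Wq`).  On `Pic⁰`:
`a^* = pullP α`, `b^* = pullP β`, `a_* = pushP α`, `b_* = pushP β`, `T = a_* b^* = b_* a^*`,
`U = β'_* α'^*` (`= U0 (M q) q`), `W = w^*`.  Relations (package OLDNEW-GEO, helper14):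
`a_* a^* = q + 1 = b_* b^*`, `U = a^* b_* - W`, `W a^* = b^*`, `W b^* = a^*`, `W² = 1`,
`a_* W = b_*`, `b_* W = a_*`.

Leaves (generic, Mathlib only):
* `Stmt_SquareW`  : `α (Norm_β x) = Norm_{β'} (α' x) · w x` (non-Galois square with an involution).
* `Stmt_DegBeta`  : `[F₀(Mq²) : β' F₀(Mq)] = q` for `q ∤ M`.
* `Stmt_OldNewAbs`: the algebra: `a_*` restricted to the generalised `a`-eigenspace of `U` is a
  bijection onto `A`, and that eigenspace consists of old classes.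
-/

set_option autoImplicit false

noncomputable section

namespace Fermat.Agent.NEB.OLD

open AlgebraicCurve ModularCurve
open Fermat.Agent.NEB Fermat.Agent.NEB.H14 Fermat.Agent.RED

/-- **SQUARE-W**: a commutative square `β' ∘ α = α' ∘ β`

```
F' --α'--> F''
^           ^
β           β'
F  --α--->  F'
```
with `[F' : βF] = [F'' : β'F'] + 1`, `[F'' : β'F'] ≥ 2`, `F'' = α'(F')·β'(F')` and an
automorphism `w` of `F'` with `w ∘ β = α`.  Then `F' ⊗_{β,F,α} F' ≅ F'' × F'`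
(`x ⊗ y ↦ (α'(x) β'(y), w(x) y)`), hence `α (Norm_β x) = Norm_{β'} (α' x) · w x`. -/
def Stmt_SquareW : Prop :=
  ∀ (K F F' F'' : Type) [Field K] [Field F] [Field F'] [Field F'']
    [Algebra K F] [Algebra K F'] [Algebra K F'']
    (α β : F →ₐ[K] F') (α' β' : F' →ₐ[K] F'') (w : F' ≃ₐ[K] F'),
    β'.comp α = α'.comp β →
    (∀ x, w (β x) = α x) →
    FiniteAlong K β → FiniteAlong K β' →
    finrankAlong K β = finrankAlong K β' + 1 →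
    2 ≤ finrankAlong K β' →
    Subfield.closure (Set.range α' ∪ Set.range β') = ⊤ →
    ∀ x : F', α (normFn β x) = normFn β' (α' x) * w x

/-- **DEG-BETA**: `[F₀(Mq²) : β' F₀(Mq)] = q` for a prime `q ∤ M` (`β' : f(τ) ↦ f(qτ)`).
Tower law: with `j_q = β j = j(qτ) ∈ F₀(Mq)`, `β' j = α' j_q`, so
`[F₀(Mq²) : β'F₀(Mq)] · ψ(Mq) = [F₀(Mq²) : ℚ̄(β' j)] = [F₀(Mq²) : α'F₀(Mq)] · [F₀(Mq) : ℚ̄(j_q)]
 = q · (q + 1) · ψ(M)` (`RED.H95.finrankAlong_beta`, `S36.NU.H82.relfinrank_FM_FN_of_dvd`,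
`BAD.H82.relfinrank_bar`). -/
def Stmt_DegBeta : Prop :=
  ∀ (M q : ℕ) [NeZero M] [NeZero q] [NeZero (M * q)], q.Prime → ¬ q ∣ M →
    finrankAlong (AlgebraicClosure ℚ) (heckeBetaBar (AlgebraicClosure ℚ) (M * q) q) = q

/-- **OLDNEW-ABS**: the algebra of old and new classes at one prime.
`as = a^*`, `bs = b^*`, `ad = a_*`, `bd = b_*`. -/
def Stmt_OldNewAbs : Prop :=
  ∀ (𝒪 : Type) [CommRing 𝒪] (A B : Type) [AddCommGroup A] [Module 𝒪 A] [AddCommGroup B]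
    [Module 𝒪 B]
    (as bs : A →ₗ[𝒪] B) (ad bd : B →ₗ[𝒪] A) (T : Module.End 𝒪 A) (U W : Module.End 𝒪 B)
    (q : ℕ) (a a' : 𝒪),
    (∀ x, ad (as x) = (q + 1) • x) → (∀ x, bd (bs x) = (q + 1) • x) →
    (∀ x, ad (bs x) = T x) → (∀ x, bd (as x) = T x) →
    (∀ y, U y = as (bd y) - W y) →
    (∀ x, W (as x) = bs x) → (∀ x, W (bs x) = as x) → (∀ y, W (W y) = y) →
    (∀ y, ad (W y) = bd y) → (∀ y, bd (W y) = ad y) →
    IsUnit (a - a') → IsUnit (a * a - 1) → IsUnit (a' * a' - 1) → IsUnit (q : 𝒪) →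
    (∀ x : A, ∃ n : ℕ, ((T - (a + a') • (1 : Module.End 𝒪 A)) ^ n) x = 0) →
    (∀ x : A, ∃ n : ℕ, ((q : 𝒪) - a * a') ^ n • x = 0) →
    (∀ y : B, ∃ n : ℕ, ((q : 𝒪) - a * a') ^ n • y = 0) →
    (∀ x : A, ∃ v : B, (∃ n : ℕ, ((U - a • (1 : Module.End 𝒪 B)) ^ n) v = 0) ∧ ad v = x) ∧
    (∀ v : B, (∃ n : ℕ, ((U - a • (1 : Module.End 𝒪 B)) ^ n) v = 0) → ad v = 0 → v = 0) ∧
    (∀ v : B, (∃ n : ℕ, ((U - a • (1 : Module.End 𝒪 B)) ^ n) v = 0) →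
      ∃ x y : A, v = as x + bs y)

end Fermat.Agent.NEB.OLD
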