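import Mathlib
import Fermat.Agent.NEB.OLD.Defs
import Fermat.Agent.BAD.H88_VM2
import Fermat.Agent.RED.ES.H95_ES2
import Fermat.Agent.RED.ES.H95_NormAlpha

/-!
# NEB, package OLDNEW-GEO (helper14): the relations between levels `M` and `Mq` on `J₀`

`q ∤ M` prime, `w = w_q` (`BAD.H88.wq`).  With `as = pullP α`, `bs = pullP β`, `ad = pushP α`,
`bd = pushP β` (`α, β : F₀(M) → F₀(Mq)`), `U = JH.U0 (M q) q`, `W = w • ·`:

* `normW`   : `α (Norm_β x) = Norm_{β'} (α' x) · w x`  (from `Stmt_SquareW`, `Stmt_DegBeta`);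
* `corrW`   : `pullD α ∘ pushD β = pushD β' ∘ pullD α' + pullD w` on divisors;
* `as_bd`   : `as (bd y) = U y + w • y`;
* `ad_as`, `bd_bs` (`= q + 1`), `ad_bs = T0`, `bd_as = U0 = T0`, `W_as`, `W_bs`, `ad_W`, `bd_W`.
-/

set_option autoImplicit false
set_option linter.unusedSectionVars false
set_option linter.style.haveILetI false
set_option linter.dupNamespace false

noncomputable section

namespace Fermat.Agent.NEB.OLD

open AlgebraicCurve ModularCurve Fermat.Agent.S24
open Fermat.Agent.NEB.H14 Fermat.Agent.NEB.JH Fermat.Agent.RED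

local notation "Kb" => AlgebraicClosure ℚ

section Fields

variable (M q : ℕ) [NeZero M] [NeZero q]

/-- The middle map `F₀(M) → F₀(Mq²)`, `f(τ) ↦ f(qτ)`. -/
theorem beta_comp_alpha :
    (heckeBetaBar Kb (M * q) q).comp (heckeAlphaBar Kb M q)
      = (heckeAlphaBar Kb (M * q) q).comp (heckeBetaBar Kb M q) := by
  refine AlgHom.ext fun x => Subtype.ext ?_
  simp only [AlgHom.comp_apply, coe_heckeBetaBar, coe_heckeAlphaBar]

theorem dvd_mul_prime_cases {d n : ℕ} (hq : q.Prime) (hd : d ∣ n * q) :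
    d ∣ n ∨ ∃ d', d = d' * q ∧ d' ∣ n := by
  by_cases h : q ∣ d
  · obtain ⟨d', rfl⟩ := h
    right
    refine ⟨d', mul_comm _ _, ?_⟩
    rw [mul_comm q d'] at hd
    exact Nat.dvd_of_mul_dvd_mul_right hq.pos hd
  · left
    have hco : Nat.Coprime d q := (Nat.Coprime.symm ((Nat.Prime.coprime_iff_not_dvd hq).2 h))
    exact hco.dvd_of_dvd_mul_right hd

/-- `F₀(Mq²)` is the compositum of `α'(F₀(Mq))` and `β'(F₀(Mq))`. -/
theorem closure_range_union (hq : q.Prime) :
    Subfield.closure (Set.range (heckeAlphaBar Kb (M * q) q) ∪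
      Set.range (heckeBetaBar Kb (M * q) q)) = ⊤ := by
  have h := adjoin_jdF (M * q * q)
  rw [eq_top_iff]
  have h2 : (IntermediateField.adjoin Kb
      {x : FN (M * q * q) | ∃ (d : ℕ) (_ : NeZero d) (hd : d ∣ M * q * q),
        x = jdF (M * q * q) d hd}).toSubfield
      ≤ Subfield.closure (Set.range (heckeAlphaBar Kb (M * q) q) ∪
          Set.range (heckeBetaBar Kb (M * q) q)) := by
    rw [IntermediateField.adjoin_toSubfield, Subfield.closure_le]
    rintro x (⟨a, rfl⟩ | ⟨d, hd0, hd, rfl⟩)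
    · refine Subfield.subset_closure (Or.inl ⟨algebraMap Kb _ a, ?_⟩)
      exact (heckeAlphaBar Kb (M * q) q).commutes a
    · rcases dvd_mul_prime_cases q hq hd with h1 | ⟨d', rfl, h1⟩
      · refine Subfield.subset_closure (Or.inl ⟨jdF (M * q) d h1, ?_⟩)
        exact Fermat.Agent.BAD.H88.alpha_jdF q (M * q) d h1
      · haveI : NeZero d' := ⟨fun h0 => NeZero.ne (d' * q) (by rw [h0, zero_mul])⟩
        refine Subfield.subset_closure (Or.inr ⟨jdF (M * q) d' h1, ?_⟩)
        exact Fermat.Agent.BAD.H88.beta_jdF q (M * q) d' h1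
  intro x _
  have hx : x ∈ (IntermediateField.adjoin Kb
      {x : FN (M * q * q) | ∃ (d : ℕ) (_ : NeZero d) (hd : d ∣ M * q * q),
        x = jdF (M * q * q) d hd}).toSubfield := by
    rw [h]
    exact (IntermediateField.mem_top : x ∈ (⊤ : IntermediateField Kb (FN (M * q * q))))
  exact h2 hx

end Fields

section NormW

variable (M q : ℕ) [NeZero M] [NeZero q] (a b : ℤ) (hab : a * q + b * M = 1) (hq : q.Prime)

include hab in
theorem not_dvd_of_bezout (hq : q.Prime) : ¬ q ∣ M := by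
  intro h
  have h1 : (q : ℤ) ∣ a * q + b * M :=
    dvd_add (dvd_mul_left _ _) (Dvd.dvd.mul_left (Int.natCast_dvd_natCast.mpr h) _)
  rw [hab] at h1
  have h2 := Int.natAbs_dvd_natAbs.mpr h1
  simp only [Int.natAbs_natCast, Int.natAbs_one, Nat.dvd_one] at h2
  exact hq.one_lt.ne' h2

/-- **The norm square with `w_q`.** -/
theorem normW (hSQW : Stmt_SquareW) (hDEG : Stmt_DegBeta) (x : FN (M * q)) :
    heckeAlphaBar Kb M q (normFn (heckeBetaBar Kb M q) x)
      = normFn (heckeBetaBar Kb (M * q) q) (heckeAlphaBar Kb (M * q) q x)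
        * Fermat.Agent.BAD.H88.wq q M a b hab hq x := by
  have hqM := not_dvd_of_bezout M q a b hab hq
  have hd' := hDEG M q hq hqM
  refine hSQW Kb (FN M) (FN (M * q)) (FN (M * q * q)) (heckeAlphaBar Kb M q)
    (heckeBetaBar Kb M q) (heckeAlphaBar Kb (M * q) q) (heckeBetaBar Kb (M * q) q)
    (Fermat.Agent.BAD.H88.wq q M a b hab hq) (beta_comp_alpha M q)
    (fun y => Fermat.Agent.BAD.H88.wq_beta q M a b hab hq y)
    (finiteAlong_hom (isFF0 M) (isFF0 (M * q)) _)
    (finiteAlong_hom (isFF0 (M * q)) (isFF0 (M * q * q)) _) ?_ ?_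
    (closure_range_union M q hq) x
  · rw [hd', Fermat.Agent.RED.H95.finrankAlong_beta hq hqM]
  · rw [hd']
    exact hq.two_le

end NormW

section Corr

variable (M q : ℕ) [NeZero M] [NeZero q] (a b : ℤ) (hab : a * q + b * M = 1) (hq : q.Prime)

/-- The Atkin–Lehner involution as an algebra homomorphism. -/
abbrev wHom : FN (M * q) →ₐ[Kb] FN (M * q) :=
  ((Fermat.Agent.BAD.H88.wq q M a b hab hq : FN (M * q) ≃ₐ[Kb] FN (M * q)) :
    FN (M * q) →ₐ[Kb] FN (M * q))

/-- **The correspondence identity** `α^* β_* = β'_* α'^* + w^*` on divisors. -/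
theorem corrW (hSQW : Stmt_SquareW) (hDEG : Stmt_DegBeta) :
    (pullD (heckeAlphaBar Kb M q)).comp (pushD (heckeBetaBar Kb M q))
      = (pushD (heckeBetaBar Kb (M * q) q)).comp (pullD (heckeAlphaBar Kb (M * q) q))
        + pullD (wHom M q a b hab hq) := by
  have hF := isFF0 M
  have hF' := isFF0 (M * q)
  have hF'' := isFF0 (M * q * q)
  haveI := hasPD hF'
  refine ((isCorr_pullD hF hF' (heckeAlphaBar Kb M q)).comp
    (isCorr_pushD hF hF' (heckeBetaBar Kb M q))).eq
    (((isCorr_pushD hF' hF'' (heckeBetaBar Kb (M * q) q)).comp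
      (isCorr_pullD hF' hF'' (heckeAlphaBar Kb (M * q) q))).add
      (isCorr_pullD hF' hF' (wHom M q a b hab hq))) (fun f _ => ?_)
  exact normW M q a b hab hq hSQW hDEG f

/-- `a^* b_* = U + W` on `J₀(Mq)`. -/
theorem as_bd (hSQW : Stmt_SquareW) (hDEG : Stmt_DegBeta) (y : JZero (M * q)) :
    pullP (heckeAlphaBar Kb M q) (pushP (heckeBetaBar Kb M q) y)
      = U0 (M * q) q y + Fermat.Agent.BAD.H88.wq q M a b hab hq • y := by
  have hF := isFF0 M
  have hF' := isFF0 (M * q)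
  have hF'' := isFF0 (M * q * q)
  have h1 := picMap_comp (isCorr_pullD hF hF' (heckeAlphaBar Kb M q)).isGood
    (isCorr_pushD hF hF' (heckeBetaBar Kb M q)).isGood
  have h2 := picMap_comp (isCorr_pushD hF' hF'' (heckeBetaBar Kb (M * q) q)).isGood
    (isCorr_pullD hF' hF'' (heckeAlphaBar Kb (M * q) q)).isGood
  have h3 := picMap_add ((isCorr_pushD hF' hF'' (heckeBetaBar Kb (M * q) q)).comp
      (isCorr_pullD hF' hF'' (heckeAlphaBar Kb (M * q) q))).isGood
      (isCorr_pullD hF' hF' (wHom M q a b hab hq)).isGood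
  rw [← corrW M q a b hab hq hSQW hDEG, h1, h2] at h3
  have h4 := DFunLike.congr_fun h3 y
  rw [AddMonoidHom.comp_apply, AddMonoidHom.add_apply, AddMonoidHom.comp_apply] at h4
  rw [← pullP_smul hF' (Fermat.Agent.BAD.H88.wq q M a b hab hq) y]
  exact h4

theorem wq_mul_self :
    Fermat.Agent.BAD.H88.wq q M a b hab hq * Fermat.Agent.BAD.H88.wq q M a b hab hq = 1 :=
  AlgEquiv.ext fun x => Fermat.Agent.BAD.H88.wq_wq q M a b hab hq x

theorem wq_inv :
    (Fermat.Agent.BAD.H88.wq q M a b hab hq)⁻¹ = Fermat.Agent.BAD.H88.wq q M a b hab hq :=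
  inv_eq_of_mul_eq_one_left (wq_mul_self M q a b hab hq)

/-- `W² = 1`. -/
theorem W_W (y : JZero (M * q)) :
    Fermat.Agent.BAD.H88.wq q M a b hab hq • (Fermat.Agent.BAD.H88.wq q M a b hab hq • y) = y := by
  rw [← mul_smul, wq_mul_self, one_smul]

/-- `W a^* = b^*`. -/
theorem W_as (x : JZero M) :
    Fermat.Agent.BAD.H88.wq q M a b hab hq • pullP (heckeAlphaBar Kb M q) x
      = pullP (heckeBetaBar Kb M q) x := by
  have hF := isFF0 M
  have hF' := isFF0 (M * q)
  rw [← pullP_smul hF']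
  have h := DFunLike.congr_fun (pullP_comp hF hF' hF' (heckeAlphaBar Kb M q)
    (wHom M q a b hab hq)) x
  rw [AddMonoidHom.comp_apply] at h
  rw [← h]
  congr 2
  exact Fermat.Agent.BAD.H88.wq_comp_alpha q M a b hab hq

/-- `W b^* = a^*`. -/
theorem W_bs (x : JZero M) :
    Fermat.Agent.BAD.H88.wq q M a b hab hq • pullP (heckeBetaBar Kb M q) x
      = pullP (heckeAlphaBar Kb M q) x := by
  rw [← W_as M q a b hab hq x, W_W]

/-- `a_* W = b_*`. -/
theorem ad_W (y : JZero (M * q)) :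
    pushP (heckeAlphaBar Kb M q) (Fermat.Agent.BAD.H88.wq q M a b hab hq • y)
      = pushP (heckeBetaBar Kb M q) y := by
  have hF := isFF0 M
  have hF' := isFF0 (M * q)
  have h := DFunLike.congr_fun (pushP_comp hF hF' hF' (heckeAlphaBar Kb M q)
    (wHom M q a b hab hq)) y
  rw [AddMonoidHom.comp_apply, pushP_smul hF', wq_inv] at h
  rw [← h]
  congr 2
  exact Fermat.Agent.BAD.H88.wq_comp_alpha q M a b hab hq

/-- `b_* W = a_*`. -/
theorem bd_W (y : JZero (M * q)) :
    pushP (heckeBetaBar Kb M q) (Fermat.Agent.BAD.H88.wq q M a b hab hq • y)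
      = pushP (heckeAlphaBar Kb M q) y := by
  rw [← ad_W M q a b hab hq, W_W]

include hab in
/-- `a_* a^* = q + 1`. -/
theorem ad_as (hq : q.Prime) (x : JZero M) :
    pushP (heckeAlphaBar Kb M q) (pullP (heckeAlphaBar Kb M q) x) = (q + 1) • x := by
  rw [pushP_pullP (isFF0 M) (isFF0 (M * q)),
    Fermat.Agent.RED.H95.finrankAlong_alpha hq (not_dvd_of_bezout M q a b hab hq)]

include hab in
/-- `b_* b^* = q + 1`. -/
theorem bd_bs (hq : q.Prime) (x : JZero M) :
    pushP (heckeBetaBar Kb M q) (pullP (heckeBetaBar Kb M q) x) = (q + 1) • x := by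
  rw [pushP_pullP (isFF0 M) (isFF0 (M * q)),
    Fermat.Agent.RED.H95.finrankAlong_beta hq (not_dvd_of_bezout M q a b hab hq)]

/-- `a_* b^* = T₀`. -/
theorem ad_bs (x : JZero M) :
    pushP (heckeAlphaBar Kb M q) (pullP (heckeBetaBar Kb M q) x) = T0 M q x := rfl

/-- `b_* a^* = U₀`. -/
theorem bd_as' (x : JZero M) :
    pushP (heckeBetaBar Kb M q) (pullP (heckeAlphaBar Kb M q) x) = U0 M q x := rfl

include hab hq in
/-- `U₀ = T₀` on `J₀(M)` for `q ∤ M`. -/
theorem U0_eq_T0 (x : JZero M) : U0 M q x = T0 M q x := by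
  rw [← bd_as', ← ad_bs, ← ad_W M q a b hab hq, W_as]

include hab hq in
/-- `b_* a^* = T₀`. -/
theorem bd_as (x : JZero M) :
    pushP (heckeBetaBar Kb M q) (pullP (heckeAlphaBar Kb M q) x) = T0 M q x := by
  rw [bd_as', U0_eq_T0 M q a b hab hq]

/-- `U = a^* b_* - W`. -/
theorem U_eq (hSQW : Stmt_SquareW) (hDEG : Stmt_DegBeta) (y : JZero (M * q)) :
    U0 (M * q) q y = pullP (heckeAlphaBar Kb M q) (pushP (heckeBetaBar Kb M q) y)
      - Fermat.Agent.BAD.H88.wq q M a b hab hq • y := by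
  rw [as_bd M q a b hab hq hSQW hDEG, add_sub_cancel_right]

end Corr

end Fermat.Agent.NEB.OLD
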