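import Fermat.Agent.NEB.OLD.Defs

/-!
# NEB OLDNEW, leaf OLD-SQW (helper66): the non-Galois square with an involution

`stmt_SquareW : Stmt_SquareW`: in a commutative square `β' ∘ α = α' ∘ β` with
`[F' : βF] = [F'' : β'F'] + 1`, `[F'' : β'F'] ≥ 2`, `F'' = α'(F')·β'(F')` and `w ∘ β = α`,
`α (Norm_β x) = Norm_{β'} (α' x) · w x`.

Proof: `τ = (α', w) : F' → F'' × F'` maps a basis of `F'` over `βF` to a basis of the
`F'`-algebra `F'' × F'` (structure map `(β', id)`), and the norm of a product algebra is the
product of the norms.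
-/

set_option autoImplicit false
set_option linter.style.haveILetI false
set_option linter.unusedSectionVars false

noncomputable section

namespace Fermat.Agent.NEB.OLD.H66

open AlgebraicCurve Fermat.Agent.NEB.H14

/-- A commutative square which maps a basis to a basis commutes with the norms
(the target is any commutative ring). -/
theorem norm_map_of_basis_ring {K K' M Z : Type*} [Field K] [Field K'] [Field M] [CommRing Z]
    [Algebra K K'] [Algebra M Z] (σ : K →+* M) (τ : K' →+* Z)
    (hsq : ∀ a : K, τ (algebraMap K K' a) = algebraMap M Z (σ a))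
    {ι : Type*} [Fintype ι] [DecidableEq ι] (b : Module.Basis ι K K') (b' : Module.Basis ι M Z)
    (hb : ∀ i, τ (b i) = b' i) (x : K') :
    σ (Algebra.norm K x) = Algebra.norm M (τ x) := by
  rw [Algebra.norm_eq_matrix_det b, Algebra.norm_eq_matrix_det b', RingHom.map_det]
  congr 1
  ext i j
  rw [RingHom.mapMatrix_apply, Matrix.map_apply, Algebra.leftMulMatrix_eq_repr_mul,
    Algebra.leftMulMatrix_eq_repr_mul]
  have h1 : x * b j = ∑ k, b.repr (x * b j) k • b k := (b.sum_repr (x * b j)).symm
  have h2 : τ x * b' j = ∑ k, σ (b.repr (x * b j) k) • b' k := by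
    rw [← hb j, ← map_mul, h1, map_sum]
    refine Finset.sum_congr rfl fun k _ => ?_
    rw [Algebra.smul_def, map_mul, hsq, hb, ← h1, Algebra.smul_def]
  rw [h2, map_sum, Finset.sum_apply']
  simp only [map_smul, Module.Basis.repr_self, Finsupp.smul_apply, Finsupp.single_apply,
    smul_eq_mul, mul_ite, mul_one, mul_zero]
  rw [Finset.sum_ite_eq' Finset.univ i]
  simp

/-- The norm of a product algebra is the product of the norms. -/
theorem norm_prod_apply {R S T : Type*} [CommRing R] [CommRing S] [CommRing T]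
    [Algebra R S] [Algebra R T]
    [Module.Free R S] [Module.Free R T] [Module.Finite R S] [Module.Finite R T]
    (x : S × T) : Algebra.norm R x = Algebra.norm R x.1 * Algebra.norm R x.2 := by
  have h : (Algebra.lmul R (S × T)) x
      = LinearMap.prodMap (Algebra.lmul R S x.1) (Algebra.lmul R T x.2) := by
    apply LinearMap.ext
    intro y
    rfl
  rw [Algebra.norm_apply, h, LinearMap.det_prodMap]
  rfl

/-- **SQUARE-W, abstract form**: `B / A` and `C / B` finite field extensions with
`[B : A] = [C : B] + 1`, `[C : B] ≥ 2`; `σ : A → B`, `α' : B → C`, `w : B → B` ring homomorphisms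
with `algebraMap B C ∘ σ = α' ∘ algebraMap A B`, `w ∘ algebraMap A B = σ` and
`C = α'(B) · B`.  Then `σ (N_{B/A} x) = N_{C/B} (α' x) · w x`. -/
theorem squareW_abs {A B C : Type*} [Field A] [Field B] [Field C] [Algebra A B] [Algebra B C]
    [Module.Finite A B] [Module.Finite B C]
    (σ : A →+* B) (α' : B →+* C) (w : B →+* B)
    (h1 : ∀ a, algebraMap B C (σ a) = α' (algebraMap A B a))
    (h2 : ∀ a, w (algebraMap A B a) = σ a)
    (hdeg : Module.finrank A B = Module.finrank B C + 1)
    (hn : 2 ≤ Module.finrank B C)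
    (hgen : Subfield.closure (Set.range α' ∪ Set.range (algebraMap B C)) = ⊤)
    (x : B) : σ (Algebra.norm A x) = Algebra.norm B (α' x) * w x := by
  classical
  let τ : B →+* C × B := α'.prod w
  have hτ : ∀ a, τ (algebraMap A B a) = algebraMap B (C × B) (σ a) := by
    intro a
    refine Prod.ext ?_ ?_
    · show α' (algebraMap A B a) = algebraMap B C (σ a)
      exact (h1 a).symm
    · show w (algebraMap A B a) = σ a
      exact h2 a
  let S : Subalgebra B (C × B) := Algebra.adjoin B (Set.range τ)
  have hτS : ∀ y, τ y ∈ S := fun y => Algebra.subset_adjoin ⟨y, rfl⟩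
  -- Step 1: the first projection of `S` is onto
  have hfst : ∀ c : C, ∃ s ∈ S, (s : C × B).1 = c := by
    let T : Subalgebra B C := S.map (AlgHom.fst B C B)
    have hTinv : ∀ c ∈ T, c⁻¹ ∈ T := by
      intro c hc
      exact T.inv_mem_of_algebraic (x := ⟨c, hc⟩) (Algebra.IsAlgebraic.isAlgebraic c)
    let Tf : Subfield C := { T.toSubring with inv_mem' := hTinv }
    have hle : Subfield.closure (Set.range α' ∪ Set.range (algebraMap B C)) ≤ Tf := by
      rw [Subfield.closure_le]
      rintro c (⟨y, rfl⟩ | ⟨y, rfl⟩)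
      · exact ⟨τ y, hτS y, rfl⟩
      · exact T.algebraMap_mem y
    intro c
    have hc : c ∈ Tf := hle (hgen ▸ Subfield.mem_top c)
    obtain ⟨s, hs, hsc⟩ := hc
    exact ⟨s, hs, hsc⟩
  -- Step 2: some `α' x₀` is not `algebraMap B C (w x₀)`
  have hx₀ : ∃ x₀ : B, α' x₀ ≠ algebraMap B C (w x₀) := by
    by_contra hcon0
    have hcon : ∀ y, α' y = algebraMap B C (w y) := fun y =>
      by_contra fun h => hcon0 ⟨y, h⟩
    have hsurj : Function.Surjective (algebraMap B C) := by
      have hle : Subfield.closure (Set.range α' ∪ Set.range (algebraMap B C))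
          ≤ (algebraMap B C).fieldRange := by
        rw [Subfield.closure_le]
        rintro c (⟨y, rfl⟩ | ⟨y, rfl⟩)
        · exact ⟨w y, (hcon y).symm⟩
        · exact ⟨y, rfl⟩
      intro c
      have hc : c ∈ (algebraMap B C).fieldRange := hle (hgen ▸ Subfield.mem_top c)
      exact hc
    have h1' : Module.finrank B C = 1 := by
      refine finrank_eq_one (1 : C) one_ne_zero fun c => ?_
      obtain ⟨y, hy⟩ := hsurj c
      exact ⟨y, by rw [Algebra.smul_def, mul_one, hy]⟩
    omega
  obtain ⟨x₀, hx₀⟩ := hx₀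
  -- Step 3: `(1, 0) ∈ S`
  have he : ((1 : C), (0 : B)) ∈ S := by
    have ha0 : α' x₀ - algebraMap B C (w x₀) ≠ 0 := sub_ne_zero.mpr hx₀
    have hs0 : ((α' x₀ - algebraMap B C (w x₀), 0) : C × B) ∈ S := by
      have : ((α' x₀ - algebraMap B C (w x₀), 0) : C × B)
          = τ x₀ - algebraMap B (C × B) (w x₀) := by
        refine Prod.ext ?_ ?_
        · rfl
        · show (0 : B) = w x₀ - w x₀
          simp
      rw [this]
      exact S.sub_mem (hτS x₀) (S.algebraMap_mem _)
    obtain ⟨s₁, hs₁, hs₁a⟩ := hfst (α' x₀ - algebraMap B C (w x₀))⁻¹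
    have : ((1 : C), (0 : B)) = s₁ * (α' x₀ - algebraMap B C (w x₀), 0) := by
      refine Prod.ext ?_ ?_
      · show (1 : C) = s₁.1 * (α' x₀ - algebraMap B C (w x₀))
        rw [hs₁a, inv_mul_cancel₀ ha0]
      · show (0 : B) = s₁.2 * 0
        simp
    rw [this]
    exact S.mul_mem hs₁ hs0
  -- Step 4: `S = ⊤`
  have hS : ∀ z : C × B, z ∈ S := by
    intro z
    obtain ⟨s, hs, hsc⟩ := hfst z.1
    have : z = s * ((1 : C), (0 : B))
        + algebraMap B (C × B) z.2 * (1 - ((1 : C), (0 : B))) := by
      refine Prod.ext ?_ ?_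
      · show z.1 = s.1 * 1 + algebraMap B C z.2 * (1 - 1)
        simp [hsc]
      · show z.2 = s.2 * 0 + z.2 * (1 - 0)
        simp
    rw [this]
    exact S.add_mem (S.mul_mem hs he) (S.mul_mem (S.algebraMap_mem _) (S.sub_mem S.one_mem he))
  -- Step 5: the images of a basis span
  let b := Module.finBasis A B
  have hspan : ⊤ ≤ Submodule.span B (Set.range (fun i => τ (b i))) := by
    intro z _
    have hz : z ∈ Subalgebra.toSubmodule (Algebra.adjoin B (Set.range τ)) := hS z
    rw [Algebra.adjoin_eq_span] at hz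
    refine Submodule.span_le.mpr ?_ hz
    intro y hy
    have hy' : y ∈ Set.range τ := by
      have hcl : Submonoid.closure (Set.range τ) ≤ MonoidHom.mrange (τ : B →* C × B) := by
        rw [Submonoid.closure_le]
        rintro _ ⟨u, rfl⟩
        exact ⟨u, rfl⟩
      obtain ⟨u, hu⟩ := hcl hy
      exact ⟨u, hu⟩
    obtain ⟨u, rfl⟩ := hy'
    have hu : u = ∑ i, b.repr u i • b i := (b.sum_repr u).symm
    have hτu : τ u = ∑ i, σ (b.repr u i) • τ (b i) := by
      conv_lhs => rw [hu]
      rw [map_sum]
      refine Finset.sum_congr rfl fun i _ => ?_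
      rw [Algebra.smul_def, map_mul, hτ, Algebra.smul_def]
    rw [SetLike.mem_coe, hτu]
    exact Submodule.sum_mem _ fun i _ => Submodule.smul_mem _ _ (Submodule.subset_span ⟨i, rfl⟩)
  have hcard : Fintype.card (Fin (Module.finrank A B)) = Module.finrank B (C × B) := by
    rw [Fintype.card_fin, Module.finrank_prod, Module.finrank_self, hdeg]
  let b' : Module.Basis (Fin (Module.finrank A B)) B (C × B) :=
    basisOfTopLeSpanOfCardEqFinrank (fun i => τ (b i)) hspan hcard
  have hb' : ∀ i, τ (b i) = b' i := by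
    intro i
    simp only [b', coe_basisOfTopLeSpanOfCardEqFinrank]
  have key := norm_map_of_basis_ring σ τ hτ b b' hb' x
  rw [key, norm_prod_apply]
  show Algebra.norm B (α' x) * Algebra.norm B (w x) = Algebra.norm B (α' x) * w x
  rw [Algebra.norm_self]
  rfl

/-- **OLD-SQW** (helper66). -/
theorem stmt_SquareW : Stmt_SquareW := by
  intro K F F' F'' _ _ _ _ _ _ _ α β α' β' w hsq hw hfin hfin' hdeg hn hgen x
  letI : Algebra F F' := algebraAlong β
  letI : Algebra F' F'' := algebraAlong β'
  haveI : Module.Finite F F' := hfin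
  haveI : Module.Finite F' F'' := hfin'
  have h1 : ∀ a, algebraMap F' F'' ((α : F →+* F') a) = (α' : F' →+* F'') (algebraMap F F' a) :=
    fun a => DFunLike.congr_fun hsq a
  have h2 : ∀ a, (w : F' →+* F') (algebraMap F F' a) = (α : F →+* F') a := fun a => hw a
  exact squareW_abs (α : F →+* F') (α' : F' →+* F'') (w : F' →+* F') h1 h2 hdeg hn hgen x

end Fermat.Agent.NEB.OLD.H66
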