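import Mathlib
import Fermat.Agent.NEB.OLD.Defs

/-!
# NEB, package OLDNEW (helper14): compatibility leaves and the abstract step

Levels `M` and `Mq` (`q ∤ M` prime), `α, β : F₀(M) → F₀(Mq)`; `q' ≠ q` another prime (dividing `M`
or not, `q'² ∤ M`).  `U0 L q' = β_* α^*` is the operator of `J₀(L)` at `q'` (`= T0 L q'` when
`q' ∤ L`, `= U_{q'}` when `q' ∣ L`).

Leaves COMPAT (base-change squares of norms, tools: `Lib.HeckeComm.normAlongHom_baseChange`,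
`S36.H44.adjoin_beta_jF`, `S36.H44.adjoin_beta_jdF`, `S36.H44.finrank_eq_of_square`,
`NEB.H14.square_of_norm_pic`, `pullP_comp`, `pushP_comp`):

* `Stmt_CompatAs` : `α^* U_{q'} = U_{q'} α^*`   (square `(β_{q'}, α_q)`, primitive element `j`);
* `Stmt_CompatBd` : `β_* U_{q'} = U_{q'} β_*`   (square `(β_q, α_{q'})`, primitive element `j`);
* `Stmt_CompatBs` : `β^* U_{q'} = U_{q'} β^*`   (square `(β_{q'}, β_q)`, primitive element `j`, image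
  `j(qτ)`: CRUX for `q' ∤ M`; for `q' ∣ M` the degree `q'` is prime and `j(qτ) ∉ β' F₀(Mq)`);
* `Stmt_CompatAd` : `α_* U_{q'} = U_{q'} α_*`   (square `(α_q, α_{q'})`, primitive element
  `j(Mqτ) = w_q j(Mτ)`: CRUX transported by `w_q`).

Abstract leaf `Stmt_OldNewStep`: OLD-ABS with a family of commuting operators.
-/

set_option autoImplicit false

noncomputable section

namespace Fermat.Agent.NEB.OLD

open AlgebraicCurve ModularCurve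
open Fermat.Agent.NEB Fermat.Agent.NEB.H14 Fermat.Agent.NEB.JH Fermat.Agent.RED

/-- **COMPAT-as**: `α_q^* ∘ U_{q'} = U_{q'} ∘ α_q^*`. -/
def Stmt_CompatAs : Prop :=
  ∀ (M q q' : ℕ) [NeZero M] [NeZero q] [NeZero q'], q.Prime → q'.Prime → q ≠ q' → ¬ q ∣ M →
    ¬ q' ^ 2 ∣ M → ∀ x : JZero M,
    pullP (heckeAlphaBar (AlgebraicClosure ℚ) M q) (U0 M q' x)
      = U0 (M * q) q' (pullP (heckeAlphaBar (AlgebraicClosure ℚ) M q) x)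

/-- **COMPAT-bs**: `β_q^* ∘ U_{q'} = U_{q'} ∘ β_q^*`. -/
def Stmt_CompatBs : Prop :=
  ∀ (M q q' : ℕ) [NeZero M] [NeZero q] [NeZero q'], q.Prime → q'.Prime → q ≠ q' → ¬ q ∣ M →
    ¬ q' ^ 2 ∣ M → ∀ x : JZero M,
    pullP (heckeBetaBar (AlgebraicClosure ℚ) M q) (U0 M q' x)
      = U0 (M * q) q' (pullP (heckeBetaBar (AlgebraicClosure ℚ) M q) x)

/-- **COMPAT-ad**: `α_{q*} ∘ U_{q'} = U_{q'} ∘ α_{q*}`. -/
def Stmt_CompatAd : Prop :=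
  ∀ (M q q' : ℕ) [NeZero M] [NeZero q] [NeZero q'], q.Prime → q'.Prime → q ≠ q' → ¬ q ∣ M →
    ¬ q' ^ 2 ∣ M → ∀ y : JZero (M * q),
    pushP (heckeAlphaBar (AlgebraicClosure ℚ) M q) (U0 (M * q) q' y)
      = U0 M q' (pushP (heckeAlphaBar (AlgebraicClosure ℚ) M q) y)

/-- **COMPAT-bd**: `β_{q*} ∘ U_{q'} = U_{q'} ∘ β_{q*}`. -/
def Stmt_CompatBd : Prop :=
  ∀ (M q q' : ℕ) [NeZero M] [NeZero q] [NeZero q'], q.Prime → q'.Prime → q ≠ q' → ¬ q ∣ M →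
    ¬ q' ^ 2 ∣ M → ∀ y : JZero (M * q),
    pushP (heckeBetaBar (AlgebraicClosure ℚ) M q) (U0 (M * q) q' y)
      = U0 M q' (pushP (heckeBetaBar (AlgebraicClosure ℚ) M q) y)

/-- **OLD-STEP** (pure algebra): OLD-ABS together with a family of operators `t i` on `A`,
`t' i` on `B` compatible with the four degeneracy maps.  With
`Aθ = ⋂ gk(t i - c i) ∩ gk(T - s)` (`s ≡ a + a'`) and `Bθ = ⋂ gk(t' i - c i) ∩ gk(U - a)`:
`ad` maps `Bθ` bijectively onto `Aθ`.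

Proof: (i) `Ψ = (ad, bd) : B → A²` satisfies `Ψ U = 𝕄 Ψ`, `𝕄 (x, y) = (q y, T y - x)`,
`𝕄² - T 𝕄 + q = 0`, hence `a 𝕄 (T - (a + q / a)) = (a 𝕄 - q) (𝕄 - a)` and `T - s` is locally
nilpotent on `ad v`, `bd v` for `v ∈ gk(U - a)`; (ii) apply `H38.oldNewAbs` to the submodules
`Aθ` and `B₀ = {v | ad v ∈ Aθ ∧ bd v ∈ Aθ}` (stable under `W` and `U = as bd - W`);
(iii) `Bθ = gk(U - a) ∩ B₀`: `⊆` by (i) and the compatibility of `ad`, `bd`; `⊇` because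
`gk(U - a) ∩ B₀ ⊆ as Aθ + bs Aθ` and the compatibility of `as`, `bs`. -/
def Stmt_OldNewStep : Prop :=
  ∀ (𝒪 : Type) [CommRing 𝒪] (A B : Type) [AddCommGroup A] [Module 𝒪 A] [AddCommGroup B]
    [Module 𝒪 B]
    (as bs : A →ₗ[𝒪] B) (ad bd : B →ₗ[𝒪] A) (T : Module.End 𝒪 A) (U W : Module.End 𝒪 B)
    (q : ℕ) (a a' s : 𝒪)
    (ι : Type) (t : ι → Module.End 𝒪 A) (t' : ι → Module.End 𝒪 B) (c : ι → 𝒪),
    (∀ x, ad (as x) = (q + 1) • x) → (∀ x, bd (bs x) = (q + 1) • x) →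
    (∀ x, ad (bs x) = T x) → (∀ x, bd (as x) = T x) →
    (∀ y, U y = as (bd y) - W y) →
    (∀ x, W (as x) = bs x) → (∀ x, W (bs x) = as x) → (∀ y, W (W y) = y) →
    (∀ y, ad (W y) = bd y) → (∀ y, bd (W y) = ad y) →
    (∀ i x, as (t i x) = t' i (as x)) → (∀ i x, bs (t i x) = t' i (bs x)) →
    (∀ i y, ad (t' i y) = t i (ad y)) → (∀ i y, bd (t' i y) = t i (bd y)) →
    IsUnit (a - a') → IsUnit (a * a - 1) → IsUnit (a' * a' - 1) → IsUnit (q : 𝒪) → IsUnit a →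
    (∀ x : A, ∃ n : ℕ, ((q : 𝒪) - a * a') ^ n • x = 0) →
    (∀ y : B, ∃ n : ℕ, ((q : 𝒪) - a * a') ^ n • y = 0) →
    (∀ x : A, ∃ n : ℕ, (s - (a + a')) ^ n • x = 0) →
    (∀ v : B, (∀ i, ∃ n : ℕ, ((t' i - c i • (1 : Module.End 𝒪 B)) ^ n) v = 0) →
        (∃ n : ℕ, ((U - a • (1 : Module.End 𝒪 B)) ^ n) v = 0) →
        (∀ i, ∃ n : ℕ, ((t i - c i • (1 : Module.End 𝒪 A)) ^ n) (ad v) = 0) ∧
          ∃ n : ℕ, ((T - s • (1 : Module.End 𝒪 A)) ^ n) (ad v) = 0) ∧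
    (∀ x : A, (∀ i, ∃ n : ℕ, ((t i - c i • (1 : Module.End 𝒪 A)) ^ n) x = 0) →
        (∃ n : ℕ, ((T - s • (1 : Module.End 𝒪 A)) ^ n) x = 0) →
        ∃ v : B, (∀ i, ∃ n : ℕ, ((t' i - c i • (1 : Module.End 𝒪 B)) ^ n) v = 0) ∧
          (∃ n : ℕ, ((U - a • (1 : Module.End 𝒪 B)) ^ n) v = 0) ∧ ad v = x) ∧
    (∀ v : B, (∀ i, ∃ n : ℕ, ((t' i - c i • (1 : Module.End 𝒪 B)) ^ n) v = 0) →
        (∃ n : ℕ, ((U - a • (1 : Module.End 𝒪 B)) ^ n) v = 0) → ad v = 0 → v = 0)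

end Fermat.Agent.NEB.OLD
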