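import Mathlib
import Fermat.Agent.NEB.OLD.CompatDefs
import Fermat.Agent.NEB.OLD.H14_Geo
import Fermat.Agent.S43.H88_WHecke

/-!
# NEB, package OLDNEW (helper14): `w_q` commutes with the operators at the other primes

* `W_U0` : `W U_{q'} = U_{q'} W` on `J₀(Mq)` for `q' ≠ q` (helper88's lift `wUp` of `w_q` to the
  level `M q q'`, compatible with both degeneracy maps);
* `compatBs_of_compatAs : Stmt_CompatAs → Stmt_CompatBs`  (`b^* = W a^*`);
* `compatAd_of_compatBd : Stmt_CompatBd → Stmt_CompatAd`  (`a_* = b_* W`).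
-/

set_option autoImplicit false
set_option linter.unusedSectionVars false
set_option linter.style.haveILetI false

noncomputable section

namespace Fermat.Agent.NEB.OLD

open AlgebraicCurve ModularCurve Fermat.Agent.S24
open Fermat.Agent.NEB.H14 Fermat.Agent.NEB.JH Fermat.Agent.RED

local notation "Kb" => AlgebraicClosure ℚ

section WComm

variable (M q q' : ℕ) [NeZero M] [NeZero q] [NeZero q'] (a b : ℤ) (hab : a * q + b * M = 1)
  (hq : q.Prime)

/-- **`W U_{q'} = U_{q'} W`** on `J₀(Mq)`. -/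
theorem W_U0 (a' b' : ℤ) (hab' : a' * q + b' * ((M * q' : ℕ) : ℤ) = 1) (y : JZero (M * q)) :
    Fermat.Agent.BAD.H88.wq q M a b hab hq • U0 (M * q) q' y
      = U0 (M * q) q' (Fermat.Agent.BAD.H88.wq q M a b hab hq • y) := by
  have hF' := isFF0 (M * q)
  have hF'' := isFF0 (M * q * q')
  have hα : ∀ x, heckeAlphaBar Kb (M * q) q' (Fermat.Agent.BAD.H88.wq q M a b hab hq x)
      = Fermat.Agent.S43.H88.wUp q M q' a' b' hab' (heckeAlphaBar Kb (M * q) q' x) := fun x =>
    (DFunLike.congr_fun (Fermat.Agent.S43.H88.wUp_comp_alpha q M a b hab hq q' a' b' hab') x).symm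
  have hβ : ∀ x, heckeBetaBar Kb (M * q) q' (Fermat.Agent.BAD.H88.wq q M a b hab hq x)
      = Fermat.Agent.S43.H88.wUp q M q' a' b' hab' (heckeBetaBar Kb (M * q) q' x) := fun x =>
    (DFunLike.congr_fun (Fermat.Agent.S43.H88.wUp_comp_beta q M a b hab hq q' a' b' hab') x).symm
  show Fermat.Agent.BAD.H88.wq q M a b hab hq •
      pushP (heckeBetaBar Kb (M * q) q') (pullP (heckeAlphaBar Kb (M * q) q') y)
    = pushP (heckeBetaBar Kb (M * q) q') (pullP (heckeAlphaBar Kb (M * q) q')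
        (Fermat.Agent.BAD.H88.wq q M a b hab hq • y))
  rw [pullP_algEquiv hF' hF'' (heckeAlphaBar Kb (M * q) q') _ _ hα y,
    pushP_algEquiv hF' hF'' (heckeBetaBar Kb (M * q) q') _ _ hβ]

end WComm

section Derive

theorem exists_bezout_of_not_dvd {q M : ℕ} (hq : q.Prime) (hqM : ¬ q ∣ M) :
    ∃ a b : ℤ, a * q + b * M = 1 := by
  have hcop : Nat.Coprime q M := (Nat.Prime.coprime_iff_not_dvd hq).mpr hqM
  obtain ⟨u, v, huv⟩ := Nat.isCoprime_iff_coprime.mpr hcop
  exact ⟨u, v, huv⟩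

theorem exists_bezout_mul {q q' M : ℕ} (hq : q.Prime) (hq' : q'.Prime) (hne : q ≠ q')
    (hqM : ¬ q ∣ M) : ∃ a b : ℤ, a * q + b * ((M * q' : ℕ) : ℤ) = 1 := by
  have hcop : Nat.Coprime q (M * q') := by
    apply Nat.Coprime.mul_right
    · exact (Nat.Prime.coprime_iff_not_dvd hq).mpr hqM
    · exact (Nat.coprime_primes hq hq').mpr hne
  obtain ⟨u, v, huv⟩ := Nat.isCoprime_iff_coprime.mpr hcop
  exact ⟨u, v, huv⟩

/-- `β^* U = U β^*` from `α^* U = U α^*` and `W`. -/
theorem compatBs_of_compatAs (h : Stmt_CompatAs) : Stmt_CompatBs := by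
  intro M q q' _ _ _ hq hq' hne hqM hq'M x
  obtain ⟨a, b, hab⟩ := exists_bezout_of_not_dvd hq hqM
  obtain ⟨a', b', hab'⟩ := exists_bezout_mul hq hq' hne hqM
  rw [← W_as M q a b hab hq, ← W_as M q a b hab hq, h M q q' hq hq' hne hqM hq'M x,
    W_U0 M q q' a b hab hq a' b' hab']

/-- `α_* U = U α_*` from `β_* U = U β_*` and `W`. -/
theorem compatAd_of_compatBd (h : Stmt_CompatBd) : Stmt_CompatAd := by
  intro M q q' _ _ _ hq hq' hne hqM hq'M y
  obtain ⟨a, b, hab⟩ := exists_bezout_of_not_dvd hq hqM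
  obtain ⟨a', b', hab'⟩ := exists_bezout_mul hq hq' hne hqM
  rw [← bd_W M q a b hab hq, ← bd_W M q a b hab hq, W_U0 M q q' a b hab hq a' b' hab',
    h M q q' hq hq' hne hqM hq'M]

end Derive

end Fermat.Agent.NEB.OLD
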