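import Mathlib
import Fermat.Agent.NEB.OLD.CompatDefs
import Fermat.Agent.NEB.OLD.H14_Geo
import Fermat.Agent.NEB.OLD.H14_WComm

/-!
# NEB, package OLDNEW (helper14): realizations and the one-step theorem

A `Realization 𝒪` is an additive functor from the groups `J₀(M)` (with all additive maps between
them) to `𝒪`-modules; the example is `M ↦ 𝒪 ⊗_ℤ J₀(M)[p^∞]`.

* `Realization`, `Realization.map_zero/neg/sub/nsmul/comp_apply`;
* `InE R M S c x` : `x ∈ gk (U_ℓ - c ℓ)` for all primes `ℓ ∈ S` (`U_ℓ = R.map (U0 M ℓ)`);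
* `oneStep` : for `q ∤ N`, `a_* : J₀(Nq) → J₀(N)` induces a bijection
  `{v | InE (Nq) S c v, v ∈ gk (U_q - a)} → {x | InE N S c x, x ∈ gk (T_q - s)}`
  (from `Stmt_OldNewStep`, the relations of `H14_Geo` and the compatibilities).
-/

set_option autoImplicit false
set_option linter.unusedSectionVars false
set_option linter.style.haveILetI false

noncomputable section

namespace Fermat.Agent.NEB.OLD

open AlgebraicCurve ModularCurve Fermat.Agent.S24
open Fermat.Agent.NEB.H14 Fermat.Agent.NEB.JH Fermat.Agent.RED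

local notation "Kb" => AlgebraicClosure ℚ

/-- An additive functor from the groups `J₀(M)` to `𝒪`-modules.  (Relations are stated
pointwise, to be independent of the algebraic structure on the sets of homomorphisms.) -/
structure Realization (𝒪 : Type) [CommRing 𝒪] where
  /-- the module at level `M` -/
  X : (M : ℕ) → [NeZero M] → Type
  [instACG : ∀ (M : ℕ) [NeZero M], AddCommGroup (X M)]
  [instMod : ∀ (M : ℕ) [NeZero M], Module 𝒪 (X M)]
  /-- the action on additive maps -/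
  map : ∀ {M M' : ℕ} [NeZero M] [NeZero M'], (JZero M →+ JZero M') → (X M →ₗ[𝒪] X M')
  map_id : ∀ (M : ℕ) [NeZero M] (f : JZero M →+ JZero M), (∀ x, f x = x) → ∀ v, map f v = v
  map_comp : ∀ {M M' M'' : ℕ} [NeZero M] [NeZero M'] [NeZero M''] (f : JZero M' →+ JZero M'')
    (g : JZero M →+ JZero M') (h : JZero M →+ JZero M''), (∀ x, h x = f (g x)) →
    ∀ v, map h v = map f (map g v)
  map_add : ∀ {M M' : ℕ} [NeZero M] [NeZero M'] (f g h : JZero M →+ JZero M'),
    (∀ x, h x = f x + g x) → ∀ v, map h v = map f v + map g v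

attribute [instance] Realization.instACG Realization.instMod

namespace Realization

variable {𝒪 : Type} [CommRing 𝒪] (R : Realization 𝒪)

theorem map_congr {M M' : ℕ} [NeZero M] [NeZero M'] (f g : JZero M →+ JZero M')
    (h : ∀ x, f x = g x) (v : R.X M) : R.map f v = R.map g v := by
  have : f = g := AddMonoidHom.ext h
  rw [this]

theorem map_zero {M M' : ℕ} [NeZero M] [NeZero M'] (f : JZero M →+ JZero M')
    (hf : ∀ x, f x = 0) (v : R.X M) : R.map f v = 0 := by
  have h := R.map_add f f f (fun x => by rw [hf x, add_zero]) v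
  exact left_eq_add.mp h

theorem map_neg {M M' : ℕ} [NeZero M] [NeZero M'] (f h : JZero M →+ JZero M')
    (hf : ∀ x, h x = -f x) (v : R.X M) : R.map h v = -R.map f v := by
  have h1 := R.map_add f h (0 : JZero M →+ JZero M')
    (fun x => by rw [hf x, add_neg_cancel]; rfl) v
  rw [R.map_zero (0 : JZero M →+ JZero M') (fun _ => rfl)] at h1
  exact (neg_eq_of_add_eq_zero_right h1.symm).symm

theorem map_sub {M M' : ℕ} [NeZero M] [NeZero M'] (f g h : JZero M →+ JZero M')
    (hf : ∀ x, h x = f x - g x) (v : R.X M) : R.map h v = R.map f v - R.map g v := by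
  have h1 := R.map_add h g f (fun x => by rw [hf x, sub_add_cancel]) v
  rw [h1, add_sub_cancel_right]

theorem map_nsmul {M M' : ℕ} [NeZero M] [NeZero M'] (n : ℕ) (f h : JZero M →+ JZero M')
    (hf : ∀ x, h x = n • f x) (v : R.X M) : R.map h v = n • R.map f v := by
  induction n generalizing h with
  | zero =>
    rw [zero_nsmul]
    exact R.map_zero h (fun x => by rw [hf x, zero_nsmul]) v
  | succ n ih =>
    rw [succ_nsmul, ← ih ((nsmulAddMonoidHom n).comp f) (fun x => rfl)]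
    exact R.map_add _ f h (fun x => by
      rw [hf x, succ_nsmul]
      rfl) v

/-- Transfer of a relation `f ∘ g = h ∘ k` given pointwise. -/
theorem map_square {M M₁ M₂ M' : ℕ} [NeZero M] [NeZero M₁] [NeZero M₂] [NeZero M']
    (f : JZero M₁ →+ JZero M') (g : JZero M →+ JZero M₁) (h : JZero M₂ →+ JZero M')
    (k : JZero M →+ JZero M₂) (hsq : ∀ x, f (g x) = h (k x)) (v : R.X M) :
    R.map f (R.map g v) = R.map h (R.map k v) := by
  rw [← R.map_comp f g (f.comp g) (fun _ => rfl) v, ← R.map_comp h k (f.comp g) hsq v]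

end Realization

section InE

variable {𝒪 : Type} [CommRing 𝒪] (R : Realization 𝒪)

/-- The operator at the prime `ℓ` on the realization. -/
def Uop (M : ℕ) [NeZero M] (ℓ : ℕ) (hℓ : ℓ.Prime) : Module.End 𝒪 (R.X M) :=
  haveI : NeZero ℓ := ⟨hℓ.ne_zero⟩
  R.map (U0 M ℓ)

/-- `x` is a generalised eigenvector. -/
def IsGk {W : Type} [AddCommGroup W] [Module 𝒪 W] (B : Module.End 𝒪 W) (a : 𝒪) (x : W) : Prop :=
  ∃ n : ℕ, ((B - a • (1 : Module.End 𝒪 W)) ^ n) x = 0

/-- `x ∈ gk (U_ℓ - c ℓ)` for all primes `ℓ ∈ S`. -/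
def InE (M : ℕ) [NeZero M] (S : Set ℕ) (c : ℕ → 𝒪) (x : R.X M) : Prop :=
  ∀ (ℓ : ℕ) (hℓ : ℓ.Prime), ℓ ∈ S → IsGk (Uop R M ℓ hℓ) (c ℓ) x

theorem InE.congr {M : ℕ} [NeZero M] {S S' : Set ℕ} {c c' : ℕ → 𝒪} {x : R.X M}
    (h : InE R M S c x) (hS : ∀ ℓ, ℓ.Prime → ℓ ∈ S' → ℓ ∈ S) (hc : ∀ ℓ ∈ S', c ℓ = c' ℓ) :
    InE R M S' c' x := by
  intro ℓ hℓ hℓS
  rw [← hc ℓ hℓS]
  exact h ℓ hℓ (hS ℓ hℓ hℓS)

end InE

end Fermat.Agent.NEB.OLD
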