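import Mathlib
import Fermat.Agent.NEB.OLD.H14_Step
import Fermat.Agent.GTor.H2_GalHecke

/-!
# NEB, package OLDNEW (helper14): the iteration over the Taylor–Wiles primes

`iter` : for distinct primes `q₁, …, q_r` not dividing `N` and `Q = N q₁ ⋯ q_r` there is an
additive map `Φ : J₀(Q) → J₀(N)` (the composite of the `a_*`), commuting with the Galois action
and with the operators `U0 · ℓ` at the primes `ℓ ∉ {q_j}`, such that on every realization `R`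
`R.map Φ` is a bijection

`{v ∈ R.X Q | v ∈ gk (U_ℓ - c' ℓ) (ℓ ∈ S), v ∈ gk (U_{q_j} - c' q_j)}
   → {x ∈ R.X N | x ∈ gk (U_ℓ - c ℓ) (ℓ ∈ S), x ∈ gk (T_{q_j} - c q_j)}`

(`c' = c` on `S`, `c q_j ≡ c' q_j + a' q_j`, `q_j ≡ c' q_j · a' q_j`).
-/

set_option autoImplicit false
set_option linter.unusedSectionVars false
set_option linter.style.haveILetI false

noncomputable section

namespace Fermat.Agent.NEB.OLD

open AlgebraicCurve ModularCurve Fermat.Agent.S24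
open Fermat.Agent.NEB.H14 Fermat.Agent.NEB.JH Fermat.Agent.RED

local notation "Kb" => AlgebraicClosure ℚ

section Galois

/-- `a_*` commutes with the Galois action. -/
theorem ad_galois (N q : ℕ) [NeZero N] [NeZero q] (σ : Kb ≃ₐ[ℚ] Kb) (y : JZero (N * q)) :
    pushP (heckeAlphaBar Kb N q) (σ • y) = σ • pushP (heckeAlphaBar Kb N q) y := by
  rw [galois_smul_pic0_def, galois_smul_pic0_def]
  exact pushP_semilinear (isFF0 N) (isFF0 (N * q)) _ _ _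
    (Fermat.Agent.GTor.H2.intertwines_heckeAlphaBar N q σ) y

end Galois

section Iter

variable {𝒪 : Type} [CommRing 𝒪] (R : Realization 𝒪)

theorem inE_union_singleton {M : ℕ} [NeZero M] {S : Set ℕ} {c : ℕ → 𝒪} {q : ℕ} (hq : q.Prime)
    {x : R.X M} (h1 : InE R M S c x) (h2 : IsGk (Uop R M q hq) (c q) x) :
    InE R M (S ∪ {q}) c x := by
  intro ℓ hℓ hℓS
  rcases hℓS with h | h
  · exact h1 ℓ hℓ h
  · rw [Set.mem_singleton_iff] at h
    subst h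
    exact h2

theorem not_sq_dvd_mul {ℓ q N : ℕ} (hℓ : ℓ.Prime) (hq : q.Prime) (hne : ℓ ≠ q)
    (h : ¬ ℓ ^ 2 ∣ N) : ¬ ℓ ^ 2 ∣ N * q := by
  intro h2
  have hco : Nat.Coprime (ℓ ^ 2) q :=
    Nat.Coprime.pow_left 2 ((Nat.coprime_primes hℓ hq).mpr hne)
  exact h (hco.dvd_of_dvd_mul_right h2)

theorem not_sq_dvd_self_mul {q N : ℕ} (hq : q.Prime) (h : ¬ q ∣ N) : ¬ q ^ 2 ∣ N * q := by
  intro h2
  rw [pow_two] at h2
  exact h (Nat.dvd_of_mul_dvd_mul_right hq.pos h2)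

theorem not_sq_dvd_of_not_dvd {ℓ N : ℕ} (h : ¬ ℓ ∣ N) : ¬ ℓ ^ 2 ∣ N := fun h2 =>
  h (dvd_trans (dvd_pow_self ℓ (by norm_num)) h2)

/-- **OLDNEW, iterated.** -/
theorem iter (hStep : Stmt_OldNewStep) (hSQW : Stmt_SquareW) (hDEG : Stmt_DegBeta)
    (hAs : Stmt_CompatAs) (hBs : Stmt_CompatBs) (hAd : Stmt_CompatAd) (hBd : Stmt_CompatBd)
    (c' a' : ℕ → 𝒪) :
    ∀ (qs : List ℕ) (N : ℕ) [NeZero N] (S : Set ℕ) (c : ℕ → 𝒪),
    qs.Nodup → (∀ q ∈ qs, q.Prime ∧ ¬ q ∣ N) →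
    (∀ ℓ ∈ S, ℓ.Prime ∧ ℓ ∉ qs ∧ ¬ ℓ ^ 2 ∣ N ∧ c' ℓ = c ℓ) →
    (∀ q ∈ qs, IsUnit (c' q - a' q) ∧ IsUnit (c' q * c' q - 1) ∧ IsUnit (a' q * a' q - 1) ∧
        IsUnit (q : 𝒪) ∧ IsUnit (c' q)) →
    (∀ q ∈ qs, ∀ (M : ℕ) [NeZero M] (x : R.X M),
        (∃ n : ℕ, ((q : 𝒪) - c' q * a' q) ^ n • x = 0) ∧
          ∃ n : ℕ, (c q - (c' q + a' q)) ^ n • x = 0) →
    ∀ (Q : ℕ) [NeZero Q], Q = N * qs.prod →
    ∃ Φ : JZero Q →+ JZero N,
      (∀ (ℓ : ℕ) [NeZero ℓ], ℓ.Prime → ℓ ∉ qs → ¬ ℓ ^ 2 ∣ N →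
        ∀ y, Φ (U0 Q ℓ y) = U0 N ℓ (Φ y)) ∧
      (∀ (σ : Kb ≃ₐ[ℚ] Kb) (y : JZero Q), Φ (σ • y) = σ • Φ y) ∧
      (∀ v, InE R Q (S ∪ {q | q ∈ qs}) c' v → InE R N (S ∪ {q | q ∈ qs}) c (R.map Φ v)) ∧
      (∀ x, InE R N (S ∪ {q | q ∈ qs}) c x →
        ∃ v, InE R Q (S ∪ {q | q ∈ qs}) c' v ∧ R.map Φ v = x) ∧
      (∀ v, InE R Q (S ∪ {q | q ∈ qs}) c' v → R.map Φ v = 0 → v = 0) := by
  intro qs
  induction qs with
  | nil =>
    intro N _ S c _ _ hS _ _ Q _ hQ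
    have hQ' : Q = N := by rw [hQ, List.prod_nil, mul_one]
    subst hQ'
    refine ⟨AddMonoidHom.id _, fun ℓ _ _ _ _ y => rfl, fun σ y => rfl, fun v hv => ?_,
      fun x hx => ⟨x, ?_, R.map_id _ _ (fun _ => rfl) x⟩, fun v _ h0 => ?_⟩
    · rw [R.map_id _ _ (fun _ => rfl) v]
      refine hv.congr R (fun ℓ _ h => h) (fun ℓ hℓ => ?_)
      rcases hℓ with h | h
      · exact (hS ℓ h).2.2.2
      · exact absurd h (by simp)
    · refine hx.congr R (fun ℓ _ h => h) (fun ℓ hℓ => ?_)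
      rcases hℓ with h | h
      · exact ((hS ℓ h).2.2.2).symm
      · exact absurd h (by simp)
    · rw [R.map_id _ _ (fun _ => rfl) v] at h0
      exact h0
  | cons q qs ih =>
    intro N _ S c hnd hqs hS hu ht Q _ hQ
    obtain ⟨hq, hqN⟩ := hqs q (List.mem_cons_self)
    haveI : NeZero q := ⟨hq.ne_zero⟩
    have hqqs : q ∉ qs := (List.nodup_cons.mp hnd).1
    have hnd' : qs.Nodup := (List.nodup_cons.mp hnd).2
    have hne : ∀ ℓ ∈ qs, ℓ ≠ q := fun ℓ hℓ h => hqqs (h ▸ hℓ)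
    -- the constants at the level `N q`
    let c₁ : ℕ → 𝒪 := Function.update c q (c' q)
    have hc₁q : c₁ q = c' q := Function.update_self _ _ _
    have hc₁ : ∀ ℓ, ℓ ≠ q → c₁ ℓ = c ℓ := fun ℓ h => Function.update_of_ne h _ _
    -- the induction hypothesis at the level `N q`
    obtain ⟨Φ', hΦU, hΦG, hΦ1, hΦ2, hΦ3⟩ := ih (N * q) (S ∪ {q}) c₁ hnd'
      (fun ℓ hℓ => by
        obtain ⟨hℓp, hℓN⟩ := hqs ℓ (List.mem_cons_of_mem _ hℓ)
        refine ⟨hℓp, fun h => ?_⟩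
        rcases (Nat.Prime.dvd_mul hℓp).mp h with h | h
        · exact hℓN h
        · exact hne ℓ hℓ ((Nat.prime_dvd_prime_iff_eq hℓp hq).mp h))
      (fun ℓ hℓ => by
        rcases hℓ with h | h
        · obtain ⟨hℓp, hℓqs, hℓN, hℓc⟩ := hS ℓ h
          have hℓq : ℓ ≠ q := fun e => hℓqs (e ▸ List.mem_cons_self)
          exact ⟨hℓp, fun h' => hℓqs (List.mem_cons_of_mem _ h'),
            not_sq_dvd_mul hℓp hq hℓq hℓN, by rw [hc₁ ℓ hℓq]; exact hℓc⟩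
        · rw [Set.mem_singleton_iff] at h
          subst h
          exact ⟨hq, hqqs, not_sq_dvd_self_mul hq hqN, hc₁q.symm⟩)
      (fun ℓ hℓ => hu ℓ (List.mem_cons_of_mem _ hℓ))
      (fun ℓ hℓ M _ x => by
        rw [hc₁ ℓ (hne ℓ hℓ)]
        exact ht ℓ (List.mem_cons_of_mem _ hℓ) M x)
      Q (by rw [hQ, List.prod_cons, mul_assoc])
    -- the step at `(N, q)`
    obtain ⟨u1, u2, u3, u4, u5⟩ := hu q (List.mem_cons_self)
    have hS₁ : ∀ ℓ ∈ S ∪ {q' | q' ∈ qs}, ℓ ≠ q ∧ ¬ ℓ ^ 2 ∣ N := by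
      intro ℓ hℓ
      rcases hℓ with h | h
      · obtain ⟨_, hℓqs, hℓN, _⟩ := hS ℓ h
        exact ⟨fun e => hℓqs (e ▸ List.mem_cons_self), hℓN⟩
      · exact ⟨hne ℓ h, not_sq_dvd_of_not_dvd (hqs ℓ (List.mem_cons_of_mem _ h)).2⟩
    obtain ⟨k1, k2, k3⟩ := oneStep R hStep hSQW hDEG hAs hBs hAd hBd N q hq hqN
      (S ∪ {q' | q' ∈ qs}) hS₁ c (c' q) (a' q) (c q) u1 u2 u3 u4 u5
      (fun x => (ht q (List.mem_cons_self) N x).1)
      (fun y => (ht q (List.mem_cons_self) (N * q) y).1)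
      (fun x => (ht q (List.mem_cons_self) N x).2)
    -- membership bookkeeping
    have top_iff : ∀ v : R.X Q, InE R Q (S ∪ {q' | q' ∈ q :: qs}) c' v ↔
        InE R Q (S ∪ {q} ∪ {q' | q' ∈ qs}) c' v := by
      intro v
      constructor
      · intro h
        refine h.congr R (fun ℓ _ hℓ => ?_) (fun _ _ => rfl)
        rcases hℓ with (h | h) | h
        · exact Or.inl h
        · exact Or.inr (by rw [Set.mem_singleton_iff] at h; subst h; exact List.mem_cons_self)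
        · exact Or.inr (List.mem_cons_of_mem _ h)
      · intro h
        refine h.congr R (fun ℓ _ hℓ => ?_) (fun _ _ => rfl)
        rcases hℓ with h | h
        · exact Or.inl (Or.inl h)
        · rcases List.mem_cons.mp h with h | h
          · exact Or.inl (Or.inr (by rw [h]; rfl))
          · exact Or.inr h
    have mid_split : ∀ z : R.X (N * q), InE R (N * q) (S ∪ {q} ∪ {q' | q' ∈ qs}) c₁ z →
        InE R (N * q) (S ∪ {q' | q' ∈ qs}) c z ∧ IsGk (Uop R (N * q) q hq) (c' q) z := by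
      intro z hz
      refine ⟨hz.congr R (fun ℓ _ hℓ => ?_) (fun ℓ hℓ => hc₁ ℓ (hS₁ ℓ hℓ).1), ?_⟩
      · rcases hℓ with h | h
        · exact Or.inl (Or.inl h)
        · exact Or.inr h
      · have := hz q hq (Or.inl (Or.inr rfl))
        rw [hc₁q] at this
        exact this
    have mid_join : ∀ z : R.X (N * q), InE R (N * q) (S ∪ {q' | q' ∈ qs}) c z →
        IsGk (Uop R (N * q) q hq) (c' q) z →
        InE R (N * q) (S ∪ {q} ∪ {q' | q' ∈ qs}) c₁ z := by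
      intro z hz hzq ℓ hℓ hℓS
      rcases hℓS with (h | h) | h
      · rw [hc₁ ℓ (hS₁ ℓ (Or.inl h)).1]
        exact hz ℓ hℓ (Or.inl h)
      · rw [Set.mem_singleton_iff] at h
        subst h
        rw [hc₁q]
        exact hzq
      · rw [hc₁ ℓ (hS₁ ℓ (Or.inr h)).1]
        exact hz ℓ hℓ (Or.inr h)
    have bot_split : ∀ x : R.X N, InE R N (S ∪ {q' | q' ∈ q :: qs}) c x →
        InE R N (S ∪ {q' | q' ∈ qs}) c x ∧ IsGk (Uop R N q hq) (c q) x := by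
      intro x hx
      refine ⟨hx.congr R (fun ℓ _ hℓ => ?_) (fun _ _ => rfl), hx q hq (Or.inr List.mem_cons_self)⟩
      rcases hℓ with h | h
      · exact Or.inl h
      · exact Or.inr (List.mem_cons_of_mem _ h)
    have bot_join : ∀ x : R.X N, InE R N (S ∪ {q' | q' ∈ qs}) c x →
        IsGk (Uop R N q hq) (c q) x → InE R N (S ∪ {q' | q' ∈ q :: qs}) c x := by
      intro x hx hxq ℓ hℓ hℓS
      rcases hℓS with h | h
      · exact hx ℓ hℓ (Or.inl h)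
      · rcases List.mem_cons.mp h with h | h
        · subst h
          exact hxq
        · exact hx ℓ hℓ (Or.inr h)
    have hcomp : ∀ v : R.X Q, R.map ((pushP (heckeAlphaBar Kb N q)).comp Φ') v
        = R.map (pushP (heckeAlphaBar Kb N q)) (R.map Φ' v) :=
      fun v => R.map_comp _ _ _ (fun _ => rfl) v
    refine ⟨(pushP (heckeAlphaBar Kb N q)).comp Φ', ?_, ?_, ?_, ?_, ?_⟩
    · intro ℓ _ hℓ hℓqs hℓN y
      have hℓq : ℓ ≠ q := fun e => hℓqs (e ▸ List.mem_cons_self)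
      rw [AddMonoidHom.comp_apply, AddMonoidHom.comp_apply,
        hΦU ℓ hℓ (fun h => hℓqs (List.mem_cons_of_mem _ h)) (not_sq_dvd_mul hℓ hq hℓq hℓN) y]
      exact hAd N q ℓ hq hℓ (Ne.symm hℓq) hqN hℓN _
    · intro σ y
      rw [AddMonoidHom.comp_apply, AddMonoidHom.comp_apply, hΦG σ y]
      exact ad_galois N q σ _
    · intro v hv
      rw [hcomp]
      obtain ⟨h1, h2⟩ := mid_split _ (hΦ1 v ((top_iff v).mp hv))
      obtain ⟨h3, h4⟩ := k1 _ h1 h2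
      exact bot_join _ h3 h4
    · intro x hx
      obtain ⟨h1, h2⟩ := bot_split x hx
      obtain ⟨z, hz1, hz2, hz3⟩ := k2 x h1 h2
      obtain ⟨v, hv1, hv2⟩ := hΦ2 z (mid_join z hz1 hz2)
      exact ⟨v, (top_iff v).mpr hv1, by rw [hcomp, hv2, hz3]⟩
    · intro v hv h0
      rw [hcomp] at h0
      obtain ⟨h1, h2⟩ := mid_split _ (hΦ1 v ((top_iff v).mp hv))
      exact hΦ3 v ((top_iff v).mp hv) (k3 _ h1 h2 h0)

end Iter

end Fermat.Agent.NEB.OLD
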