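import Mathlib
import Fermat.Agent.NEB.OLD.H14_Iter

/-!
# NEB, package OLDNEW (helper14): the realization `M ↦ 𝒪 ⊗_ℤ J₀(M)[p^∞]`

* `ptSub p A`  : the `p`-power torsion subgroup of an abelian group `A`;
* `ptMap p f`  : the restriction of an additive map to the `p`-power torsion;
* `ptLin p f`  : the same as a `ℤ`-linear map;
* `realT 𝒪 p`  : the realization `M ↦ 𝒪 ⊗_ℤ ↥(ptSub p (JZero M))`, `f ↦ (ptLin p f).baseChange 𝒪`;
* `realT_tors` : every element of `realT 𝒪 p` is killed by a power of `e`, if `p ∣ e ^ m`.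
-/

set_option autoImplicit false
set_option linter.unusedSectionVars false
set_option linter.style.haveILetI false

noncomputable section

namespace Fermat.Agent.NEB.OLD

open AlgebraicCurve ModularCurve TensorProduct

section PT

variable (p : ℕ) {A B C : Type*} [AddCommGroup A] [AddCommGroup B] [AddCommGroup C]

/-- The `p`-power torsion subgroup. -/
def ptSub (A : Type*) [AddCommGroup A] : AddSubgroup A where
  carrier := {x | ∃ k : ℕ, p ^ k • x = 0}
  zero_mem' := ⟨0, smul_zero _⟩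
  add_mem' := by
    rintro x y ⟨k, hk⟩ ⟨l, hl⟩
    refine ⟨k + l, ?_⟩
    have h1 : p ^ (k + l) • x = 0 := by rw [pow_add, mul_comm, mul_smul, hk, smul_zero]
    have h2 : p ^ (k + l) • y = 0 := by rw [pow_add, mul_smul, hl, smul_zero]
    rw [smul_add, h1, h2, add_zero]
  neg_mem' := by
    rintro x ⟨k, hk⟩
    exact ⟨k, by rw [smul_neg, hk, neg_zero]⟩

theorem mem_ptSub {x : A} : x ∈ ptSub p A ↔ ∃ k : ℕ, p ^ k • x = 0 := Iff.rfl

/-- The restriction of an additive map to the `p`-power torsion. -/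
def ptMap (f : A →+ B) : ↥(ptSub p A) →+ ↥(ptSub p B) :=
  (f.comp (ptSub p A).subtype).codRestrict (ptSub p B) (by
    rintro ⟨x, k, hk⟩
    exact ⟨k, by
      show p ^ k • f x = 0
      rw [← map_nsmul, hk, map_zero]⟩)

@[simp]
theorem coe_ptMap (f : A →+ B) (x : ↥(ptSub p A)) : ((ptMap p f x : ↥(ptSub p B)) : B) = f x :=
  rfl

/-- The restriction to the `p`-power torsion, as a `ℤ`-linear map. -/
def ptLin (f : A →+ B) : ↥(ptSub p A) →ₗ[ℤ] ↥(ptSub p B) := (ptMap p f).toIntLinearMap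

@[simp]
theorem ptLin_apply (f : A →+ B) (x : ↥(ptSub p A)) : ptLin p f x = ptMap p f x := rfl

theorem ptLin_id (f : A →+ A) (hf : ∀ x, f x = x) : ptLin p f = LinearMap.id :=
  LinearMap.ext fun x => Subtype.ext (hf x)

theorem ptLin_comp (f : B →+ C) (g : A →+ B) (h : A →+ C) (hh : ∀ x, h x = f (g x)) :
    ptLin p h = (ptLin p f).comp (ptLin p g) :=
  LinearMap.ext fun x => Subtype.ext (hh x)

theorem ptLin_add (f g h : A →+ B) (hh : ∀ x, h x = f x + g x) :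
    ptLin p h = ptLin p f + ptLin p g :=
  LinearMap.ext fun x => Subtype.ext (hh x)

end PT

section RealT

variable (𝒪 : Type) [CommRing 𝒪] (p : ℕ)

section BC

variable {A B C : Type} [AddCommGroup A] [AddCommGroup B] [AddCommGroup C]

theorem bc_id (f : A →+ A) (hf : ∀ x, f x = x) (v : 𝒪 ⊗[ℤ] ↥(ptSub p A)) :
    (ptLin p f).baseChange 𝒪 v = v := by
  rw [ptLin_id p f hf, LinearMap.baseChange_id]
  rfl

theorem bc_comp (f : B →+ C) (g : A →+ B) (h : A →+ C) (hh : ∀ x, h x = f (g x))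
    (v : 𝒪 ⊗[ℤ] ↥(ptSub p A)) :
    (ptLin p h).baseChange 𝒪 v = (ptLin p f).baseChange 𝒪 ((ptLin p g).baseChange 𝒪 v) := by
  rw [ptLin_comp p f g h hh, LinearMap.baseChange_comp]
  rfl

theorem bc_add (f g h : A →+ B) (hh : ∀ x, h x = f x + g x) (v : 𝒪 ⊗[ℤ] ↥(ptSub p A)) :
    (ptLin p h).baseChange 𝒪 v = (ptLin p f).baseChange 𝒪 v + (ptLin p g).baseChange 𝒪 v := by
  rw [ptLin_add p f g h hh, LinearMap.baseChange_add]
  rfl

end BC

/-- **The realization `M ↦ 𝒪 ⊗_ℤ J₀(M)[p^∞]`.** -/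
def realT : Realization 𝒪 where
  X M _ := 𝒪 ⊗[ℤ] ↥(ptSub p (JZero M))
  instACG M _ := inferInstanceAs (AddCommGroup (𝒪 ⊗[ℤ] ↥(ptSub p (JZero M))))
  instMod M _ := inferInstanceAs (Module 𝒪 (𝒪 ⊗[ℤ] ↥(ptSub p (JZero M))))
  map f := (ptLin p f).baseChange 𝒪
  map_id _ _ f hf v := bc_id 𝒪 p f hf v
  map_comp f g h hh v := bc_comp 𝒪 p f g h hh v
  map_add f g h hh v := bc_add 𝒪 p f g h hh v

theorem realT_X (M : ℕ) [NeZero M] : (realT 𝒪 p).X M = (𝒪 ⊗[ℤ] ↥(ptSub p (JZero M))) := rfl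

theorem realT_map {M M' : ℕ} [NeZero M] [NeZero M'] (f : JZero M →+ JZero M') :
    (realT 𝒪 p).map f = (ptLin p f).baseChange 𝒪 := rfl

/-- Every element of `𝒪 ⊗ A[p^∞]` is killed by a power of `e`, if `p ∣ e ^ m`. -/
theorem tensor_ptSub_tors {A : Type*} [AddCommGroup A] (e : 𝒪) (m : ℕ) (b : 𝒪)
    (he : e ^ m = (p : 𝒪) * b) (x : 𝒪 ⊗[ℤ] ↥(ptSub p A)) : ∃ n : ℕ, e ^ n • x = 0 := by
  induction x using TensorProduct.induction_on with
  | zero => exact ⟨0, smul_zero _⟩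
  | tmul a y =>
    obtain ⟨k, hk⟩ := y.2
    refine ⟨m * k, ?_⟩
    rw [TensorProduct.smul_tmul', smul_eq_mul, pow_mul, he, mul_pow, mul_assoc]
    have h1 : ((p : 𝒪) ^ k * (b ^ k * a)) ⊗ₜ[ℤ] y = (b ^ k * a) ⊗ₜ[ℤ] ((p ^ k : ℕ) • y) := by
      rw [TensorProduct.tmul_smul, TensorProduct.smul_tmul', nsmul_eq_mul]
      push_cast
      rfl
    rw [h1]
    have h2 : (p ^ k : ℕ) • y = 0 := Subtype.ext (by
      rw [AddSubgroup.coe_nsmul]
      exact hk)
    rw [h2, TensorProduct.tmul_zero]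
  | add x y hx hy =>
    obtain ⟨n, hn⟩ := hx
    obtain ⟨n', hn'⟩ := hy
    refine ⟨n + n', ?_⟩
    have h1 : e ^ (n + n') • x = 0 := by rw [pow_add, mul_comm, mul_smul, hn, smul_zero]
    have h2 : e ^ (n + n') • y = 0 := by rw [pow_add, mul_smul, hn', smul_zero]
    rw [smul_add, h1, h2, add_zero]

theorem realT_tors (e : 𝒪) (m : ℕ) (b : 𝒪) (he : e ^ m = (p : 𝒪) * b) (M : ℕ) [NeZero M]
    (x : (realT 𝒪 p).X M) : ∃ n : ℕ, e ^ n • x = 0 :=
  tensor_ptSub_tors 𝒪 p e m b he x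

end RealT

end Fermat.Agent.NEB.OLD
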