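/-
NEB, package OLDNEW (owner helper14), leaf OLD-STEP (helper38): OLD-ABS with a family of commuting
operators.  Mathlib only (on top of `H38_OldAbsCore.lean`).

Proof (helper14's sketch).
(i)  `Ψ = (ad, bd) : B → A²` satisfies `Ψ U = 𝕄 Ψ`, `𝕄 (x, y) = (q y, T y - x)`; `𝕄` is injective and
     `𝕄 (a T - (a² + q)) = (a 𝕄 - q) (𝕄 - a)`, so `a T - (a² + q)` is nilpotent on `ad v`, `bd v` for
     `v` in the generalised `a`-eigenspace of `U`, hence so is `T - s`.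
(ii) `oldNewAbs` for the submodules `Aθ` and `B₀ = {v | ad v ∈ Aθ ∧ bd v ∈ Aθ}`.
(iii) `Bθ = gk(U - a) ∩ B₀`.
-/
import Mathlib
import Fermat.Agent.NEB.OLD.H38_OldAbsCore

set_option autoImplicit false

namespace Fermat.Agent.NEB.OLD.H38

/-! ### Intertwining and powers -/

section StepAux

variable {𝒪 : Type*} [CommRing 𝒪] {A B : Type*} [AddCommGroup A] [Module 𝒪 A]
  [AddCommGroup B] [Module 𝒪 B]

/-- Intertwining passes to powers. -/
lemma intertwine_pow (Ψ : B →ₗ[𝒪] A) (f : Module.End 𝒪 B) (g : Module.End 𝒪 A)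
    (h : ∀ v, Ψ (f v) = g (Ψ v)) (n : ℕ) (v : B) : Ψ ((f ^ n) v) = (g ^ n) (Ψ v) := by
  induction n generalizing v with
  | zero => simp
  | succ n ih => rw [pow_succ, Module.End.mul_apply, ih, h, pow_succ, Module.End.mul_apply]

/-- Intertwining passes to powers of `f - μ`. -/
lemma intertwine_sub_smul_pow (Ψ : B →ₗ[𝒪] A) (f : Module.End 𝒪 B) (g : Module.End 𝒪 A)
    (h : ∀ v, Ψ (f v) = g (Ψ v)) (μ : 𝒪) (n : ℕ) (v : B) :
    Ψ (((f - μ • (1 : Module.End 𝒪 B)) ^ n) v) = ((g - μ • (1 : Module.End 𝒪 A)) ^ n) (Ψ v) := by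
  refine intertwine_pow Ψ _ _ (fun w => ?_) n v
  rw [LinearMap.sub_apply, LinearMap.smul_apply, Module.End.one_apply, map_sub, map_smul, h,
    LinearMap.sub_apply, LinearMap.smul_apply, Module.End.one_apply]

/-- Powers of a scalar operator. -/
lemma smul_one_pow_apply (μ : 𝒪) (n : ℕ) (x : A) :
    (((μ • (1 : Module.End 𝒪 A)) ^ n) x) = μ ^ n • x := by
  rw [_root_.smul_pow, one_pow, LinearMap.smul_apply, Module.End.one_apply]

/-- A scalar operator commutes with everything. -/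
lemma commute_smul_one (f : Module.End 𝒪 A) (μ : 𝒪) :
    Commute f (μ • (1 : Module.End 𝒪 A)) := by
  show f * (μ • (1 : Module.End 𝒪 A)) = (μ • (1 : Module.End 𝒪 A)) * f
  rw [mul_smul_comm, smul_mul_assoc, mul_one, one_mul]

/-- Local nilpotency is monotone in the exponent. -/
lemma pow_apply_eq_zero_of_le (f : Module.End 𝒪 A) {x : A} {n m : ℕ} (hnm : n ≤ m)
    (h : (f ^ n) x = 0) : (f ^ m) x = 0 := by
  obtain ⟨k, rfl⟩ := Nat.exists_eq_add_of_le hnm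
  rw [add_comm, pow_add, Module.End.mul_apply, h, map_zero]

end StepAux

/-! ### The operator `𝕄` on `A × A` -/

section BigM

variable {𝒪 : Type*} [CommRing 𝒪] {A B : Type*} [AddCommGroup A] [Module 𝒪 A]
  [AddCommGroup B] [Module 𝒪 B]

/-- The operator `𝕄 (x, y) = (q y, T y - x)` on `A × A`. -/
noncomputable def bigM (T : Module.End 𝒪 A) (qq : 𝒪) : Module.End 𝒪 (A × A) :=
  LinearMap.prod (qq • LinearMap.snd 𝒪 A A) (T ∘ₗ LinearMap.snd 𝒪 A A - LinearMap.fst 𝒪 A A)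

lemma bigM_apply (T : Module.End 𝒪 A) (qq : 𝒪) (x : A × A) :
    bigM T qq x = (qq • x.2, T x.2 - x.1) := rfl

/-- The diagonal operator `(x, y) ↦ (f x, f y)`. -/
noncomputable def diagEnd (f : Module.End 𝒪 A) : Module.End 𝒪 (A × A) := LinearMap.prodMap f f

lemma diagEnd_apply (f : Module.End 𝒪 A) (x : A × A) : diagEnd f x = (f x.1, f x.2) := rfl

lemma diagEnd_pow_apply (f : Module.End 𝒪 A) (n : ℕ) (x : A × A) :
    ((diagEnd f) ^ n) x = ((f ^ n) x.1, (f ^ n) x.2) := by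
  refine Prod.ext ?_ ?_
  · exact intertwine_pow (LinearMap.fst 𝒪 A A) (diagEnd f) f (fun _ => rfl) n x
  · exact intertwine_pow (LinearMap.snd 𝒪 A A) (diagEnd f) f (fun _ => rfl) n x

lemma bigM_injective (T : Module.End 𝒪 A) {qq : 𝒪} (uq : IsUnit qq) :
    Function.Injective (bigM T qq) := by
  rw [injective_iff_map_eq_zero]
  intro x hx
  rw [bigM_apply, Prod.mk_eq_zero] at hx
  obtain ⟨h1, h2⟩ := hx
  have hx2 : x.2 = 0 := by
    obtain ⟨u, rfl⟩ := uq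
    have := congrArg (fun t => (↑u⁻¹ : 𝒪) • t) h1
    simpa [smul_smul] using this
  have hx1 : x.1 = 0 := by
    rw [hx2, map_zero, zero_sub, neg_eq_zero] at h2
    exact h2
  exact Prod.ext hx1 hx2

lemma bigM_pow_injective (T : Module.End 𝒪 A) {qq : 𝒪} (uq : IsUnit qq) (n : ℕ) :
    Function.Injective ((bigM T qq) ^ n) := by
  rw [Module.End.coe_pow]
  exact (bigM_injective T uq).iterate n

/-- `𝕄 ∘ (a T - (a² + q)) = (a 𝕄 - q) ∘ (𝕄 - a)`. -/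
lemma bigM_mul_diag (T : Module.End 𝒪 A) (qq a : 𝒪) :
    bigM T qq * diagEnd (a • T - (a * a + qq) • (1 : Module.End 𝒪 A)) =
      (a • bigM T qq - qq • (1 : Module.End 𝒪 (A × A))) *
        (bigM T qq - a • (1 : Module.End 𝒪 (A × A))) := by
  refine LinearMap.ext fun x => ?_
  obtain ⟨x₁, x₂⟩ := x
  simp only [Module.End.mul_apply, LinearMap.sub_apply, LinearMap.smul_apply,
    Module.End.one_apply, bigM_apply, diagEnd_apply, map_sub, map_smul, Prod.smul_mk,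
    Prod.mk_sub_mk, Prod.mk.injEq]
  constructor <;> module

lemma commute_bigM_diag (T : Module.End 𝒪 A) (qq a : 𝒪) :
    Commute (bigM T qq) (diagEnd (a • T - (a * a + qq) • (1 : Module.End 𝒪 A))) := by
  refine LinearMap.ext fun x => ?_
  obtain ⟨x₁, x₂⟩ := x
  simp only [Module.End.mul_apply, LinearMap.sub_apply, LinearMap.smul_apply,
    Module.End.one_apply, bigM_apply, diagEnd_apply, map_sub, map_smul]

/-- **Step (i)**: `a T - (a² + q)` is nilpotent on `ad v` and `bd v` when `(U - a)^n v = 0`. -/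
lemma locNil_ad_bd (ad bd : B →ₗ[𝒪] A) (T : Module.End 𝒪 A) (U : Module.End 𝒪 B) (qq a : 𝒪)
    (hadU : ∀ y, ad (U y) = qq • bd y) (hbdU : ∀ y, bd (U y) = T (bd y) - ad y)
    (uq : IsUnit qq) {v : B} {n : ℕ} (hv : ((U - a • (1 : Module.End 𝒪 B)) ^ n) v = 0) :
    ((a • T - (a * a + qq) • (1 : Module.End 𝒪 A)) ^ n) (ad v) = 0 ∧
      ((a • T - (a * a + qq) • (1 : Module.End 𝒪 A)) ^ n) (bd v) = 0 := by
  set Ψ : B →ₗ[𝒪] A × A := LinearMap.prod ad bd with hΨ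
  have hΨU : ∀ y, Ψ (U y) = bigM T qq (Ψ y) := fun y => by
    rw [bigM_apply]
    exact Prod.ext (hadU y) (hbdU y)
  have h0 : ((bigM T qq - a • (1 : Module.End 𝒪 (A × A))) ^ n) (Ψ v) = 0 := by
    rw [← intertwine_sub_smul_pow Ψ U (bigM T qq) hΨU a n v, hv, map_zero]
  set M := bigM T qq with hM
  set N := diagEnd (a • T - (a * a + qq) • (1 : Module.End 𝒪 A)) with hN
  have hc1 : Commute M N := commute_bigM_diag T qq a
  have hMS : Commute M (M - a • (1 : Module.End 𝒪 (A × A))) :=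
    (Commute.refl M).sub_right (commute_smul_one M a)
  have h1S : Commute (qq • (1 : Module.End 𝒪 (A × A))) (M - a • (1 : Module.End 𝒪 (A × A))) :=
    (commute_smul_one _ qq).symm
  have hc2 : Commute (a • M - qq • (1 : Module.End 𝒪 (A × A)))
      (M - a • (1 : Module.End 𝒪 (A × A))) :=
    (hMS.smul_left a).sub_left h1S
  have hkey : M ^ n * N ^ n = (a • M - qq • (1 : Module.End 𝒪 (A × A))) ^ n *
      (M - a • (1 : Module.End 𝒪 (A × A))) ^ n := by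
    rw [← hc1.mul_pow, ← hc2.mul_pow, hM, hN, bigM_mul_diag]
  have h2 : (M ^ n) ((N ^ n) (Ψ v)) = 0 := by
    rw [← Module.End.mul_apply, hkey, Module.End.mul_apply, h0, map_zero]
  have h3 : (N ^ n) (Ψ v) = 0 := by
    apply bigM_pow_injective T uq n
    rw [map_zero]
    exact h2
  rw [hN, diagEnd_pow_apply, Prod.mk_eq_zero] at h3
  exact h3

end BigM

/-! ### From `a T - (a² + q)` to `T - s` -/

section Shift

variable {𝒪 : Type*} [CommRing 𝒪] {A : Type*} [AddCommGroup A] [Module 𝒪 A]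

/-- If `a T - (a² + q)` is nilpotent at `x`, and the scalars `q - a a'`, `s - (a + a')` are
nilpotent at `x`, then `T - s` is nilpotent at `x` (`a` a unit). -/
lemma locNil_T_sub_s (T : Module.End 𝒪 A) (qq a a' s : 𝒪) (ua0 : IsUnit a) {x : A} {n : ℕ}
    (hx : ((a • T - (a * a + qq) • (1 : Module.End 𝒪 A)) ^ n) x = 0)
    (nA : ∃ n : ℕ, (qq - a * a') ^ n • x = 0) (ns : ∃ n : ℕ, (s - (a + a')) ^ n • x = 0) :
    ∃ m : ℕ, ((T - s • (1 : Module.End 𝒪 A)) ^ m) x = 0 := by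
  obtain ⟨u, rfl⟩ := ua0
  obtain ⟨n₁, hn₁⟩ := nA
  obtain ⟨n₂, hn₂⟩ := ns
  have hai : (↑u⁻¹ : 𝒪) * ↑u = 1 := Units.inv_mul u
  have e1 : (↑u⁻¹ : 𝒪) • ((↑u : 𝒪) • T - ((↑u : 𝒪) * ↑u + qq) • (1 : Module.End 𝒪 A)) =
      T - ((↑u⁻¹ : 𝒪) * ((↑u : 𝒪) * ↑u + qq)) • (1 : Module.End 𝒪 A) := by
    rw [smul_sub, smul_smul, hai, one_smul, smul_smul]
  have hsc : s = (↑u⁻¹ : 𝒪) * ((↑u : 𝒪) * ↑u + qq) - (↑u⁻¹ : 𝒪) * (qq - ↑u * a')
      - (-(s - (↑u + a'))) := by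
    linear_combination (-((↑u : 𝒪) + a')) * hai
  have hdecomp : T - s • (1 : Module.End 𝒪 A) =
      ((↑u⁻¹ : 𝒪) • ((↑u : 𝒪) • T - ((↑u : 𝒪) * ↑u + qq) • (1 : Module.End 𝒪 A)) +
        ((↑u⁻¹ : 𝒪) * (qq - ↑u * a')) • (1 : Module.End 𝒪 A)) +
        (-(s - (↑u + a'))) • (1 : Module.End 𝒪 A) := by
    rw [e1]
    conv_lhs => rw [hsc]
    rw [sub_smul, sub_smul]
    abel
  have h1 : (((↑u⁻¹ : 𝒪) • ((↑u : 𝒪) • T - ((↑u : 𝒪) * ↑u + qq) • (1 : Module.End 𝒪 A))) ^ n) x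
      = 0 := by
    rw [_root_.smul_pow, LinearMap.smul_apply, hx, smul_zero]
  have h2 : ((((↑u⁻¹ : 𝒪) * (qq - ↑u * a')) • (1 : Module.End 𝒪 A)) ^ n₁) x = 0 := by
    rw [smul_one_pow_apply, mul_pow, mul_smul, hn₁, smul_zero]
  have h3 : (((-(s - (↑u + a'))) • (1 : Module.End 𝒪 A)) ^ n₂) x = 0 := by
    rw [smul_one_pow_apply, neg_pow, mul_smul, hn₂, smul_zero]
  refine ⟨n + n₁ + n₂, ?_⟩
  rw [hdecomp]
  exact add_pow_apply_eq_zero (commute_smul_one _ _)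
    (add_pow_apply_eq_zero (commute_smul_one _ _) h1 h2) h3

end Shift

/-! ### The theorem -/

section StepMain

variable {𝒪 : Type*} [CommRing 𝒪] {A B : Type*} [AddCommGroup A] [Module 𝒪 A]
  [AddCommGroup B] [Module 𝒪 B]

/-- The submodule `Aθ = ⋂ gk(t i - c i) ∩ gk(T - s)`. -/
def thetaSub {ι : Type*} (t : ι → Module.End 𝒪 A) (c : ι → 𝒪) (T : Module.End 𝒪 A) (s : 𝒪) :
    Submodule 𝒪 A :=
  (⨅ i, (t i).maxGenEigenspace (c i)) ⊓ T.maxGenEigenspace s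

lemma mem_thetaSub {ι : Type*} (t : ι → Module.End 𝒪 A) (c : ι → 𝒪) (T : Module.End 𝒪 A)
    (s : 𝒪) (x : A) :
    x ∈ thetaSub t c T s ↔
      (∀ i, ∃ n : ℕ, ((t i - c i • (1 : Module.End 𝒪 A)) ^ n) x = 0) ∧
        ∃ n : ℕ, ((T - s • (1 : Module.End 𝒪 A)) ^ n) x = 0 := by
  simp only [thetaSub, Submodule.mem_inf, Submodule.mem_iInf, Module.End.mem_maxGenEigenspace]

/-- **OLD-STEP** (helper14's leaf), universe polymorphic form. -/
theorem oldNewStep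
    (as bs : A →ₗ[𝒪] B) (ad bd : B →ₗ[𝒪] A) (T : Module.End 𝒪 A) (U W : Module.End 𝒪 B)
    (q : ℕ) (a a' s : 𝒪)
    {ι : Type*} (t : ι → Module.End 𝒪 A) (t' : ι → Module.End 𝒪 B) (c : ι → 𝒪)
    (h1 : ∀ x, ad (as x) = (q + 1) • x) (h2 : ∀ x, bd (bs x) = (q + 1) • x)
    (h3 : ∀ x, ad (bs x) = T x) (h4 : ∀ x, bd (as x) = T x)
    (h5 : ∀ y, U y = as (bd y) - W y)
    (h6 : ∀ x, W (as x) = bs x) (h7 : ∀ x, W (bs x) = as x) (h8 : ∀ y, W (W y) = y)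
    (h9 : ∀ y, ad (W y) = bd y) (h10 : ∀ y, bd (W y) = ad y)
    (cas : ∀ i x, as (t i x) = t' i (as x)) (cbs : ∀ i x, bs (t i x) = t' i (bs x))
    (cad : ∀ i y, ad (t' i y) = t i (ad y)) (cbd : ∀ i y, bd (t' i y) = t i (bd y))
    (ud : IsUnit (a - a')) (ua : IsUnit (a * a - 1)) (ua' : IsUnit (a' * a' - 1))
    (uq : IsUnit (q : 𝒪)) (ua0 : IsUnit a)
    (nA : ∀ x : A, ∃ n : ℕ, ((q : 𝒪) - a * a') ^ n • x = 0)
    (ns : ∀ x : A, ∃ n : ℕ, (s - (a + a')) ^ n • x = 0) :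
    (∀ v : B, (∀ i, ∃ n : ℕ, ((t' i - c i • (1 : Module.End 𝒪 B)) ^ n) v = 0) →
        (∃ n : ℕ, ((U - a • (1 : Module.End 𝒪 B)) ^ n) v = 0) →
        (∀ i, ∃ n : ℕ, ((t i - c i • (1 : Module.End 𝒪 A)) ^ n) (ad v) = 0) ∧
          ∃ n : ℕ, ((T - s • (1 : Module.End 𝒪 A)) ^ n) (ad v) = 0) ∧
    (∀ x : A, (∀ i, ∃ n : ℕ, ((t i - c i • (1 : Module.End 𝒪 A)) ^ n) x = 0) →
        (∃ n : ℕ, ((T - s • (1 : Module.End 𝒪 A)) ^ n) x = 0) →
        ∃ v : B, (∀ i, ∃ n : ℕ, ((t' i - c i • (1 : Module.End 𝒪 B)) ^ n) v = 0) ∧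
          (∃ n : ℕ, ((U - a • (1 : Module.End 𝒪 B)) ^ n) v = 0) ∧ ad v = x) ∧
    (∀ v : B, (∀ i, ∃ n : ℕ, ((t' i - c i • (1 : Module.End 𝒪 B)) ^ n) v = 0) →
        (∃ n : ℕ, ((U - a • (1 : Module.End 𝒪 B)) ^ n) v = 0) → ad v = 0 → v = 0) := by
  have hsmul : ∀ x : A, (q + 1) • x = ((q : 𝒪) + 1) • x := by
    intro x
    rw [← Nat.cast_smul_eq_nsmul 𝒪 (q + 1) x]
    push_cast
    rfl
  have hadU : ∀ y, ad (U y) = (q : 𝒪) • bd y := by
    intro y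
    rw [h5, map_sub, h1, h9, hsmul, add_smul, one_smul, add_sub_cancel_right]
  have hbdU : ∀ y, bd (U y) = T (bd y) - ad y := by
    intro y
    rw [h5, map_sub, h4, h10]
  have hTt : ∀ i x, T (t i x) = t i (T x) := by
    intro i x
    rw [← h3, cbs, cad, h3]
  -- step (i)
  have hi : ∀ v : B, (∃ n : ℕ, ((U - a • (1 : Module.End 𝒪 B)) ^ n) v = 0) →
      (∃ n : ℕ, ((T - s • (1 : Module.End 𝒪 A)) ^ n) (ad v) = 0) ∧
        ∃ n : ℕ, ((T - s • (1 : Module.End 𝒪 A)) ^ n) (bd v) = 0 := by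
    rintro v ⟨n, hn⟩
    obtain ⟨k1, k2⟩ := locNil_ad_bd ad bd T U (q : 𝒪) a hadU hbdU uq hn
    exact ⟨locNil_T_sub_s T (q : 𝒪) a a' s ua0 k1 (nA _) (ns _),
      locNil_T_sub_s T (q : 𝒪) a a' s ua0 k2 (nA _) (ns _)⟩
  -- the submodules
  set Aθ : Submodule 𝒪 A := thetaSub t c T s with hAθ
  have memA : ∀ x : A, x ∈ Aθ ↔
      (∀ i, ∃ n : ℕ, ((t i - c i • (1 : Module.End 𝒪 A)) ^ n) x = 0) ∧
        ∃ n : ℕ, ((T - s • (1 : Module.End 𝒪 A)) ^ n) x = 0 := mem_thetaSub t c T s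
  set B₀ : Submodule 𝒪 B := Aθ.comap ad ⊓ Aθ.comap bd with hB₀
  have memB : ∀ y : B, y ∈ B₀ ↔ ad y ∈ Aθ ∧ bd y ∈ Aθ := fun y => Iff.rfl
  have hT_A : ∀ x ∈ Aθ, T x ∈ Aθ := by
    intro x hx
    rw [memA] at hx ⊢
    refine ⟨fun i => ?_, ?_⟩
    · obtain ⟨n, hn⟩ := hx.1 i
      refine ⟨n, ?_⟩
      rw [← intertwine_sub_smul_pow T (t i) (t i) (hTt i) (c i) n x, hn, map_zero]
    · obtain ⟨n, hn⟩ := hx.2
      refine ⟨n, ?_⟩
      rw [← intertwine_sub_smul_pow T T T (fun _ => rfl) s n x, hn, map_zero]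
  have has : ∀ x ∈ Aθ, as x ∈ B₀ := by
    intro x hx
    rw [memB, h1, h4]
    exact ⟨nsmul_mem hx _, hT_A x hx⟩
  have hbs : ∀ x ∈ Aθ, bs x ∈ B₀ := by
    intro x hx
    rw [memB, h2, h3]
    exact ⟨hT_A x hx, nsmul_mem hx _⟩
  have had : ∀ y ∈ B₀, ad y ∈ Aθ := fun y hy => ((memB y).1 hy).1
  have hbd : ∀ y ∈ B₀, bd y ∈ Aθ := fun y hy => ((memB y).1 hy).2
  have hW : ∀ y ∈ B₀, W y ∈ B₀ := by
    intro y hy
    rw [memB, h9, h10]
    exact ⟨hbd y hy, had y hy⟩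
  have hU : ∀ y ∈ B₀, U y ∈ B₀ := by
    intro y hy
    rw [h5]
    exact B₀.sub_mem (has _ (hbd y hy)) (hW y hy)
  -- `Bθ ⊆ B₀`
  have hBθ : ∀ v : B, (∀ i, ∃ n : ℕ, ((t' i - c i • (1 : Module.End 𝒪 B)) ^ n) v = 0) →
      (∃ n : ℕ, ((U - a • (1 : Module.End 𝒪 B)) ^ n) v = 0) → v ∈ B₀ := by
    intro v hvt hvU
    rw [memB, memA, memA]
    refine ⟨⟨fun i => ?_, (hi v hvU).1⟩, ⟨fun i => ?_, (hi v hvU).2⟩⟩
    · obtain ⟨n, hn⟩ := hvt i
      exact ⟨n, by rw [← intertwine_sub_smul_pow ad (t' i) (t i) (cad i) (c i) n v, hn, map_zero]⟩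
    · obtain ⟨n, hn⟩ := hvt i
      exact ⟨n, by rw [← intertwine_sub_smul_pow bd (t' i) (t i) (cbd i) (c i) n v, hn, map_zero]⟩
  -- transfer of powers between `B₀` and `B`, `Aθ` and `A`
  have hcoeU : ∀ (n : ℕ) (v : B₀),
      ((((U.restrict hU) - a • (1 : Module.End 𝒪 B₀)) ^ n) v : B) =
        ((U - a • (1 : Module.End 𝒪 B)) ^ n) (v : B) := fun n v =>
    intertwine_sub_smul_pow B₀.subtype (U.restrict hU) U (fun _ => rfl) a n v
  have hcoeT : ∀ (n : ℕ) (x : Aθ),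
      ((((T.restrict hT_A) - (a + a') • (1 : Module.End 𝒪 Aθ)) ^ n) x : A) =
        ((T - (a + a') • (1 : Module.End 𝒪 A)) ^ n) (x : A) := fun n x =>
    intertwine_sub_smul_pow Aθ.subtype (T.restrict hT_A) T (fun _ => rfl) (a + a') n x
  -- step (ii): OLD-ABS on the submodules
  obtain ⟨ha, hb, hc⟩ := oldNewAbs (as.restrict has) (bs.restrict hbs) (ad.restrict had)
    (bd.restrict hbd) (T.restrict hT_A) (U.restrict hU) (W.restrict hW) q a a'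
    (fun x => Subtype.ext (h1 x)) (fun x => Subtype.ext (h2 x))
    (fun x => Subtype.ext (h3 x)) (fun x => Subtype.ext (h4 x))
    (fun y => Subtype.ext (h5 y))
    (fun x => Subtype.ext (h6 x)) (fun x => Subtype.ext (h7 x)) (fun y => Subtype.ext (h8 y))
    (fun y => Subtype.ext (h9 y)) (fun y => Subtype.ext (h10 y))
    ud ua ua' uq
    (by
      intro x
      obtain ⟨n₁, hn₁⟩ := ((memA x).1 x.2).2
      obtain ⟨n₂, hn₂⟩ := ns x
      refine ⟨n₁ + n₂, Subtype.ext ?_⟩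
      rw [hcoeT]
      have hd : T - (a + a') • (1 : Module.End 𝒪 A) =
          (T - s • (1 : Module.End 𝒪 A)) + (s - (a + a')) • (1 : Module.End 𝒪 A) := by
        rw [sub_smul]
        abel
      rw [hd]
      refine add_pow_apply_eq_zero (commute_smul_one _ _) hn₁ ?_
      rw [smul_one_pow_apply, hn₂])
    (by
      intro x
      obtain ⟨n, hn⟩ := nA x
      exact ⟨n, Subtype.ext hn⟩)
  refine ⟨?_, ?_, ?_⟩
  · -- (C1)
    intro v hvt hvU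
    exact (memA _).1 (had v (hBθ v hvt hvU))
  · -- (C2)
    intro x hxt hxT
    have hx : x ∈ Aθ := (memA x).2 ⟨hxt, hxT⟩
    obtain ⟨v', ⟨n, hn⟩, hv'⟩ := ha ⟨x, hx⟩
    have hnU : ((U - a • (1 : Module.End 𝒪 B)) ^ n) (v' : B) = 0 := by
      rw [← hcoeU, hn]
      rfl
    obtain ⟨x₁, y₁, hxy⟩ := hc v' ⟨n, hn⟩
    have hv : (v' : B) = as x₁ + bs y₁ := by
      rw [hxy]
      rfl
    refine ⟨v', fun i => ?_, ⟨n, hnU⟩, congrArg Subtype.val hv'⟩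
    obtain ⟨n₁, hn₁⟩ := ((memA x₁).1 x₁.2).1 i
    obtain ⟨n₂, hn₂⟩ := ((memA y₁).1 y₁.2).1 i
    refine ⟨max n₁ n₂, ?_⟩
    rw [hv, map_add, ← intertwine_sub_smul_pow as (t i) (t' i) (cas i) (c i),
      ← intertwine_sub_smul_pow bs (t i) (t' i) (cbs i) (c i),
      pow_apply_eq_zero_of_le _ (le_max_left n₁ n₂) hn₁,
      pow_apply_eq_zero_of_le _ (le_max_right n₁ n₂) hn₂, map_zero, map_zero, add_zero]
  · -- (C3)
    intro v hvt hvU hv0
    have hvB : v ∈ B₀ := hBθ v hvt hvU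
    obtain ⟨n, hn⟩ := hvU
    have h' : ((((U.restrict hU) - a • (1 : Module.End 𝒪 B₀)) ^ n) ⟨v, hvB⟩) = 0 :=
      Subtype.ext (by rw [hcoeU]; exact hn)
    have := hb ⟨v, hvB⟩ ⟨n, h'⟩ (Subtype.ext hv0)
    exact congrArg Subtype.val this

end StepMain

end Fermat.Agent.NEB.OLD.H38
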