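/-
NEB, package OLDNEW (owner helper14), leaf OLD-STEP (helper38):
`stmt_OldNewStep : Stmt_OldNewStep`.  The proof is in `H38_OldStepCore.lean` (Mathlib only).
-/
import Fermat.Agent.NEB.OLD.CompatDefs
import Fermat.Agent.NEB.OLD.H38_OldStepCore

set_option autoImplicit false

namespace Fermat.Agent.NEB.OLD.H38

/-- Leaf **OLD-STEP** of package OLDNEW. -/
theorem stmt_OldNewStep : Stmt_OldNewStep := by
  intro 𝒪 _ A B _ _ _ _ as bs ad bd T U W q a a' s ι t t' c h1 h2 h3 h4 h5 h6 h7 h8 h9 h10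
    cas cbs cad cbd ud ua ua' uq ua0 nA _ ns
  exact oldNewStep as bs ad bd T U W q a a' s t t' c h1 h2 h3 h4 h5 h6 h7 h8 h9 h10
    cas cbs cad cbd ud ua ua' uq ua0 nA ns

end Fermat.Agent.NEB.OLD.H38
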