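import Mathlib
import Fermat.Agent.NEB.OLD.CompatDefs
import Fermat.Agent.S36.H44_BetaNorm
import Fermat.Agent.BAD.H88_VM2

/-!
# NEB, package OLDNEW, leaf OLD-CAD (helper52): `α_{q*} ∘ U_{q'} = U_{q'} ∘ α_{q*}`

`q ≠ q'` primes, `q ∤ M`.  With `α_q : F₀(M) → F₀(Mq)`, `α', β' : F₀(Mq) → F₀(Mqq')` and
`ι : F₀(Mq') ⊂ F₀(Mqq')`:

* `α_{q*} β'_* = β_{q'*} ι_*`        (`pushP_comp`, `β' ∘ α_q = ι ∘ β_{q'}`);
* `ι_* α'^* = α_{q'}^* α_{q*}`        (base change of the norm in the all-inclusion square,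
  `NEB.H14.square_of_norm_pic`).  The primitive element of `F₀(Mq) / F₀(M)` is `j(Mqτ)`
  (`stmt_GenJ`); it stays primitive for `F₀(Mqq') / F₀(Mq')` by the CRUX of helper44 at level
  `Mq'` (`j(Mτ)` generates `F₀(Mq'q)` over `β_q F₀(Mq')`) transported by the Atkin–Lehner
  involution `w_q` (`w ∘ β = α`, `w j(Mτ) = j(Mqτ)`).

No hypothesis on `q'` versus `M` is needed.
-/

set_option autoImplicit false
set_option linter.unusedSectionVars false
set_option linter.style.haveILetI false
set_option linter.dupNamespace false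

noncomputable section

namespace Fermat.Agent.NEB.OLD.H52

open AlgebraicCurve ModularCurve Fermat.Agent.S24 Fermat.Agent.Lib.HeckeComm
open Fermat.Agent.NEB.H14 Fermat.Agent.NEB.JH Fermat.Agent.RED Fermat.Agent.S36.H44

local notation "Kb" => AlgebraicClosure ℚ

section Generic

variable {K F₁ F₂ : Type*} [Field K] [Field F₁] [Field F₂] [Algebra K F₁] [Algebra K F₂]

/-- A surjective homomorphism maps a generating set into `A` only if `A = ⊤`. -/
theorem eq_top_of_surjective_gens (ψ : F₁ →ₐ[K] F₂) (hψ : Function.Surjective ψ)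
    (T : Set F₁) (hT : IntermediateField.adjoin K T = ⊤) (A : IntermediateField K F₂)
    (h : ∀ t ∈ T, ψ t ∈ A) : A = ⊤ := by
  rw [eq_top_iff]
  intro y _
  obtain ⟨x, rfl⟩ := hψ y
  exact range_subset_of_gens ψ T hT A h x

end Generic

section Square

variable (M q q' : ℕ) [NeZero M] [NeZero q] [NeZero q']

theorem dvd_swap : M * q' * q ∣ M * q * q' := ⟨1, by ring⟩

theorem dvd_swap' : M * q * q' ∣ M * q' * q := ⟨1, by ring⟩

/-- The identification `F₀(Mq'q) = F₀(Mqq')`. -/
def swapFN : FN (M * q' * q) →ₐ[Kb] FN (M * q * q') :=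
  inclFN (M * q' * q) (M * q * q') (dvd_swap M q q')

theorem coe_swapFN (x : FN (M * q' * q)) :
    (swapFN M q q' x : LaurentSeries Kb) = (x : LaurentSeries Kb) :=
  coe_inclFN _ _ _ x

theorem swapFN_surjective : Function.Surjective (swapFN M q q') := by
  intro y
  refine ⟨inclFN (M * q * q') (M * q' * q) (dvd_swap' M q q') y, Subtype.ext ?_⟩
  rw [coe_swapFN, coe_inclFN]

theorem swapFN_bijective : Function.Bijective (swapFN M q q') :=
  ⟨(swapFN M q q').toRingHom.injective, swapFN_surjective M q q'⟩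

/-- `ι = swap ∘ α_q` at level `Mq'`. -/
theorem alphaLift_eq :
    alphaLift M q q' = (swapFN M q q').comp (heckeAlphaBar Kb (M * q') q) := by
  refine AlgHom.ext fun x => Subtype.ext ?_
  rw [coe_alphaLift, AlgHom.comp_apply, coe_swapFN, coe_heckeAlphaBar]

/-- `β' ∘ α_q = ι ∘ β_{q'}`. -/
theorem beta_comp_alpha_eq :
    (heckeBetaBar Kb (M * q) q').comp (heckeAlphaBar Kb M q)
      = (alphaLift M q q').comp (heckeBetaBar Kb M q') := by
  refine AlgHom.ext fun x => Subtype.ext ?_
  simp only [AlgHom.comp_apply, coe_heckeBetaBar, coe_heckeAlphaBar, coe_alphaLift]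

/-- The degree of `ι : F₀(Mq') ⊂ F₀(Mqq')` is `q + 1`. -/
theorem finrankHom_alphaLift (hq : q.Prime) (hqM : ¬ q ∣ M * q') :
    finrankHom (alphaLift M q q').toRingHom = q + 1 := by
  have h1 : (alphaLift M q q').toRingHom
      = (swapFN M q q').toRingHom.comp (heckeAlphaBar Kb (M * q') q).toRingHom := by
    rw [alphaLift_eq]
    rfl
  rw [h1, finrank_comp_h44]
  have h2 : finrankHom (swapFN M q q').toRingHom = 1 :=
    finrank_toAlgebra_of_bijective (swapFN M q q').toRingHom (swapFN_bijective M q q')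
  rw [h2, mul_one]
  exact (finrankHom_eq_finrankAlong _).trans (Fermat.Agent.RED.H95.finrankAlong_alpha hq hqM)

/-- **`j(Mqτ)` generates `F₀(Mqq')` over `F₀(Mq')`**: the CRUX at level `Mq'`, transported by
the Atkin–Lehner involution `w_q`. -/
theorem adjoin_alphaLift (hq : q.Prime) (hqM : ¬ q ∣ M * q') :
    letI := (alphaLift M q q').toRingHom.toAlgebra
    IntermediateField.adjoin (FN (M * q'))
      {(heckeAlphaBar Kb (M * q) q').toRingHom (jdF (M * q) (M * q) dvd_rfl)} = ⊤ := by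
  obtain ⟨a, b, hab⟩ := Fermat.Agent.RED.H95.exists_bezout hq hqM
  apply adjoin_eq_top_of_range_union
  have hM : M ∣ M * q' := dvd_mul_right M q'
  have hcrux := adjoin_range_union_eq_top (heckeBetaBar Kb (M * q') q)
    {jdF (M * q' * q) M (dvd_mul_of_dvd_left hM q)}
    (adjoin_beta_jdF (N := M * q') hq hqM M hM)
  set w := Fermat.Agent.BAD.H88.wq q (M * q') a b hab hq with hw
  refine eq_top_of_surjective_gens ((swapFN M q q').comp (w : FN (M * q' * q) →ₐ[Kb] _))
    ?_ _ hcrux _ ?_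
  · intro y
    obtain ⟨x, rfl⟩ := swapFN_surjective M q q' y
    exact ⟨w.symm x, by simp⟩
  · rintro t (⟨x, rfl⟩ | ht)
    · -- the image of `β_q` goes to the image of `ι`
      refine IntermediateField.subset_adjoin Kb _ (Or.inl ⟨x, ?_⟩)
      rw [AlgHom.comp_apply]
      have e : (w : FN (M * q' * q) →ₐ[Kb] _) (heckeBetaBar Kb (M * q') q x)
          = heckeAlphaBar Kb (M * q') q x :=
        Fermat.Agent.BAD.H88.wq_beta q (M * q') a b hab hq x
      rw [e, alphaLift_eq, AlgHom.comp_apply]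
    · -- `j(Mτ)` goes to `j(Mqτ)`
      rw [Set.mem_singleton_iff] at ht
      refine IntermediateField.subset_adjoin Kb _ (Or.inr ?_)
      rw [Set.mem_singleton_iff, ht, AlgHom.comp_apply]
      have e : (w : FN (M * q' * q) →ₐ[Kb] _) (jdF (M * q' * q) M (dvd_mul_of_dvd_left hM q))
          = jdF (M * q' * q) (M * q) (Nat.mul_dvd_mul_right hM q) :=
        Fermat.Agent.BAD.H88.wqHom_jdF q (M * q') a b hab hq M hM
      rw [e]
      apply Subtype.ext
      rw [coe_swapFN, Fermat.Agent.RED.H95.coe_jdF]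
      show _ = ((heckeAlphaBar Kb (M * q) q' (jdF (M * q) (M * q) dvd_rfl) : FN (M * q * q')) :
        LaurentSeries Kb)
      rw [coe_heckeAlphaBar, Fermat.Agent.RED.H95.coe_jdF]

/-- **Base change of the norm** in the all-inclusion square:
`α_{q'} (N_{α_q} x) = N_ι (α' x)`. -/
theorem norm_square (hq : q.Prime) (hqM : ¬ q ∣ M) (hqq' : ¬ q ∣ M * q')
    (x : FN (M * q)) :
    heckeAlphaBar Kb M q' (normFn (heckeAlphaBar Kb M q) x)
      = normFn (alphaLift M q q') (heckeAlphaBar Kb (M * q) q' x) := by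
  refine normAlongHom_baseChange (heckeAlphaBar Kb M q).toRingHom (alphaLift M q q').toRingHom
    (heckeAlphaBar Kb M q').toRingHom (heckeAlphaBar Kb (M * q) q').toRingHom
    (fun y => ?_) (alpha_finite M q) (alphaLift_finite M q q')
    (jdF (M * q) (M * q) dvd_rfl) (stmt_GenJ M (M * q) (dvd_mul_right M q))
    (adjoin_alphaLift M q q' hq hqq') ?_ x
  · exact congrArg (fun f : FN M →+* FN (M * q * q') => f y) (alpha_square M q q')
  · have h1 : finrankHom (heckeAlphaBar Kb M q).toRingHom = q + 1 :=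
      (finrankHom_eq_finrankAlong _).trans (Fermat.Agent.RED.H95.finrankAlong_alpha hq hqM)
    exact h1.trans (finrankHom_alphaLift M q q' hq hqq').symm

end Square

/-- **OLD-CAD**: `α_{q*} ∘ U_{q'} = U_{q'} ∘ α_{q*}`. -/
theorem stmt_CompatAd : Stmt_CompatAd := by
  intro M q q' _ _ _ hq hq' hne hqM _ y
  have hqq' : ¬ q ∣ M * q' := by
    intro h
    rcases (Nat.Prime.dvd_mul hq).mp h with h1 | h1
    · exact hqM h1
    · exact hne ((Nat.prime_dvd_prime_iff_eq hq hq').mp h1)
  have hsq := square_of_norm_pic (isFF_FN M) (isFF_FN (M * q')) (isFF_FN (M * q))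
    (isFF_FN (M * q * q')) (heckeAlphaBar Kb M q) (heckeAlphaBar Kb M q')
    (alphaLift M q q') (heckeAlphaBar Kb (M * q) q')
    (fun x _ => norm_square M q q' hq hqM hqq' x)
  have h1 := pushP_comp (isFF_FN M) (isFF_FN (M * q)) (isFF_FN (M * q * q'))
    (heckeAlphaBar Kb M q) (heckeBetaBar Kb (M * q) q')
  have h2 := pushP_comp (isFF_FN M) (isFF_FN (M * q')) (isFF_FN (M * q * q'))
    (heckeBetaBar Kb M q') (alphaLift M q q')
  rw [beta_comp_alpha_eq] at h1
  have h3 : (pushP (heckeAlphaBar Kb M q)).comp (pushP (heckeBetaBar Kb (M * q) q'))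
      = (pushP (heckeBetaBar Kb M q')).comp (pushP (alphaLift M q q')) := h1.symm.trans h2
  show pushP (heckeAlphaBar Kb M q)
      (pushP (heckeBetaBar Kb (M * q) q') (pullP (heckeAlphaBar Kb (M * q) q') y))
    = pushP (heckeBetaBar Kb M q') (pullP (heckeAlphaBar Kb M q')
        (pushP (heckeAlphaBar Kb M q) y))
  have e1 := DFunLike.congr_fun h3 (pullP (heckeAlphaBar Kb (M * q) q') y)
  have e2 := DFunLike.congr_fun hsq y
  simp only [AddMonoidHom.comp_apply] at e1 e2
  rw [e1, ← e2]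

end Fermat.Agent.NEB.OLD.H52
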