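import Mathlib
import Fermat.Agent.NEB.OLD.H52_CompatAd

/-!
# NEB, package OLDNEW, leaf OLD-CBD (helper52): `β_{q*} ∘ U_{q'} = U_{q'} ∘ β_{q*}`

`q ≠ q'` primes, `q ∤ M`.  With `β_q : F₀(M) → F₀(Mq)`, `α', β' : F₀(Mq) → F₀(Mqq')` and
`β'' = betaLift : F₀(Mq') → F₀(Mqq')`, `g(τ) ↦ g(qτ)`:

* `β_{q*} β'_* = β_{q'*} β''_*`       (`pushP_comp`, `β' ∘ β_q = β'' ∘ β_{q'}`);
* `β''_* α'^* = α_{q'}^* β_{q*}`       (base change of the norm in the square
  `(β_q, α_{q'}, β'', α')`, primitive element `j` on both sides, degrees `q + 1`).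
-/

set_option autoImplicit false
set_option linter.unusedSectionVars false
set_option linter.style.haveILetI false
set_option linter.dupNamespace false

noncomputable section

namespace Fermat.Agent.NEB.OLD.H52

open AlgebraicCurve ModularCurve Fermat.Agent.S24 Fermat.Agent.Lib.HeckeComm
open Fermat.Agent.NEB.H14 Fermat.Agent.NEB.JH Fermat.Agent.RED Fermat.Agent.S36.H44

local notation "Kb" => AlgebraicClosure ℚ

section Square

variable (M q q' : ℕ) [NeZero M] [NeZero q] [NeZero q']

/-- `β'' = swap ∘ β_q` at level `Mq'`. -/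
theorem betaLift_eq :
    betaLift M q q' = (swapFN M q q').comp (heckeBetaBar Kb (M * q') q) := rfl

/-- `β' ∘ β_q = β'' ∘ β_{q'}`. -/
theorem beta_comp_beta_eq :
    (heckeBetaBar Kb (M * q) q').comp (heckeBetaBar Kb M q)
      = (betaLift M q q').comp (heckeBetaBar Kb M q') :=
  AlgHom.ext fun x => beta_square_beta M q q' x

/-- The degree of `β'' : F₀(Mq') → F₀(Mqq')` is `q + 1`. -/
theorem finrankHom_betaLift (hq : q.Prime) (hqM : ¬ q ∣ M * q') :
    finrankHom (betaLift M q q').toRingHom = q + 1 := by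
  have h1 : (betaLift M q q').toRingHom
      = (swapFN M q q').toRingHom.comp (heckeBetaBar Kb (M * q') q).toRingHom := rfl
  rw [h1, finrank_comp_h44]
  have h2 : finrankHom (swapFN M q q').toRingHom = 1 :=
    finrank_toAlgebra_of_bijective (swapFN M q q').toRingHom (swapFN_bijective M q q')
  rw [h2, mul_one]
  exact (finrankHom_eq_finrankAlong _).trans (Fermat.Agent.RED.H95.finrankAlong_beta hq hqM)

/-- **`j` generates `F₀(Mqq')` over `β'' F₀(Mq')`.** -/
theorem adjoin_betaLift_jF :
    letI := (betaLift M q q').toRingHom.toAlgebra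
    IntermediateField.adjoin (FN (M * q'))
      {(heckeAlphaBar Kb (M * q) q').toRingHom (jF (M * q))} = ⊤ := by
  apply adjoin_eq_top_of_range_union
  have hgen := adjoin_range_union_eq_top (heckeBetaBar Kb (M * q') q) {jF (M * q' * q)}
    (adjoin_beta_jF (M * q') q)
  refine eq_top_of_surjective_gens (swapFN M q q') (swapFN_surjective M q q') _ hgen _ ?_
  rintro t (⟨x, rfl⟩ | ht)
  · exact IntermediateField.subset_adjoin Kb _ (Or.inl ⟨x, rfl⟩)
  · rw [Set.mem_singleton_iff] at ht
    refine IntermediateField.subset_adjoin Kb _ (Or.inr ?_)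
    rw [Set.mem_singleton_iff, ht]
    apply Subtype.ext
    rw [coe_swapFN]
    rfl

/-- **Base change of the norm** in the square `(β_q, α_{q'}, β'', α')`:
`α_{q'} (N_{β_q} x) = N_{β''} (α' x)`. -/
theorem norm_square_beta (hq : q.Prime) (hqM : ¬ q ∣ M) (hqq' : ¬ q ∣ M * q')
    (x : FN (M * q)) :
    heckeAlphaBar Kb M q' (normFn (heckeBetaBar Kb M q) x)
      = normFn (betaLift M q q') (heckeAlphaBar Kb (M * q) q' x) := by
  refine normAlongHom_baseChange (heckeBetaBar Kb M q).toRingHom (betaLift M q q').toRingHom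
    (heckeAlphaBar Kb M q').toRingHom (heckeAlphaBar Kb (M * q) q').toRingHom
    (fun y => ?_) (beta_finite M q) (betaLift_finite M q q')
    (jF (M * q)) (adjoin_beta_jF M q) (adjoin_betaLift_jF M q q') ?_ x
  · exact congrArg (fun f : FN M →+* FN (M * q * q') => f y) (beta_square M q q')
  · have h1 : finrankHom (heckeBetaBar Kb M q).toRingHom = q + 1 :=
      (finrankHom_eq_finrankAlong _).trans (Fermat.Agent.RED.H95.finrankAlong_beta hq hqM)
    exact h1.trans (finrankHom_betaLift M q q' hq hqq').symm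

end Square

/-- **OLD-CBD**: `β_{q*} ∘ U_{q'} = U_{q'} ∘ β_{q*}`. -/
theorem stmt_CompatBd : Stmt_CompatBd := by
  intro M q q' _ _ _ hq hq' hne hqM _ y
  have hqq' : ¬ q ∣ M * q' := by
    intro h
    rcases (Nat.Prime.dvd_mul hq).mp h with h1 | h1
    · exact hqM h1
    · exact hne ((Nat.prime_dvd_prime_iff_eq hq hq').mp h1)
  have hsq := square_of_norm_pic (isFF_FN M) (isFF_FN (M * q')) (isFF_FN (M * q))
    (isFF_FN (M * q * q')) (heckeBetaBar Kb M q) (heckeAlphaBar Kb M q')
    (betaLift M q q') (heckeAlphaBar Kb (M * q) q')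
    (fun x _ => norm_square_beta M q q' hq hqM hqq' x)
  have h1 := pushP_comp (isFF_FN M) (isFF_FN (M * q)) (isFF_FN (M * q * q'))
    (heckeBetaBar Kb M q) (heckeBetaBar Kb (M * q) q')
  have h2 := pushP_comp (isFF_FN M) (isFF_FN (M * q')) (isFF_FN (M * q * q'))
    (heckeBetaBar Kb M q') (betaLift M q q')
  rw [beta_comp_beta_eq] at h1
  have h3 : (pushP (heckeBetaBar Kb M q)).comp (pushP (heckeBetaBar Kb (M * q) q'))
      = (pushP (heckeBetaBar Kb M q')).comp (pushP (betaLift M q q')) := h1.symm.trans h2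
  show pushP (heckeBetaBar Kb M q)
      (pushP (heckeBetaBar Kb (M * q) q') (pullP (heckeAlphaBar Kb (M * q) q') y))
    = pushP (heckeBetaBar Kb M q') (pullP (heckeAlphaBar Kb M q')
        (pushP (heckeBetaBar Kb M q) y))
  have e1 := DFunLike.congr_fun h3 (pullP (heckeAlphaBar Kb (M * q) q') y)
  have e2 := DFunLike.congr_fun hsq y
  simp only [AddMonoidHom.comp_apply] at e1 e2
  rw [e1, ← e2]

end Fermat.Agent.NEB.OLD.H52
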