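import Mathlib
import Fermat.Agent.NEB.OLD.H52_CompatAd

/-!
# NEB, package OLDNEW, leaf OLD-CAS (helper57): `α_q^* ∘ U_{q'} = U_{q'} ∘ α_q^*`

`q ≠ q'` primes, `q ∤ M`.  With `α_q : F₀(M) → F₀(Mq)`, `α_{q'}, β_{q'} : F₀(M) → F₀(Mq')`,
`α', β' : F₀(Mq) → F₀(Mqq')` and `ι : F₀(Mq') ⊂ F₀(Mqq')`:

* `α_q^* β_{q'*} = β'_* ι^*`     (base change of the norm in the square `(β_{q'}, α_q, β', ι)`,
  primitive element `j` on both sides, degrees by the square and `deg α_q = deg ι = q + 1`);
* `ι^* α_{q'}^* = α'^* α_q^*`     (`pullP_comp`, `ι ∘ α_{q'} = α' ∘ α_q`).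

No hypothesis on `q'` versus `M` is needed.
-/

set_option autoImplicit false
set_option linter.unusedSectionVars false
set_option linter.style.haveILetI false
set_option linter.dupNamespace false

noncomputable section

namespace Fermat.Agent.NEB.OLD.H57

open AlgebraicCurve ModularCurve Fermat.Agent.S24 Fermat.Agent.Lib.HeckeComm
open Fermat.Agent.NEB.H14 Fermat.Agent.NEB.JH Fermat.Agent.RED Fermat.Agent.S36.H44
open Fermat.Agent.NEB.OLD.H52

local notation "Kb" => AlgebraicClosure ℚ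

section Square

variable (M q q' : ℕ) [NeZero M] [NeZero q] [NeZero q']

/-- `ι ∘ β_{q'} = β' ∘ α_q`, as ring homomorphisms. -/
theorem alphaLift_comp_beta :
    (alphaLift M q q').toRingHom.comp (heckeBetaBar Kb M q').toRingHom
      = (heckeBetaBar Kb (M * q) q').toRingHom.comp (heckeAlphaBar Kb M q).toRingHom :=
  RingHom.ext fun y => (alpha_square_beta M q q' y).symm

/-- `ι ∘ α_{q'} = α' ∘ α_q`. -/
theorem alphaLift_comp_alpha :
    (alphaLift M q q').comp (heckeAlphaBar Kb M q')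
      = (heckeAlphaBar Kb (M * q) q').comp (heckeAlphaBar Kb M q) := by
  refine AlgHom.ext fun x => Subtype.ext ?_
  simp only [AlgHom.comp_apply, coe_heckeAlphaBar, coe_alphaLift]

/-- `ι j = j` generates `F₀(Mqq')` over `β' F₀(Mq)`. -/
theorem adjoin_beta_alphaLift_jF :
    letI := (heckeBetaBar Kb (M * q) q').toRingHom.toAlgebra
    IntermediateField.adjoin (FN (M * q)) {(alphaLift M q q').toRingHom (jF (M * q'))} = ⊤ := by
  have e : (alphaLift M q q').toRingHom (jF (M * q')) = jF (M * q * q') := Subtype.ext rfl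
  rw [e]
  exact adjoin_beta_jF (M * q) q'

/-- The degrees of `β_{q'}` at the levels `M` and `Mq` agree. -/
theorem finrankHom_beta_eq (hq : q.Prime) (hqM : ¬ q ∣ M) (hqq' : ¬ q ∣ M * q') :
    finrankHom (heckeBetaBar Kb M q').toRingHom
      = finrankHom (heckeBetaBar Kb (M * q) q').toRingHom :=
  finrank_eq_of_square (heckeBetaBar Kb M q').toRingHom (heckeAlphaBar Kb M q).toRingHom
    (alphaLift M q q').toRingHom (heckeBetaBar Kb (M * q) q').toRingHom
    (alphaLift_comp_beta M q q') (q + 1) (Nat.succ_ne_zero q)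
    ((finrankHom_eq_finrankAlong _).trans (Fermat.Agent.RED.H95.finrankAlong_alpha hq hqM))
    (finrankHom_alphaLift M q q' hq hqq')

/-- **Base change of the norm** in the square `(β_{q'}, α_q, β', ι)`:
`α_q (N_{β_{q'}} x) = N_{β'} (ι x)`. -/
theorem norm_square_as (hq : q.Prime) (hqM : ¬ q ∣ M) (hqq' : ¬ q ∣ M * q')
    (x : FN (M * q')) :
    heckeAlphaBar Kb M q (normFn (heckeBetaBar Kb M q') x)
      = normFn (heckeBetaBar Kb (M * q) q') (alphaLift M q q' x) := by
  refine normAlongHom_baseChange (heckeBetaBar Kb M q').toRingHom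
    (heckeBetaBar Kb (M * q) q').toRingHom
    (heckeAlphaBar Kb M q).toRingHom (alphaLift M q q').toRingHom
    (fun y => ?_) (beta_finite M q') (beta_finite (M * q) q')
    (jF (M * q')) (adjoin_beta_jF M q') (adjoin_beta_alphaLift_jF M q q') ?_ x
  · exact (alpha_square_beta M q q' y).symm
  · exact finrankHom_beta_eq M q q' hq hqM hqq'

end Square

/-- **OLD-CAS**: `α_q^* ∘ U_{q'} = U_{q'} ∘ α_q^*`. -/
theorem stmt_CompatAs : Stmt_CompatAs := by
  intro M q q' _ _ _ hq hq' hne hqM _ x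
  have hqq' : ¬ q ∣ M * q' := by
    intro h
    rcases (Nat.Prime.dvd_mul hq).mp h with h1 | h1
    · exact hqM h1
    · exact hne ((Nat.prime_dvd_prime_iff_eq hq hq').mp h1)
  have hsq := square_of_norm_pic (isFF_FN M) (isFF_FN (M * q)) (isFF_FN (M * q'))
    (isFF_FN (M * q * q')) (heckeBetaBar Kb M q') (heckeAlphaBar Kb M q)
    (heckeBetaBar Kb (M * q) q') (alphaLift M q q')
    (fun x _ => norm_square_as M q q' hq hqM hqq' x)
  have h1 := pullP_comp (isFF_FN M) (isFF_FN (M * q')) (isFF_FN (M * q * q'))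
    (heckeAlphaBar Kb M q') (alphaLift M q q')
  have h2 := pullP_comp (isFF_FN M) (isFF_FN (M * q)) (isFF_FN (M * q * q'))
    (heckeAlphaBar Kb M q) (heckeAlphaBar Kb (M * q) q')
  rw [alphaLift_comp_alpha] at h1
  have h3 : (pullP (alphaLift M q q')).comp (pullP (heckeAlphaBar Kb M q'))
      = (pullP (heckeAlphaBar Kb (M * q) q')).comp (pullP (heckeAlphaBar Kb M q)) :=
    h1.symm.trans h2
  show pullP (heckeAlphaBar Kb M q)
      (pushP (heckeBetaBar Kb M q') (pullP (heckeAlphaBar Kb M q') x))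
    = pushP (heckeBetaBar Kb (M * q) q') (pullP (heckeAlphaBar Kb (M * q) q')
        (pullP (heckeAlphaBar Kb M q) x))
  have e1 := DFunLike.congr_fun hsq (pullP (heckeAlphaBar Kb M q') x)
  have e2 := DFunLike.congr_fun h3 x
  simp only [AddMonoidHom.comp_apply] at e1 e2
  rw [e1, e2]

end Fermat.Agent.NEB.OLD.H57
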