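import Mathlib
import Fermat.Agent.NEB.OLD.H57_CompatAs
import Fermat.Agent.NEB.OLD.H14_WComm

/-!
# NEB, package OLDNEW, leaf OLD-CBS (helper57): `β_q^* ∘ U_{q'} = U_{q'} ∘ β_q^*`

From OLD-CAS (`H57.stmt_CompatAs`) and the W-shortcut of helper14 (`compatBs_of_compatAs`).
-/

set_option autoImplicit false

noncomputable section

namespace Fermat.Agent.NEB.OLD.H57

/-- **OLD-CBS**: `β_q^* ∘ U_{q'} = U_{q'} ∘ β_q^*`. -/
theorem stmt_CompatBs : Stmt_CompatBs :=
  compatBs_of_compatAs stmt_CompatAs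

end Fermat.Agent.NEB.OLD.H57
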