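import Mathlib
import Fermat.Agent.NEB.OLD.H14_RealT
import Fermat.Agent.NEB.OLD.H38_OldStep
import Fermat.Agent.NEB.OLD.H52_CompatAd
import Fermat.Agent.NEB.OLD.H52_CompatBd
import Fermat.Agent.NEB.OLD.H57_CompatAs
import Fermat.Agent.NEB.OLD.H57_CompatBs
import Fermat.Agent.NEB.OLD.H66_SquareW
import Fermat.Agent.NEB.OLD.H6_DegBeta

/-!
# NEB, package OLDNEW (helper14): the main theorems, UNCONDITIONAL

* `U0_eq_asbd`   : `U_q = a^* b_* - W` on `J₀(Mq)` (`OLD.U_eq` with the leaves discharged);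
* `oldnew_iter`  : `OLD.iter` with all leaves discharged (any realization);
* `wOld`         : the same on `𝒪 ⊗_ℤ J₀(·)[p^∞]` over a local ring `𝒪`, hypotheses on residues.

Leaves: OLD-SQW helper66, OLD-DEG helper6, OLD-ABS + OLD-STEP helper38, OLD-CAD + OLD-CBD helper52,
OLD-CAS + OLD-CBS helper57.
-/

set_option autoImplicit false
set_option linter.unusedSectionVars false
set_option linter.style.haveILetI false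

noncomputable section

namespace Fermat.Agent.NEB.OLD

open AlgebraicCurve ModularCurve IsLocalRing
open Fermat.Agent.NEB.H14 Fermat.Agent.NEB.JH Fermat.Agent.RED

local notation "Kb" => AlgebraicClosure ℚ

/-- `U_q = a^* b_* - W` on `J₀(Mq)`, unconditional. -/
theorem U0_eq_asbd (M q : ℕ) [NeZero M] [NeZero q] (a b : ℤ) (hab : a * q + b * M = 1)
    (hq : q.Prime) (y : JZero (M * q)) :
    U0 (M * q) q y = pullP (heckeAlphaBar Kb M q) (pushP (heckeBetaBar Kb M q) y)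
      - Fermat.Agent.BAD.H88.wq q M a b hab hq • y :=
  U_eq M q a b hab hq H66.stmt_SquareW H6.stmt_DegBeta y

/-- `U0 = T0` at a prime not dividing the level. -/
theorem U0_eq_T0_of_not_dvd (M ℓ : ℕ) [NeZero M] [NeZero ℓ] (hℓ : ℓ.Prime) (hℓM : ¬ ℓ ∣ M)
    (x : JZero M) : U0 M ℓ x = T0 M ℓ x := by
  obtain ⟨a, b, hab⟩ := exists_bezout_of_not_dvd hℓ hℓM
  exact U0_eq_T0 M ℓ a b hab hℓ x

/-- `U0` is the prelude's Hecke operator at a prime not dividing the level. -/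
theorem U0_eq_heckeOperatorBar (M : ℕ) [NeZero M] (ℓ : Nat.Primes) (hℓM : ¬ (ℓ : ℕ) ∣ M)
    (x : JZero M) :
    (haveI : NeZero (ℓ : ℕ) := ⟨ℓ.2.ne_zero⟩; U0 M ℓ x) = heckeOperatorBar M ℓ x := by
  haveI : NeZero (ℓ : ℕ) := ⟨ℓ.2.ne_zero⟩
  rw [heckeOperatorBar_apply, T0_eq]
  exact U0_eq_T0_of_not_dvd M ℓ ℓ.2 hℓM x

/-- **OLDNEW, iterated, unconditional** (any realization). -/
theorem oldnew_iter {𝒪 : Type} [CommRing 𝒪] (R : Realization 𝒪) (c' a' : ℕ → 𝒪)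
    (qs : List ℕ) (N : ℕ) [NeZero N] (S : Set ℕ) (c : ℕ → 𝒪)
    (hnd : qs.Nodup) (hqs : ∀ q ∈ qs, q.Prime ∧ ¬ q ∣ N)
    (hS : ∀ ℓ ∈ S, ℓ.Prime ∧ ℓ ∉ qs ∧ ¬ ℓ ^ 2 ∣ N ∧ c' ℓ = c ℓ)
    (hu : ∀ q ∈ qs, IsUnit (c' q - a' q) ∧ IsUnit (c' q * c' q - 1) ∧
      IsUnit (a' q * a' q - 1) ∧ IsUnit (q : 𝒪) ∧ IsUnit (c' q))
    (ht : ∀ q ∈ qs, ∀ (M : ℕ) [NeZero M] (x : R.X M),
        (∃ n : ℕ, ((q : 𝒪) - c' q * a' q) ^ n • x = 0) ∧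
          ∃ n : ℕ, (c q - (c' q + a' q)) ^ n • x = 0)
    (Q : ℕ) [NeZero Q] (hQ : Q = N * qs.prod) :
    ∃ Φ : JZero Q →+ JZero N,
      (∀ (ℓ : ℕ) [NeZero ℓ], ℓ.Prime → ℓ ∉ qs → ¬ ℓ ^ 2 ∣ N →
        ∀ y, Φ (U0 Q ℓ y) = U0 N ℓ (Φ y)) ∧
      (∀ (σ : Kb ≃ₐ[ℚ] Kb) (y : JZero Q), Φ (σ • y) = σ • Φ y) ∧
      (∀ v, InE R Q (S ∪ {q | q ∈ qs}) c' v → InE R N (S ∪ {q | q ∈ qs}) c (R.map Φ v)) ∧
      (∀ x, InE R N (S ∪ {q | q ∈ qs}) c x →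
        ∃ v, InE R Q (S ∪ {q | q ∈ qs}) c' v ∧ R.map Φ v = x) ∧
      (∀ v, InE R Q (S ∪ {q | q ∈ qs}) c' v → R.map Φ v = 0 → v = 0) :=
  iter R H38.stmt_OldNewStep H66.stmt_SquareW H6.stmt_DegBeta H57.stmt_CompatAs
    H57.stmt_CompatBs H52.stmt_CompatAd H52.stmt_CompatBd c' a' qs N S c hnd hqs hS hu ht Q hQ

section Local

variable {𝒪 : Type} [CommRing 𝒪] [IsLocalRing 𝒪]

theorem isUnit_of_residue_ne_zero {x : 𝒪} (h : residue 𝒪 x ≠ 0) : IsUnit x := by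
  by_contra hx
  exact h ((residue_eq_zero_iff x).mpr ((mem_maximalIdeal x).mpr hx))

theorem mem_maximalIdeal_of_residue_eq {x y : 𝒪} (h : residue 𝒪 x = residue 𝒪 y) :
    x - y ∈ maximalIdeal 𝒪 := by
  rw [← residue_eq_zero_iff, map_sub, h, sub_self]

/-- **W-OLD** on `𝒪 ⊗_ℤ J₀(·)[p^∞]`: for distinct primes `q ∈ qs` not dividing `N`,
`q ≡ 1`, with `a q ≢ a' q`, `a q · a' q ≡ q`, `c q ≡ a q + a' q` modulo `𝔪_𝒪`, the composite `Φ`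
of the `a_*` induces a bijection from
`{v ∈ 𝒪 ⊗ J₀(Q)[p^∞] | v ∈ gk (U_ℓ - c ℓ) (ℓ ∈ S), v ∈ gk (U_q - a q) (q ∈ qs)}` onto
`{x ∈ 𝒪 ⊗ J₀(N)[p^∞] | x ∈ gk (U_ℓ - c ℓ) (ℓ ∈ S ∪ qs)}`, `Q = N ∏ qs`. -/
theorem wOld (p : ℕ) (hnil : ∀ e ∈ maximalIdeal 𝒪, ∃ (m : ℕ) (b : 𝒪), e ^ m = (p : 𝒪) * b)
    (N : ℕ) [NeZero N] (qs : List ℕ) (hnd : qs.Nodup) (hqs : ∀ q ∈ qs, q.Prime ∧ ¬ q ∣ N)
    (S : Set ℕ) (hS : ∀ ℓ ∈ S, ℓ.Prime ∧ ℓ ∉ qs ∧ ¬ ℓ ^ 2 ∣ N) (c a a' : ℕ → 𝒪)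
    (ha : ∀ q ∈ qs, residue 𝒪 (a q) ≠ residue 𝒪 (a' q) ∧
      residue 𝒪 (a q) * residue 𝒪 (a' q) = 1 ∧ residue 𝒪 (q : 𝒪) = 1 ∧
      residue 𝒪 (c q) = residue 𝒪 (a q) + residue 𝒪 (a' q))
    (Q : ℕ) [NeZero Q] (hQ : Q = N * qs.prod) :
    ∃ Φ : JZero Q →+ JZero N,
      (∀ (ℓ : ℕ) [NeZero ℓ], ℓ.Prime → ℓ ∉ qs → ¬ ℓ ^ 2 ∣ N →
        ∀ y, Φ (U0 Q ℓ y) = U0 N ℓ (Φ y)) ∧
      (∀ (σ : Kb ≃ₐ[ℚ] Kb) (y : JZero Q), Φ (σ • y) = σ • Φ y) ∧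
      (∀ v, InE (realT 𝒪 p) Q S c v → InE (realT 𝒪 p) Q {q | q ∈ qs} a v →
        InE (realT 𝒪 p) N (S ∪ {q | q ∈ qs}) c ((realT 𝒪 p).map Φ v)) ∧
      (∀ x, InE (realT 𝒪 p) N (S ∪ {q | q ∈ qs}) c x →
        ∃ v, InE (realT 𝒪 p) Q S c v ∧ InE (realT 𝒪 p) Q {q | q ∈ qs} a v ∧
          (realT 𝒪 p).map Φ v = x) ∧
      (∀ v, InE (realT 𝒪 p) Q S c v → InE (realT 𝒪 p) Q {q | q ∈ qs} a v →
        (realT 𝒪 p).map Φ v = 0 → v = 0) := by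
  classical
  -- the constants at the top level
  let c' : ℕ → 𝒪 := fun ℓ => if ℓ ∈ qs then a ℓ else c ℓ
  have hc'q : ∀ q ∈ qs, c' q = a q := fun q hq => if_pos hq
  have hc'S : ∀ ℓ ∈ S, c' ℓ = c ℓ := fun ℓ hℓ => if_neg (hS ℓ hℓ).2.1
  have hu : ∀ q ∈ qs, IsUnit (c' q - a' q) ∧ IsUnit (c' q * c' q - 1) ∧
      IsUnit (a' q * a' q - 1) ∧ IsUnit (q : 𝒪) ∧ IsUnit (c' q) := by
    intro q hq
    obtain ⟨h1, h2, h3, h4⟩ := ha q hq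
    rw [hc'q q hq]
    have hane : residue 𝒪 (a q) ≠ 0 := fun h0 => by rw [h0, zero_mul] at h2; exact zero_ne_one h2
    have ha'ne : residue 𝒪 (a' q) ≠ 0 := fun h0 => by
      rw [h0, mul_zero] at h2; exact zero_ne_one h2
    refine ⟨isUnit_of_residue_ne_zero ?_, isUnit_of_residue_ne_zero ?_,
      isUnit_of_residue_ne_zero ?_, isUnit_of_residue_ne_zero ?_,
      isUnit_of_residue_ne_zero hane⟩
    · rw [map_sub]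
      exact sub_ne_zero.mpr h1
    · rw [map_sub, map_mul, map_one]
      intro h0
      have h5 : residue 𝒪 (a q) * residue 𝒪 (a q) = residue 𝒪 (a q) * residue 𝒪 (a' q) := by
        rw [h2]
        exact sub_eq_zero.mp h0
      exact h1 (mul_left_cancel₀ hane h5)
    · rw [map_sub, map_mul, map_one]
      intro h0
      have h5 : residue 𝒪 (a' q) * residue 𝒪 (a' q) = residue 𝒪 (a' q) * residue 𝒪 (a q) := by
        rw [mul_comm (residue 𝒪 (a' q)) (residue 𝒪 (a q)), h2]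
        exact sub_eq_zero.mp h0
      exact h1 (mul_left_cancel₀ ha'ne h5).symm
    · rw [h3]
      exact one_ne_zero
  have ht : ∀ q ∈ qs, ∀ (M : ℕ) [NeZero M] (x : (realT 𝒪 p).X M),
      (∃ n : ℕ, ((q : 𝒪) - c' q * a' q) ^ n • x = 0) ∧
        ∃ n : ℕ, (c q - (c' q + a' q)) ^ n • x = 0 := by
    intro q hq M _ x
    obtain ⟨h1, h2, h3, h4⟩ := ha q hq
    rw [hc'q q hq]
    constructor
    · have hmem : (q : 𝒪) - a q * a' q ∈ maximalIdeal 𝒪 :=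
        mem_maximalIdeal_of_residue_eq (by rw [map_mul, h2, h3])
      obtain ⟨m, b, hmb⟩ := hnil _ hmem
      exact realT_tors 𝒪 p _ m b hmb M x
    · have hmem : c q - (a q + a' q) ∈ maximalIdeal 𝒪 :=
        mem_maximalIdeal_of_residue_eq (by rw [map_add, h4])
      obtain ⟨m, b, hmb⟩ := hnil _ hmem
      exact realT_tors 𝒪 p _ m b hmb M x
  obtain ⟨Φ, h1, h2, h3, h4, h5⟩ := oldnew_iter (realT 𝒪 p) c' a' qs N S c hnd hqs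
    (fun ℓ hℓ => ⟨(hS ℓ hℓ).1, (hS ℓ hℓ).2.1, (hS ℓ hℓ).2.2, hc'S ℓ hℓ⟩) hu ht Q hQ
  have top_of : ∀ v, InE (realT 𝒪 p) Q S c v → InE (realT 𝒪 p) Q {q | q ∈ qs} a v →
      InE (realT 𝒪 p) Q (S ∪ {q | q ∈ qs}) c' v := by
    intro v hv1 hv2 ℓ hℓ hℓS
    rcases hℓS with h | h
    · rw [hc'S ℓ h]
      exact hv1 ℓ hℓ h
    · rw [hc'q ℓ h]
      exact hv2 ℓ hℓ h
  have of_top : ∀ v, InE (realT 𝒪 p) Q (S ∪ {q | q ∈ qs}) c' v →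
      InE (realT 𝒪 p) Q S c v ∧ InE (realT 𝒪 p) Q {q | q ∈ qs} a v := by
    intro v hv
    exact ⟨hv.congr _ (fun ℓ _ h => Or.inl h) (fun ℓ h => hc'S ℓ h),
      hv.congr _ (fun ℓ _ h => Or.inr h) (fun ℓ h => hc'q ℓ h)⟩
  refine ⟨Φ, h1, h2, fun v hv1 hv2 => h3 v (top_of v hv1 hv2), fun x hx => ?_,
    fun v hv1 hv2 => h5 v (top_of v hv1 hv2)⟩
  obtain ⟨v, hv, hvx⟩ := h4 x hx
  exact ⟨v, (of_top v hv).1, (of_top v hv).2, hvx⟩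

end Local

end Fermat.Agent.NEB.OLD
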