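/-
NEB, package OLDNEW (owner helper14), leaf OLD-ABS (helper38): `stmt_OldNewAbs : Stmt_OldNewAbs`.
The proof is in `H38_OldAbsCore.lean` (Mathlib only).
-/
import Fermat.Agent.NEB.OLD.Defs
import Fermat.Agent.NEB.OLD.H38_OldAbsCore

set_option autoImplicit false

namespace Fermat.Agent.NEB.OLD.H38

/-- Leaf **OLD-ABS** of package OLDNEW. -/
theorem stmt_OldNewAbs : Stmt_OldNewAbs := by
  intro 𝒪 _ A B _ _ _ _ as bs ad bd T U W q a a' h1 h2 h3 h4 h5 h6 h7 h8 h9 h10 ud ua ua' uq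
    nT nA _
  exact oldNewAbs as bs ad bd T U W q a a' h1 h2 h3 h4 h5 h6 h7 h8 h9 h10 ud ua ua' uq nT nA

end Fermat.Agent.NEB.OLD.H38
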